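-- KUMMER team (helper2): Case I of Fermat's Last Theorem for the exponents 5, 7, 11, 13,
-- by the elementary theorem of Sophie Germain (with Legendre's auxiliary primes `4p+1`).
import Mathlib

set_option autoImplicit false

namespace Fermat.Agent.Kummer

open Finset

/-- The cofactor `(y^p + z^p)/(y + z)` (for odd `p`). -/
def sgPhi (p : ℕ) (y z : ℤ) : ℤ := ∑ i ∈ range p, y ^ i * (-z) ^ (p - 1 - i)

theorem sgPhi_mul {p : ℕ} (hodd : Odd p) (y z : ℤ) :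
    sgPhi p y z * (y + z) = y ^ p + z ^ p := by
  have := geom_sum₂_mul y (-z) p
  rw [hodd.neg_pow, sub_neg_eq_add, sub_neg_eq_add] at this
  exact this

theorem sgPhi_dvd_iff {p : ℕ} {r y z : ℤ} (h : r ∣ y + z) :
    r ∣ sgPhi p y z ↔ r ∣ (p : ℤ) * (-z) ^ (p - 1) := by
  have h' : r ∣ y - (-z) := by rwa [sub_neg_eq_add]
  exact dvd_geom_sum₂_iff_of_dvd_sub h'

theorem sgPhi_isCoprime {p : ℕ} (hp : p.Prime) {y z : ℤ} (hyz : IsCoprime y z)
    (hpyz : ¬ (p : ℤ) ∣ y + z) : IsCoprime (y + z) (sgPhi p y z) := by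
  rw [Int.isCoprime_iff_gcd_eq_one]
  by_contra hne
  obtain ⟨r, hr, hrd⟩ := Nat.exists_prime_and_dvd hne
  have h1 : (r : ℤ) ∣ y + z := (Int.natCast_dvd_natCast.mpr hrd).trans (Int.gcd_dvd_left _ _)
  have h2 : (r : ℤ) ∣ sgPhi p y z :=
    (Int.natCast_dvd_natCast.mpr hrd).trans (Int.gcd_dvd_right _ _)
  rw [sgPhi_dvd_iff h1] at h2
  have hrp : Prime (r : ℤ) := Nat.prime_iff_prime_int.mp hr
  rcases hrp.dvd_or_dvd h2 with h3 | h3
  · have : r = p := (Nat.prime_dvd_prime_iff_eq hr hp).mp (Int.natCast_dvd_natCast.mp h3)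
    subst this
    exact hpyz h1
  · have h4 : (r : ℤ) ∣ z := by simpa using hrp.dvd_of_dvd_pow h3
    have h5 : (r : ℤ) ∣ y := (dvd_add_left h4).mp h1
    exact hrp.not_isUnit (hyz.isUnit_of_dvd' h5 h4)

theorem sg_pow {p : ℕ} (hp : p.Prime) (hodd : Odd p) {x y z : ℤ} (hyz : IsCoprime y z)
    (h : x ^ p + y ^ p + z ^ p = 0) (hpx : ¬ (p : ℤ) ∣ x) :
    ∃ A α : ℤ, y + z = A ^ p ∧ sgPhi p y z = α ^ p := by
  have hmul : (y + z) * sgPhi p y z = (-x) ^ p := by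
    rw [mul_comm, sgPhi_mul hodd, hodd.neg_pow]; linarith
  have hpyz : ¬ (p : ℤ) ∣ y + z := fun hd ↦ hpx <| by
    have h1 : (p : ℤ) ∣ (-x) ^ p := hmul ▸ hd.mul_right _
    have h2 := (Nat.prime_iff_prime_int.mp hp).dvd_of_dvd_pow h1
    simpa using h2
  obtain ⟨⟨A, hA⟩, ⟨α, hα⟩⟩ :=
    Int.eq_pow_of_mul_eq_pow_odd (sgPhi_isCoprime hp hyz hpyz) hodd hmul
  exact ⟨A, α, hA, hα⟩

theorem sg_aux {p q : ℕ} (hp : p.Prime) (hodd : Odd p) (hq : q.Prime)
    (h1 : ∀ x y z : ZMod q, x ^ p + y ^ p + z ^ p = 0 → x * y * z = 0)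
    (h2 : ∀ x : ZMod q, x ^ p ≠ (p : ZMod q))
    {a b c : ℤ} (hab : IsCoprime a b) (hbc : IsCoprime b c) (hca : IsCoprime c a)
    (h : a ^ p + b ^ p + c ^ p = 0) (hpa : ¬ (p : ℤ) ∣ a) (hpb : ¬ (p : ℤ) ∣ b)
    (hpc : ¬ (p : ℤ) ∣ c) (hqa : (q : ℤ) ∣ a) : False := by
  have : Fact q.Prime := ⟨hq⟩
  obtain ⟨A, α, hA, hα⟩ := sg_pow hp hodd hbc h hpa
  obtain ⟨B, β, hB, hβ⟩ := sg_pow hp hodd hca (by linarith) hpb
  obtain ⟨C, γ, hC, -⟩ := sg_pow hp hodd hab (by linarith) hpc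
  have ha0 : (a : ZMod q) = 0 := (ZMod.intCast_zmod_eq_zero_iff_dvd a q).mpr hqa
  have hqP : Prime (q : ℤ) := Nat.prime_iff_prime_int.mp hq
  have hqb : ¬ (q : ℤ) ∣ b := fun hd ↦ hqP.not_isUnit (hab.isUnit_of_dvd' hqa hd)
  have hqc : ¬ (q : ℤ) ∣ c := fun hd ↦ hqP.not_isUnit (hca.isUnit_of_dvd' hd hqa)
  have hb0 : (b : ZMod q) ≠ 0 := fun h0 ↦ hqb ((ZMod.intCast_zmod_eq_zero_iff_dvd b q).mp h0)
  have hc0 : (c : ZMod q) ≠ 0 := fun h0 ↦ hqc ((ZMod.intCast_zmod_eq_zero_iff_dvd c q).mp h0)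
  have hsum : (B : ZMod q) ^ p + (C : ZMod q) ^ p + ((-A : ℤ) : ZMod q) ^ p = 0 := by
    have h3 : B ^ p + C ^ p + (-A) ^ p = 2 * a := by
      rw [hodd.neg_pow, ← hA, ← hB, ← hC]; ring
    have h4 := congrArg (Int.cast : ℤ → ZMod q) h3
    push_cast at h4 ⊢
    rw [h4, ha0, mul_zero]
  have hprod := h1 _ _ _ hsum
  have hB0 : (B : ZMod q) ≠ 0 := by
    intro h0
    have h3 : ((c + a : ℤ) : ZMod q) = 0 := by
      rw [hB]; push_cast; rw [h0, zero_pow hp.ne_zero]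
    push_cast at h3
    rw [ha0, add_zero] at h3
    exact hc0 h3
  have hC0 : (C : ZMod q) ≠ 0 := by
    intro h0
    have h3 : ((a + b : ℤ) : ZMod q) = 0 := by
      rw [hC]; push_cast; rw [h0, zero_pow hp.ne_zero]
    push_cast at h3
    rw [ha0, zero_add] at h3
    exact hb0 h3
  have hA0 : (A : ZMod q) = 0 := by
    rcases mul_eq_zero.mp hprod with h' | h'
    · rcases mul_eq_zero.mp h' with h'' | h''
      · exact absurd h'' hB0
      · exact absurd h'' hC0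
    · simpa using h'
  have hcb : (c : ZMod q) = -(b : ZMod q) := by
    have h3 : ((b + c : ℤ) : ZMod q) = 0 := by
      rw [hA]; push_cast; rw [hA0, zero_pow hp.ne_zero]
    push_cast at h3
    exact eq_neg_of_add_eq_zero_right h3
  have hαq : (α : ZMod q) ^ p = (p : ZMod q) * (b : ZMod q) ^ (p - 1) := by
    have h3 := congrArg (Int.cast : ℤ → ZMod q) hα
    rw [sgPhi] at h3
    push_cast at h3
    rw [← h3, hcb, neg_neg]
    exact geom_sum₂_self _ _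
  have hβq : (β : ZMod q) ^ p = (c : ZMod q) ^ (p - 1) := by
    have h3 := congrArg (Int.cast : ℤ → ZMod q) hβ
    rw [sgPhi] at h3
    push_cast at h3
    rw [← h3, ha0, neg_zero, Finset.sum_eq_single (p - 1)]
    · simp
    · intro i hi hne
      have h4 : p - 1 - i ≠ 0 := by have := mem_range.mp hi; omega
      rw [zero_pow h4, mul_zero]
    · intro hni
      exact absurd (mem_range.mpr (Nat.sub_lt hp.pos one_pos)) hni
  have heven : Even (p - 1) := by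
    obtain ⟨k, hk⟩ := hodd
    exact ⟨k, by omega⟩
  have hcb' : (c : ZMod q) ^ (p - 1) = (b : ZMod q) ^ (p - 1) := by rw [hcb, heven.neg_pow]
  have hβ0 : (β : ZMod q) ≠ 0 := by
    intro h0
    rw [h0, zero_pow hp.ne_zero] at hβq
    exact hc0 (pow_eq_zero_iff (by have := hp.two_le; omega) |>.mp hβq.symm)
  apply h2 ((α : ZMod q) / (β : ZMod q))
  rw [div_pow, hαq, hβq, hcb']
  have hb1 : (b : ZMod q) ^ (p - 1) ≠ 0 := pow_ne_zero _ hb0
  field_simp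

theorem sophie_germain_coprime {p q : ℕ} (hp : p.Prime) (hp2 : p ≠ 2) (hq : q.Prime)
    (h1 : ∀ x y z : ZMod q, x ^ p + y ^ p + z ^ p = 0 → x * y * z = 0)
    (h2 : ∀ x : ZMod q, x ^ p ≠ (p : ZMod q))
    {a b c : ℤ} (hab : IsCoprime a b) (hbc : IsCoprime b c) (hca : IsCoprime c a)
    (h : a ^ p + b ^ p + c ^ p = 0) : (p : ℤ) ∣ a * b * c := by
  have hodd : Odd p := hp.odd_of_ne_two hp2
  by_contra hnd
  have hpa : ¬ (p : ℤ) ∣ a := fun hd ↦ hnd ((hd.mul_right b).mul_right c)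
  have hpb : ¬ (p : ℤ) ∣ b := fun hd ↦ hnd ((hd.mul_left a).mul_right c)
  have hpc : ¬ (p : ℤ) ∣ c := fun hd ↦ hnd (hd.mul_left (a * b))
  have hcast : (a : ZMod q) ^ p + (b : ZMod q) ^ p + (c : ZMod q) ^ p = 0 := by
    exact_mod_cast congrArg (Int.cast : ℤ → ZMod q) h
  have : Fact q.Prime := ⟨hq⟩
  rcases mul_eq_zero.mp (h1 _ _ _ hcast) with h' | h'
  · rcases mul_eq_zero.mp h' with h'' | h''
    · exact sg_aux hp hodd hq h1 h2 hab hbc hca h hpa hpb hpc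
        ((ZMod.intCast_zmod_eq_zero_iff_dvd a q).mp h'')
    · exact sg_aux hp hodd hq h1 h2 hbc hca hab (by linarith) hpb hpc hpa
        ((ZMod.intCast_zmod_eq_zero_iff_dvd b q).mp h'')
  · exact sg_aux hp hodd hq h1 h2 hca hab hbc (by linarith) hpc hpa hpb
      ((ZMod.intCast_zmod_eq_zero_iff_dvd c q).mp h')

/-- **Sophie Germain's theorem.** -/
theorem sophie_germain {p q : ℕ} (hp : p.Prime) (hp2 : p ≠ 2) (hq : q.Prime)
    (h1 : ∀ x y z : ZMod q, x ^ p + y ^ p + z ^ p = 0 → x * y * z = 0)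
    (h2 : ∀ x : ZMod q, x ^ p ≠ (p : ZMod q))
    {a b c : ℤ} (h : a ^ p + b ^ p + c ^ p = 0) : (p : ℤ) ∣ a * b * c := by
  by_cases h0 : a * b * c = 0
  · rw [h0]; exact dvd_zero _
  have ha : a ≠ 0 := fun h' ↦ h0 (by rw [h']; ring)
  have hb : b ≠ 0 := fun h' ↦ h0 (by rw [h']; ring)
  have hc : c ≠ 0 := fun h' ↦ h0 (by rw [h']; ring)
  let s : Finset ℤ := {a, b, c}
  let d := s.gcd id
  obtain ⟨A, hA⟩ : d ∣ a := gcd_dvd (by simp [s])
  obtain ⟨B, hB⟩ : d ∣ b := gcd_dvd (by simp [s])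
  obtain ⟨C, hC⟩ : d ∣ c := gcd_dvd (by simp [s])
  have hd0 : d ≠ 0 := fun h' ↦ ha (by rw [hA, h', zero_mul])
  have hA0 : A ≠ 0 := fun h' ↦ ha (by rw [hA, h', mul_zero])
  have hABC : A ^ p + B ^ p + C ^ p = 0 := by
    have h3 : d ^ p * (A ^ p + B ^ p + C ^ p) = 0 := by
      rw [← h, hA, hB, hC]; ring
    exact (mul_eq_zero.mp h3).resolve_left (pow_ne_zero _ hd0)
  have hgcd : ({A, B, C} : Finset ℤ).gcd id = 1 := by
    rw [← Finset.normalize_gcd, normalize_eq_one]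
    refine isUnit_of_associated_mul (p := d) ?_ hd0
    grw [← Finset.gcd_mul_left', gcd_eq_gcd_image]
    refine .of_eq ?_; congr; simp [s, hA, hB, hC]
  have hAB : IsCoprime A B := isCoprime_of_gcd_eq_one_of_FLT hgcd hABC
  have hBC : IsCoprime B C := by
    refine isCoprime_of_gcd_eq_one_of_FLT (c := A) (n := p) ?_ (by linarith)
    rw [← hgcd]; congr 1; ext x; simp only [mem_insert, mem_singleton]; tauto
  have hCA : IsCoprime C A := by
    refine isCoprime_of_gcd_eq_one_of_FLT (c := B) (n := p) ?_ (by linarith)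
    rw [← hgcd]; congr 1; ext x; simp only [mem_insert, mem_singleton]; tauto
  have := sophie_germain_coprime hp hp2 hq h1 h2 hAB hBC hCA hABC
  rw [hA, hB, hC]
  exact this.trans ⟨d * d * d, by ring⟩

/-- Reduction of the two hypotheses of Sophie Germain's theorem to a finite check on the list of
`p`-th powers modulo `q`. -/
theorem sg_hyps_of_list {p q : ℕ} [Fact q.Prime] (hp0 : p ≠ 0) (S : List (ZMod q))
    (hS : ∀ x : ZMod q, x ^ p ∈ S)
    (hsum : ∀ s ∈ S, ∀ t ∈ S, ∀ u ∈ S, s + t + u = 0 → s * t * u = 0)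
    (hpS : (p : ZMod q) ∉ S) :
    (∀ x y z : ZMod q, x ^ p + y ^ p + z ^ p = 0 → x * y * z = 0) ∧
      ∀ x : ZMod q, x ^ p ≠ (p : ZMod q) := by
  refine ⟨fun x y z h ↦ ?_, fun x hx ↦ hpS (hx ▸ hS x)⟩
  have h3 := hsum _ (hS x) _ (hS y) _ (hS z) h
  rw [← mul_pow, ← mul_pow] at h3
  exact (pow_eq_zero_iff hp0).mp h3

set_option maxRecDepth 100000 in
theorem sg_pows_five : ∀ x : ZMod 11, x ^ 5 ∈ ([0, 1, -1] : List (ZMod 11)) := by decide

set_option maxRecDepth 100000 in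
theorem sg_sums_five : ∀ s ∈ ([0, 1, -1] : List (ZMod 11)), ∀ t ∈ ([0, 1, -1] : List (ZMod 11)),
    ∀ u ∈ ([0, 1, -1] : List (ZMod 11)), s + t + u = 0 → s * t * u = 0 := by decide

theorem sg_notMem_five : ((5 : ℕ) : ZMod 11) ∉ ([0, 1, -1] : List (ZMod 11)) := by decide

theorem sg_hyps_five :
    (∀ x y z : ZMod 11, x ^ 5 + y ^ 5 + z ^ 5 = 0 → x * y * z = 0) ∧
      ∀ x : ZMod 11, x ^ 5 ≠ ((5 : ℕ) : ZMod 11) := by
  have : Fact (Nat.Prime 11) := ⟨by norm_num⟩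
  exact sg_hyps_of_list (by norm_num) _ sg_pows_five sg_sums_five sg_notMem_five

set_option maxRecDepth 100000 in
theorem sg_pows_seven : ∀ x : ZMod 29, x ^ 7 ∈ ([0, 1, -1, 12, -12] : List (ZMod 29)) := by decide

set_option maxRecDepth 100000 in
theorem sg_sums_seven : ∀ s ∈ ([0, 1, -1, 12, -12] : List (ZMod 29)), ∀ t ∈ ([0, 1, -1, 12, -12] : List (ZMod 29)),
    ∀ u ∈ ([0, 1, -1, 12, -12] : List (ZMod 29)), s + t + u = 0 → s * t * u = 0 := by decide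

theorem sg_notMem_seven : ((7 : ℕ) : ZMod 29) ∉ ([0, 1, -1, 12, -12] : List (ZMod 29)) := by decide

theorem sg_hyps_seven :
    (∀ x y z : ZMod 29, x ^ 7 + y ^ 7 + z ^ 7 = 0 → x * y * z = 0) ∧
      ∀ x : ZMod 29, x ^ 7 ≠ ((7 : ℕ) : ZMod 29) := by
  have : Fact (Nat.Prime 29) := ⟨by norm_num⟩
  exact sg_hyps_of_list (by norm_num) _ sg_pows_seven sg_sums_seven sg_notMem_seven

set_option maxRecDepth 100000 in
theorem sg_pows_eleven : ∀ x : ZMod 23, x ^ 11 ∈ ([0, 1, -1] : List (ZMod 23)) := by decide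

set_option maxRecDepth 100000 in
theorem sg_sums_eleven : ∀ s ∈ ([0, 1, -1] : List (ZMod 23)), ∀ t ∈ ([0, 1, -1] : List (ZMod 23)),
    ∀ u ∈ ([0, 1, -1] : List (ZMod 23)), s + t + u = 0 → s * t * u = 0 := by decide

theorem sg_notMem_eleven : ((11 : ℕ) : ZMod 23) ∉ ([0, 1, -1] : List (ZMod 23)) := by decide

theorem sg_hyps_eleven :
    (∀ x y z : ZMod 23, x ^ 11 + y ^ 11 + z ^ 11 = 0 → x * y * z = 0) ∧
      ∀ x : ZMod 23, x ^ 11 ≠ ((11 : ℕ) : ZMod 23) := by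
  have : Fact (Nat.Prime 23) := ⟨by norm_num⟩
  exact sg_hyps_of_list (by norm_num) _ sg_pows_eleven sg_sums_eleven sg_notMem_eleven

set_option maxRecDepth 100000 in
theorem sg_pows_thirteen : ∀ x : ZMod 53, x ^ 13 ∈ ([0, 1, -1, 23, -23] : List (ZMod 53)) := by decide

set_option maxRecDepth 100000 in
theorem sg_sums_thirteen : ∀ s ∈ ([0, 1, -1, 23, -23] : List (ZMod 53)), ∀ t ∈ ([0, 1, -1, 23, -23] : List (ZMod 53)),
    ∀ u ∈ ([0, 1, -1, 23, -23] : List (ZMod 53)), s + t + u = 0 → s * t * u = 0 := by decide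

theorem sg_notMem_thirteen : ((13 : ℕ) : ZMod 53) ∉ ([0, 1, -1, 23, -23] : List (ZMod 53)) := by decide

theorem sg_hyps_thirteen :
    (∀ x y z : ZMod 53, x ^ 13 + y ^ 13 + z ^ 13 = 0 → x * y * z = 0) ∧
      ∀ x : ZMod 53, x ^ 13 ≠ ((13 : ℕ) : ZMod 53) := by
  have : Fact (Nat.Prime 53) := ⟨by norm_num⟩
  exact sg_hyps_of_list (by norm_num) _ sg_pows_thirteen sg_sums_thirteen sg_notMem_thirteen

/-- **Case I of Fermat's Last Theorem for the exponents 5, 7, 11, 13** (three-term form). -/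
theorem caseI_sum {p : ℕ} (hp : p = 5 ∨ p = 7 ∨ p = 11 ∨ p = 13) {a b c : ℤ}
    (h : a ^ p + b ^ p + c ^ p = 0) : (p : ℤ) ∣ a * b * c := by
  rcases hp with rfl | rfl | rfl | rfl
  · exact sophie_germain (q := 11) (by norm_num) (by norm_num) (by norm_num)
      sg_hyps_five.1 sg_hyps_five.2 h
  · exact sophie_germain (q := 29) (by norm_num) (by norm_num) (by norm_num)
      sg_hyps_seven.1 sg_hyps_seven.2 h
  · exact sophie_germain (q := 23) (by norm_num) (by norm_num) (by norm_num)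
      sg_hyps_eleven.1 sg_hyps_eleven.2 h
  · exact sophie_germain (q := 53) (by norm_num) (by norm_num) (by norm_num)
      sg_hyps_thirteen.1 sg_hyps_thirteen.2 h

/-- **Case I of Fermat's Last Theorem for the exponents 5, 7, 11, 13**: in any integer solution
of `a^p + b^p = c^p`, the prime `p` divides `a * b * c`. -/
theorem caseI {p : ℕ} (hp : p = 5 ∨ p = 7 ∨ p = 11 ∨ p = 13) {a b c : ℤ}
    (h : a ^ p + b ^ p = c ^ p) : (p : ℤ) ∣ a * b * c := by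
  have hodd : Odd p := by rcases hp with rfl | rfl | rfl | rfl <;> decide
  have h3 : a ^ p + b ^ p + (-c) ^ p = 0 := by rw [hodd.neg_pow, h]; ring
  have h4 := caseI_sum hp h3
  rwa [mul_neg, dvd_neg] at h4

end Fermat.Agent.Kummer
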