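-- KUMMER team (helper2): Case II of Fermat's Last Theorem, the descent on
-- `x^p + y^p = ε * λ^(m*p) * z^p` in a principal ideal domain with a primitive `p`-th root of
-- unity, given Kummer's lemma as a hypothesis.  No number fields appear in this file.
import Mathlib

set_option autoImplicit false
set_option linter.unusedSectionVars false

namespace Fermat.Agent.Kummer

open Polynomial Finset

/-- The data needed for the Case II descent in a ring `R` with a `p`-th root of unity `ζ`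
(`λ = ζ - 1`). -/
structure KummerData (R : Type*) [CommRing R] (p : ℕ) (ζ : R) : Prop where
  prime : p.Prime
  ne_two : p ≠ 2
  root : IsPrimitiveRoot ζ p
  lam_prime : Prime (ζ - 1)
  card : Nat.card (R ⧸ Ideal.span {ζ - 1}) = p
  assoc : Associated ((ζ - 1) ^ (p - 1)) (p : R)
  pow_int : ∀ x : R, ∃ n : ℤ, (p : R) ∣ x ^ p - n
  kummer : ∀ u : Rˣ, (∃ n : ℤ, (p : R) ∣ (u : R) - n) → ∃ v : Rˣ, u = v ^ p

namespace KummerData

variable {R : Type*} [CommRing R] [IsDomain R] {p : ℕ} {ζ : R}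

theorem odd (D : KummerData R p ζ) : Odd p := D.prime.odd_of_ne_two D.ne_two

theorem three_le (D : KummerData R p ζ) : 3 ≤ p := by
  have := D.prime.two_le
  have := D.ne_two
  omega

theorem one_mem (D : KummerData R p ζ) : (1 : R) ∈ nthRootsFinset p (1 : R) :=
  (mem_nthRootsFinset D.prime.pos 1).mpr (one_pow _)

theorem zeta_mem (D : KummerData R p ζ) : ζ ∈ nthRootsFinset p (1 : R) :=
  (mem_nthRootsFinset D.prime.pos 1).mpr D.root.pow_eq_one

theorem zeta_pow_mem (D : KummerData R p ζ) (k : ℕ) : ζ ^ k ∈ nthRootsFinset p (1 : R) := by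
  rw [mem_nthRootsFinset D.prime.pos 1, ← pow_mul, mul_comm, pow_mul, D.root.pow_eq_one, one_pow]

theorem isUnit_of_mem (D : KummerData R p ζ) {η : R} (hη : η ∈ nthRootsFinset p (1 : R)) :
    IsUnit η :=
  IsUnit.of_pow_eq_one ((mem_nthRootsFinset D.prime.pos 1).mp hη) D.prime.ne_zero

theorem pow_eq_one_of_mem (D : KummerData R p ζ) {η : R} (hη : η ∈ nthRootsFinset p (1 : R)) :
    η ^ p = 1 :=
  (mem_nthRootsFinset D.prime.pos 1).mp hη

/-- `p` is divisible by `λ`. -/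
theorem lam_dvd_p (D : KummerData R p ζ) : ζ - 1 ∣ (p : R) :=
  (dvd_pow_self _ (by have := D.three_le; omega)).trans D.assoc.dvd

/-- `λ ^ k` is divisible by `p` as soon as `p - 1 ≤ k`. -/
theorem p_dvd_lam_pow (D : KummerData R p ζ) {k : ℕ} (hk : p - 1 ≤ k) : (p : R) ∣ (ζ - 1) ^ k :=
  D.assoc.symm.dvd.trans (pow_dvd_pow _ hk)

section Step

variable (D : KummerData R p ζ) {m : ℕ} {x y z : R} {ε : Rˣ}

include D in
/-- `λ` does not divide `y`. -/
theorem not_dvd_right (hm : 1 ≤ m) (hxy : IsCoprime x y)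
    (h : x ^ p + y ^ p = ε * (ζ - 1) ^ (m * p) * z ^ p) : ¬ ζ - 1 ∣ y := by
  intro hy
  have hpos : m * p ≠ 0 := by have := D.prime.pos; positivity
  have h1 : ζ - 1 ∣ x ^ p + y ^ p := by
    rw [h]
    exact Dvd.dvd.mul_right (Dvd.dvd.mul_left (dvd_pow_self _ hpos) _) _
  have h2 : ζ - 1 ∣ x ^ p := (dvd_add_left (hy.trans (dvd_pow_self _ D.prime.ne_zero))).mp h1
  have h3 : ζ - 1 ∣ x := D.lam_prime.dvd_of_dvd_pow h2
  exact D.lam_prime.not_isUnit (hxy.isUnit_of_dvd' h3 hy)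

include D in
/-- `λ` divides every factor `x + η y`. -/
theorem dvd_factor (hm : 1 ≤ m) (h : x ^ p + y ^ p = ε * (ζ - 1) ^ (m * p) * z ^ p)
    {η : R} (hη : η ∈ nthRootsFinset p (1 : R)) : ζ - 1 ∣ x + η * y := by
  have hpos : m * p ≠ 0 := by have := D.prime.pos; positivity
  have h1 : ζ - 1 ∣ ∏ η ∈ nthRootsFinset p (1 : R), (x + η * y) := by
    rw [← D.root.pow_add_pow_eq_prod_add_mul x y D.odd, h]
    exact Dvd.dvd.mul_right (Dvd.dvd.mul_left (dvd_pow_self _ hpos) _) _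
  obtain ⟨η₀, hη₀, h2⟩ := D.lam_prime.exists_mem_finset_dvd h1
  have h3 : ζ - 1 ∣ (η - η₀) * y := (D.root.sub_one_dvd_sub D.prime hη hη₀).mul_right y
  have h4 : x + η * y = (x + η₀ * y) + (η - η₀) * y := by ring
  rw [h4]
  exact dvd_add h2 h3

include D in
/-- Two distinct roots of unity differ by a unit times `λ`. -/
theorem exists_unit_sub {η₁ η₂ : R} (h₁ : η₁ ∈ nthRootsFinset p (1 : R))
    (h₂ : η₂ ∈ nthRootsFinset p (1 : R)) (hne : η₁ ≠ η₂) : ∃ u : Rˣ, η₁ - η₂ = (ζ - 1) * u := by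
  obtain ⟨u, hu⟩ := D.root.nthRootsFinset_pairwise_associated_sub_one_sub_of_prime D.prime
    h₁ h₂ hne
  exact ⟨u, hu.symm⟩

include D in
/-- Some factor `x + η₀ y` is divisible by `λ ^ 2`. -/
theorem exists_sq_dvd_factor (hm : 1 ≤ m) (hxy : IsCoprime x y)
    (h : x ^ p + y ^ p = ε * (ζ - 1) ^ (m * p) * z ^ p) :
    ∃ η₀ ∈ nthRootsFinset p (1 : R), (ζ - 1) ^ 2 ∣ x + η₀ * y := by
  have hy := D.not_dvd_right hm hxy h
  have hlam0 : ζ - 1 ≠ 0 := D.lam_prime.ne_zero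
  have hB : ∀ η : R, η ∈ nthRootsFinset p (1 : R) → ∃ c : R, x + η * y = (ζ - 1) * c :=
    fun η hη ↦ D.dvd_factor hm h hη
  choose! c hc using hB
  let f : (nthRootsFinset p (1 : R)) → R ⧸ Ideal.span {ζ - 1} :=
    fun η ↦ Ideal.Quotient.mk _ (c η)
  have hfin : Finite (R ⧸ Ideal.span {ζ - 1}) :=
    Nat.finite_of_card_ne_zero (by rw [D.card]; exact D.prime.ne_zero)
  have hinj : Function.Injective f := by
    intro η₁ η₂ h12
    by_contra hne
    have hne' : (η₁ : R) ≠ η₂ := fun h' ↦ hne (Subtype.ext h')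
    have h1 : ζ - 1 ∣ c η₁ - c η₂ := by
      rw [← Ideal.mem_span_singleton, ← Ideal.Quotient.mk_eq_mk_iff_sub_mem]
      exact h12
    obtain ⟨u, hu⟩ := D.exists_unit_sub η₁.2 η₂.2 hne'
    have h2 : (ζ - 1) * (c η₁ - c η₂) = (ζ - 1) * (u * y) := by
      rw [mul_sub, ← hc _ η₁.2, ← hc _ η₂.2, ← mul_assoc, ← hu]; ring
    have h3 : c η₁ - c η₂ = u * y := mul_left_cancel₀ hlam0 h2
    rw [h3] at h1
    exact hy ((Units.dvd_mul_left).mp (by rwa [mul_comm] at h1))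
  have hbij : Function.Bijective f := hinj.bijective_of_nat_card_le (by
    rw [D.card, Nat.card_eq_fintype_card, Fintype.card_coe, D.root.card_nthRootsFinset])
  obtain ⟨η₀, hη₀⟩ := hbij.2 0
  refine ⟨η₀, η₀.2, ?_⟩
  have h1 : ζ - 1 ∣ c η₀ := by
    rw [← Ideal.Quotient.eq_zero_iff_dvd]; exact hη₀
  rw [hc _ η₀.2, pow_two]
  exact mul_dvd_mul_left _ h1

include D in
theorem zeta_ne_one : ζ ≠ 1 := D.root.ne_one D.prime.one_lt

include D in
theorem zeta_pow_pred_ne_one : ζ ^ (p - 1) ≠ 1 :=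
  D.root.pow_ne_one_of_pos_of_lt (by have := D.three_le; omega) (by have := D.three_le; omega)

include D in
theorem zeta_ne_zeta_pow_pred : ζ ≠ ζ ^ (p - 1) := by
  intro h
  have h1 : ζ ^ 2 = 1 := by
    rw [pow_two]
    nth_rewrite 2 [h]
    rw [← pow_succ', Nat.sub_add_cancel D.prime.one_le, D.root.pow_eq_one]
  exact D.root.pow_ne_one_of_pos_of_lt (by norm_num) (by have := D.three_le; omega) h1

include D in
theorem isUnit_one_add_zeta : IsUnit (1 + ζ) := by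
  have h := D.root.geom_sum_isUnit D.prime.two_le (j := 2)
    ((Nat.coprime_primes Nat.prime_two D.prime).mpr D.ne_two.symm)
  simpa [Finset.sum_range_succ] using h

include D in
/-- The descent step, assuming `λ ^ 2 ∣ x + y`. -/
theorem descent_aux [IsPrincipalIdealRing R] (hm : 1 ≤ m) (hxy : IsCoprime x y)
    (hz : ¬ ζ - 1 ∣ z) (h : x ^ p + y ^ p = ε * (ζ - 1) ^ (m * p) * z ^ p)
    (hsq : (ζ - 1) ^ 2 ∣ x + y) :
    2 ≤ m ∧ ∃ (x' y' z' : R) (ε' : Rˣ), IsCoprime x' y' ∧ ¬ ζ - 1 ∣ z' ∧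
      x' ^ p + y' ^ p = ε' * (ζ - 1) ^ ((m - 1) * p) * z' ^ p := by
  classical
  set S := nthRootsFinset p (1 : R) with hS
  have hy := D.not_dvd_right hm hxy h
  have hlam0 : ζ - 1 ≠ 0 := D.lam_prime.ne_zero
  have hp0 : p ≠ 0 := D.prime.ne_zero
  have hB : ∀ η : R, η ∈ S → ∃ c : R, x + η * y = (ζ - 1) * c := fun η hη ↦ D.dvd_factor hm h hη
  choose! c hc using hB
  -- the product of the quotients
  have hprod : ∏ η ∈ S, c η = ε * (ζ - 1) ^ ((m - 1) * p) * z ^ p := by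
    have h1 : (ζ - 1) ^ p * ∏ η ∈ S, c η =
        (ζ - 1) ^ p * (ε * (ζ - 1) ^ ((m - 1) * p) * z ^ p) := by
      calc (ζ - 1) ^ p * ∏ η ∈ S, c η = ∏ η ∈ S, ((ζ - 1) * c η) := by
            rw [Finset.prod_mul_distrib, Finset.prod_const, D.root.card_nthRootsFinset]
        _ = ∏ η ∈ S, (x + η * y) := Finset.prod_congr rfl fun η hη ↦ (hc η hη).symm
        _ = x ^ p + y ^ p := (D.root.pow_add_pow_eq_prod_add_mul x y D.odd).symm
        _ = _ := by
            rw [h]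
            have h2 : m * p = p + (m - 1) * p := by
              obtain ⟨k, rfl⟩ : ∃ k, m = k + 1 := ⟨m - 1, by omega⟩
              rw [Nat.add_sub_cancel]; ring
            rw [h2, pow_add]; ring
    exact mul_left_cancel₀ (pow_ne_zero _ hlam0) h1
  -- the quotients are pairwise coprime
  have hcop : ∀ η₁ ∈ S, ∀ η₂ ∈ S, η₁ ≠ η₂ → IsCoprime (c η₁) (c η₂) := by
    intro η₁ h₁ η₂ h₂ hne
    obtain ⟨u, hu⟩ := D.exists_unit_sub h₁ h₂ hne
    have h2 : (ζ - 1) * (c η₁ - c η₂) = (ζ - 1) * (u * y) := by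
      rw [mul_sub, ← hc _ h₁, ← hc _ h₂, ← mul_assoc, ← hu]; ring
    have h3 : c η₁ - c η₂ = u * y := mul_left_cancel₀ hlam0 h2
    obtain ⟨r, s, hrs⟩ := hxy
    have hy' : y = ↑u⁻¹ * (c η₁ - c η₂) := by rw [h3, ← mul_assoc, Units.inv_mul, one_mul]
    have hx' : x = (ζ - 1) * c η₁ - η₁ * y := by rw [← hc _ h₁]; ring
    refine ⟨r * (ζ - 1) + (s - r * η₁) * ↑u⁻¹, -((s - r * η₁) * ↑u⁻¹), ?_⟩
    linear_combination hrs - r * hx' - (s - r * η₁) * hy'
  have h1S : (1 : R) ∈ S := D.one_mem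
  -- `λ` does not divide the quotients for `η ≠ 1`
  have hndvd : ∀ η ∈ S, η ≠ 1 → ¬ ζ - 1 ∣ c η := by
    intro η hη hne hdvd
    obtain ⟨u, hu⟩ := D.exists_unit_sub hη h1S hne
    have h1 : (ζ - 1) ^ 2 ∣ x + η * y := by
      rw [hc η hη, pow_two]; exact mul_dvd_mul_left _ hdvd
    have h2 : (ζ - 1) ^ 2 ∣ (ζ - 1) * (u * y) := by
      have h3 : (ζ - 1) * (u * y) = (x + η * y) - (x + y) := by rw [← mul_assoc, ← hu]; ring
      rw [h3]; exact dvd_sub h1 hsq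
    rw [pow_two] at h2
    have h3 : ζ - 1 ∣ ↑u * y := (mul_dvd_mul_iff_left hlam0).mp h2
    exact hy (Units.dvd_mul_left.mp h3)
  have hT : ¬ ζ - 1 ∣ ∏ η ∈ S.erase 1, c η := by
    intro hd
    obtain ⟨η, hη, hd'⟩ := D.lam_prime.exists_mem_finset_dvd hd
    exact hndvd η (Finset.mem_of_mem_erase hη) (Finset.ne_of_mem_erase hη) hd'
  have hsplit : c 1 * ∏ η ∈ S.erase 1, c η = ε * (ζ - 1) ^ ((m - 1) * p) * z ^ p := by
    rw [Finset.mul_prod_erase S c h1S, hprod]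
  have hc1 : ζ - 1 ∣ c 1 := by
    have h1 : (ζ - 1) ^ 2 ∣ (ζ - 1) * c 1 := by rw [← hc 1 h1S, one_mul]; exact hsq
    rw [pow_two] at h1
    exact (mul_dvd_mul_iff_left hlam0).mp h1
  -- `m ≥ 2`
  have hm2 : 2 ≤ m := by
    by_contra hlt
    have hm1 : m = 1 := by omega
    subst hm1
    simp only [Nat.sub_self, zero_mul, pow_zero, mul_one] at hsplit
    have h1 : ζ - 1 ∣ ↑ε * z ^ p := hsplit ▸ hc1.mul_right _
    exact hz (D.lam_prime.dvd_of_dvd_pow (Units.dvd_mul_left.mp h1))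
  refine ⟨hm2, ?_⟩
  -- `c 1 = λ ^ ((m - 1) p) * c₀`
  have hpow_dvd : (ζ - 1) ^ ((m - 1) * p) ∣ c 1 := by
    apply D.lam_prime.pow_dvd_of_dvd_mul_right _ hT
    rw [hsplit]
    exact Dvd.dvd.mul_right (Dvd.intro_left _ rfl) _
  obtain ⟨c₀, hc₀⟩ := hpow_dvd
  have hsplit' : c₀ * ∏ η ∈ S.erase 1, c η = ε * z ^ p := by
    have h1 : (ζ - 1) ^ ((m - 1) * p) * (c₀ * ∏ η ∈ S.erase 1, c η) =
        (ζ - 1) ^ ((m - 1) * p) * (ε * z ^ p) := by
      rw [← mul_assoc, ← hc₀, hsplit]; ring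
    exact mul_left_cancel₀ (pow_ne_zero _ hlam0) h1
  have hc₀ndvd : ¬ ζ - 1 ∣ c₀ := by
    intro hd
    have h1 : ζ - 1 ∣ ↑ε * z ^ p := hsplit' ▸ hd.mul_right _
    exact hz (D.lam_prime.dvd_of_dvd_pow (Units.dvd_mul_left.mp h1))
  -- `p`-th powers
  have hcop0 : ∀ η ∈ S, η ≠ 1 → IsCoprime (c η) c₀ := by
    intro η hη hne
    have h1 := hcop η hη 1 h1S hne
    rw [hc₀] at h1
    exact h1.of_mul_right_right
  have hpow0 : ∃ d, Associated (d ^ p) c₀ := by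
    have hcop1 : IsCoprime c₀ (∏ η ∈ S.erase 1, c η) :=
      IsCoprime.prod_right fun η hη ↦
        (hcop0 η (Finset.mem_of_mem_erase hη) (Finset.ne_of_mem_erase hη)).symm
    refine exists_associated_pow_of_associated_pow_mul hcop1 (c := z) ⟨ε, ?_⟩
    rw [hsplit']; ring
  have hpowT : ∀ η₁ ∈ S, η₁ ≠ 1 → ∃ d, Associated (d ^ p) (c η₁) := by
    intro η₁ h₁ hne
    have hmem : η₁ ∈ S.erase 1 := Finset.mem_erase.mpr ⟨hne, h₁⟩
    have hcop1 : IsCoprime (c η₁) (c₀ * ∏ η ∈ (S.erase 1).erase η₁, c η) :=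
      (hcop0 η₁ h₁ hne).mul_right (IsCoprime.prod_right fun η hη ↦
        hcop η₁ h₁ η (Finset.mem_of_mem_erase (Finset.mem_of_mem_erase hη))
          (Finset.ne_of_mem_erase hη).symm)
    refine exists_associated_pow_of_associated_pow_mul hcop1 (c := z) ⟨ε, ?_⟩
    rw [mul_left_comm, Finset.mul_prod_erase _ c hmem, hsplit']; ring
  obtain ⟨d₀, u₀, hd₀⟩ := hpow0
  obtain ⟨d₁, u₁, hd₁⟩ := hpowT ζ D.zeta_mem D.zeta_ne_one
  obtain ⟨d₂, u₂, hd₂⟩ := hpowT (ζ ^ (p - 1)) (D.zeta_pow_mem _) D.zeta_pow_pred_ne_one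
  -- the linear relation between three factors
  have hζζ : ζ * ζ ^ (p - 1) = 1 := by
    rw [← pow_succ', Nat.sub_add_cancel D.prime.one_le, D.root.pow_eq_one]
  have key : d₁ ^ p * u₁ + ζ * (d₂ ^ p * u₂) = (1 + ζ) * ((ζ - 1) ^ ((m - 1) * p) * (d₀ ^ p * u₀)) := by
    rw [hd₀, hd₁, hd₂, ← hc₀]
    have h1 : (ζ - 1) * (c ζ + ζ * c (ζ ^ (p - 1))) = (ζ - 1) * ((1 + ζ) * c 1) := by
      have e1 := hc ζ D.zeta_mem
      have e2 := hc (ζ ^ (p - 1)) (D.zeta_pow_mem _)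
      have e3 := hc 1 h1S
      linear_combination (-1 : R) * e1 - ζ * e2 + (1 + ζ) * e3 + y * hζζ
    exact mul_left_cancel₀ hlam0 h1
  obtain ⟨uζ, huζ⟩ := D.isUnit_of_mem D.zeta_mem
  obtain ⟨w, hw⟩ := D.isUnit_one_add_zeta
  have hinv : (↑u₁ : R) * ↑u₁⁻¹ = 1 := Units.mul_inv u₁
  have hE : d₁ ^ p + ↑(uζ * u₂ * u₁⁻¹) * d₂ ^ p =
      ↑(w * u₀ * u₁⁻¹) * (ζ - 1) ^ ((m - 1) * p) * d₀ ^ p := by
    simp only [Units.val_mul, huζ, hw]
    linear_combination (↑u₁⁻¹ : R) * key - d₁ ^ p * hinv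
  -- `λ` does not divide `d₂`, `d₀`
  have hd₂ndvd : ¬ ζ - 1 ∣ d₂ := fun hd ↦
    hndvd _ (D.zeta_pow_mem _) D.zeta_pow_pred_ne_one
      (hd₂ ▸ Dvd.dvd.mul_right (hd.trans (dvd_pow_self _ hp0)) _)
  have hd₀ndvd : ¬ ζ - 1 ∣ d₀ := fun hd ↦
    hc₀ndvd (hd₀ ▸ Dvd.dvd.mul_right (hd.trans (dvd_pow_self _ hp0)) _)
  -- the unit is congruent to an integer modulo `p`
  have hcong : ∃ n : ℤ, (p : R) ∣ ((uζ * u₂ * u₁⁻¹ : Rˣ) : R) - n := by
    set η' : R := ((uζ * u₂ * u₁⁻¹ : Rˣ) : R) with hη'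
    obtain ⟨A₃, hA₃⟩ : (p : R) ∣ d₁ ^ p + η' * d₂ ^ p := by
      rw [hE]
      exact Dvd.dvd.mul_right (Dvd.dvd.mul_left (D.p_dvd_lam_pow (by
        have : p ≤ (m - 1) * p := Nat.le_mul_of_pos_left _ (by omega)
        omega)) _) _
    obtain ⟨n₁, A₁, hA₁⟩ := D.pow_int d₁
    obtain ⟨n₂, A₂, hA₂⟩ := D.pow_int d₂
    have hn₂ : ¬ (p : ℤ) ∣ n₂ := by
      intro hd
      obtain ⟨t, ht⟩ := hd
      have h1 : (p : R) ∣ d₂ ^ p := by
        refine ⟨A₂ + t, ?_⟩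
        have h2 : (n₂ : R) = (p : R) * t := by rw [ht]; push_cast; ring
        linear_combination hA₁ * 0 + hA₂ + h2
      exact hd₂ndvd (D.lam_prime.dvd_of_dvd_pow (D.lam_dvd_p.trans h1))
    have hcop2 : IsCoprime (p : ℤ) n₂ :=
      (Nat.prime_iff_prime_int.mp D.prime).coprime_iff_not_dvd.mpr hn₂
    obtain ⟨r, s, hrs⟩ := hcop2
    have hrs' : (r : R) * p + s * n₂ = 1 := by exact_mod_cast congrArg (Int.cast : ℤ → R) hrs
    refine ⟨-(s * n₁), η' * r + s * (A₃ - η' * A₂ - A₁), ?_⟩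
    push_cast
    linear_combination (-η') * hrs' + (s : R) * hA₃ - (s : R) * η' * hA₂ - (s : R) * hA₁
  obtain ⟨v, hv⟩ := D.kummer _ hcong
  refine ⟨d₁, v * d₂, d₀, w * u₀ * u₁⁻¹, ?_, hd₀ndvd, ?_⟩
  · have h1 : IsCoprime (c ζ) (c (ζ ^ (p - 1))) :=
      hcop ζ D.zeta_mem _ (D.zeta_pow_mem _) D.zeta_ne_zeta_pow_pred
    rw [← hd₁, ← hd₂] at h1
    have h2 : IsCoprime (d₁ ^ p) (d₂ ^ p) := h1.of_mul_left_left.of_mul_right_left
    have h3 : IsCoprime d₁ d₂ := (IsCoprime.pow_iff D.prime.pos D.prime.pos).mp h2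
    exact (isCoprime_mul_unit_left_right v.isUnit d₁ d₂).mpr h3
  · rw [← hE, hv, mul_pow, Units.val_pow_eq_pow_val]

include D in
/-- The descent step. -/
theorem descent [IsPrincipalIdealRing R] (hm : 1 ≤ m) (hxy : IsCoprime x y)
    (hz : ¬ ζ - 1 ∣ z) (h : x ^ p + y ^ p = ε * (ζ - 1) ^ (m * p) * z ^ p) :
    2 ≤ m ∧ ∃ (x' y' z' : R) (ε' : Rˣ), IsCoprime x' y' ∧ ¬ ζ - 1 ∣ z' ∧
      x' ^ p + y' ^ p = ε' * (ζ - 1) ^ ((m - 1) * p) * z' ^ p := by
  obtain ⟨η₀, hη₀, hsq⟩ := D.exists_sq_dvd_factor hm hxy h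
  have hxy' : IsCoprime x (η₀ * y) :=
    (isCoprime_mul_unit_left_right (D.isUnit_of_mem hη₀) x y).mpr hxy
  have h' : x ^ p + (η₀ * y) ^ p = ε * (ζ - 1) ^ (m * p) * z ^ p := by
    rw [mul_pow, D.pow_eq_one_of_mem hη₀, one_mul, h]
  exact D.descent_aux hm hxy' hz h' hsq

end Step

/-- **Case II descent**: the equation `x ^ p + y ^ p = ε * λ ^ (m * p) * z ^ p` has no solution
with `x`, `y` coprime, `λ ∤ z` and `m ≥ 1`. -/
theorem no_solution [IsPrincipalIdealRing R] (D : KummerData R p ζ) :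
    ∀ m : ℕ, 1 ≤ m → ∀ (x y z : R) (ε : Rˣ), IsCoprime x y → ¬ ζ - 1 ∣ z →
      x ^ p + y ^ p = ε * (ζ - 1) ^ (m * p) * z ^ p → False := by
  intro m
  induction m with
  | zero => intro h; omega
  | succ k ih =>
    intro _ x y z ε hxy hz h
    obtain ⟨hm2, x', y', z', ε', hxy', hz', h'⟩ := D.descent (by omega) hxy hz h
    exact ih (by omega) x' y' z' ε' hxy' hz' (by simpa using h')

/-- Case II for rational integers with `p ∣ c`. -/
theorem caseII_int [IsPrincipalIdealRing R] (D : KummerData R p ζ) {a b c : ℤ}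
    (hab : IsCoprime a b) (hc0 : c ≠ 0) (hpc : (p : ℤ) ∣ c) (h : a ^ p + b ^ p = c ^ p) :
    False := by
  have hpP : Prime (p : ℤ) := Nat.prime_iff_prime_int.mp D.prime
  have hfin : FiniteMultiplicity (p : ℤ) c :=
    Int.finiteMultiplicity_iff.mpr ⟨by simpa using D.prime.ne_one, hc0⟩
  obtain ⟨c₀, hc₀, hndvd⟩ := hfin.exists_eq_pow_mul_and_not_dvd
  set k := multiplicity (p : ℤ) c with hk
  have hk1 : 1 ≤ k := by
    by_contra hlt
    have hk0 : k = 0 := by omega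
    rw [hk0, pow_zero, one_mul] at hc₀
    exact hndvd (hc₀ ▸ hpc)
  obtain ⟨w, hw⟩ := D.assoc
  -- `λ ∤ c₀`
  have hz : ¬ ζ - 1 ∣ (c₀ : R) := by
    intro hd
    obtain ⟨r, s, hrs⟩ := hpP.coprime_iff_not_dvd.mpr hndvd
    have hrs' : (r : R) * p + s * c₀ = 1 := by exact_mod_cast congrArg (Int.cast : ℤ → R) hrs
    have h1 : ζ - 1 ∣ (r : R) * p + s * c₀ :=
      dvd_add (D.lam_dvd_p.mul_left _) (hd.mul_left _)
    rw [hrs'] at h1
    exact D.lam_prime.not_dvd_one h1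
  have hxy : IsCoprime (a : R) (b : R) := by
    have := hab.map (Int.castRingHom R)
    simpa using this
  have hp1 : p - 1 + 1 = p := Nat.sub_add_cancel D.prime.one_le
  have heq : (a : R) ^ p + (b : R) ^ p =
      ((w ^ (k * p) : Rˣ) : R) * (ζ - 1) ^ ((p - 1) * k * p) * (c₀ : R) ^ p := by
    have h1 : ((a ^ p + b ^ p : ℤ) : R) = ((c ^ p : ℤ) : R) := by rw [h]
    push_cast at h1
    rw [h1, hc₀]
    push_cast
    rw [← hw]
    ring
  exact D.no_solution ((p - 1) * k) (Nat.mul_pos (by have := D.three_le; omega) hk1)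
    (a : R) (b : R) (c₀ : R) (w ^ (k * p)) hxy hz heq

/-- **Fermat's Last Theorem for the exponent `p`**, from Case I and the Case II descent data. -/
theorem flt [IsPrincipalIdealRing R] (D : KummerData R p ζ)
    (hI : ∀ a b c : ℤ, a ^ p + b ^ p + c ^ p = 0 → (p : ℤ) ∣ a * b * c) :
    FermatLastTheoremFor p := by
  rw [fermatLastTheoremFor_iff_int]
  refine fermatLastTheoremWith_of_fermatLastTheoremWith_coprime fun a b c ha hb hc hgcd h ↦ ?_
  have hodd := D.odd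
  have hpP : Prime (p : ℤ) := Nat.prime_iff_prime_int.mp D.prime
  have h3 : a ^ p + b ^ p + (-c) ^ p = 0 := by rw [hodd.neg_pow, h]; ring
  have hgcd' : ({a, b, -c} : Finset ℤ).gcd id = 1 := by
    rw [← hgcd]
    simp only [Finset.gcd_insert, Finset.gcd_singleton, id_eq, ← Int.abs_eq_normalize, abs_neg]
  have hab : IsCoprime a b := isCoprime_of_gcd_eq_one_of_FLT hgcd' h3
  have hbc : IsCoprime b (-c) := by
    refine isCoprime_of_gcd_eq_one_of_FLT (c := a) (n := p) ?_ (by linarith)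
    rw [← hgcd']; congr 1; ext x; simp only [Finset.mem_insert, Finset.mem_singleton]; tauto
  have hca : IsCoprime (-c) a := by
    refine isCoprime_of_gcd_eq_one_of_FLT (c := b) (n := p) ?_ (by linarith)
    rw [← hgcd']; congr 1; ext x; simp only [Finset.mem_insert, Finset.mem_singleton]; tauto
  rcases hpP.dvd_or_dvd (hI a b (-c) h3) with h4 | h4
  · rcases hpP.dvd_or_dvd h4 with h5 | h5
    · -- `p ∣ a`: `c ^ p + (-b) ^ p = a ^ p`
      refine D.caseII_int (a := c) (b := -b) (c := a) ?_ ha h5 (by rw [hodd.neg_pow, ← h]; ring)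
      exact (IsCoprime.neg_right_iff c b).mpr ((IsCoprime.neg_left_iff c b).mp hbc.symm)
    · -- `p ∣ b`: `c ^ p + (-a) ^ p = b ^ p`
      refine D.caseII_int (a := c) (b := -a) (c := b) ?_ hb h5 (by rw [hodd.neg_pow, ← h]; ring)
      exact (IsCoprime.neg_right_iff c a).mpr ((IsCoprime.neg_left_iff c a).mp hca)
  · exact D.caseII_int hab hc ((dvd_neg).mp h4) h

end KummerData

end Fermat.Agent.Kummer
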