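-- KUMMER team (helper2): the Case II descent data for the ring of integers of a `p`-th
-- cyclotomic field, and Fermat's Last Theorem for `p` from: Case I, class number one and
-- Kummer's lemma.
import Fermat.Agent.Kummer.CaseII

set_option autoImplicit false

namespace Fermat.Agent.Kummer

open NumberField Polynomial

section

variable {p : ℕ} [hp : Fact p.Prime] {K : Type*} [Field K] [NumberField K]
  [IsCyclotomicExtension {p} ℚ K] {ζ : K}

/-- Every `p`-th power in `ℤ[ζ_p]` is congruent to a rational integer modulo `p`. -/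
theorem exists_int_dvd_pow_sub (hζ : IsPrimitiveRoot ζ p) (x : 𝓞 K) :
    ∃ n : ℤ, (p : 𝓞 K) ∣ x ^ p - n := by
  have htop : Algebra.adjoin ℤ {hζ.toInteger} = ⊤ := by
    have := hζ.integralPowerBasis.adjoin_gen_eq_top
    rwa [hζ.integralPowerBasis_gen] at this
  have hx : x ∈ Algebra.adjoin ℤ {hζ.toInteger} := by rw [htop]; trivial
  induction hx using Algebra.adjoin_induction with
  | mem y hy =>
    rw [Set.mem_singleton_iff] at hy
    subst hy
    refine ⟨1, ?_⟩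
    rw [hζ.toInteger_isPrimitiveRoot.pow_eq_one]
    simp
  | algebraMap r =>
    refine ⟨r ^ p, ?_⟩
    simp
  | add y z _ _ hy hz =>
    obtain ⟨n₁, A₁, h₁⟩ := hy
    obtain ⟨n₂, A₂, h₂⟩ := hz
    obtain ⟨r, hr⟩ := exists_add_pow_prime_eq hp.out y z
    refine ⟨n₁ + n₂, A₁ + A₂ + y * z * r, ?_⟩
    push_cast
    linear_combination hr + h₁ + h₂
  | mul y z _ _ hy hz =>
    obtain ⟨n₁, A₁, h₁⟩ := hy
    obtain ⟨n₂, A₂, h₂⟩ := hz
    refine ⟨n₁ * n₂, A₁ * z ^ p + n₁ * A₂, ?_⟩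
    push_cast
    linear_combination z ^ p * h₁ + (n₁ : 𝓞 K) * h₂

/-- The Case II descent data for `𝓞 K`, `K` a `p`-th cyclotomic field, given Kummer's lemma. -/
theorem kummerData_of_cyclotomic (hp2 : p ≠ 2) (hζ : IsPrimitiveRoot ζ p)
    (hK : ∀ u : (𝓞 K)ˣ, (∃ n : ℤ, (p : 𝓞 K) ∣ (u : 𝓞 K) - n) → ∃ v : (𝓞 K)ˣ, u = v ^ p) :
    KummerData (𝓞 K) p hζ.toInteger where
  prime := hp.out
  ne_two := hp2
  root := hζ.toInteger_isPrimitiveRoot
  lam_prime := hζ.zeta_sub_one_prime'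
  card := by
    rw [hζ.card_quotient_toInteger_sub_one, hζ.norm_toInteger_sub_one_of_prime_ne_two' hp2]
    simp
  assoc := IsCyclotomicExtension.Rat.associated_zeta_sub_one_pow_prime p hζ
  pow_int := exists_int_dvd_pow_sub hζ
  kummer := hK

/-- **Fermat's Last Theorem for a prime exponent `p ≠ 2`**, given Case I, class number one for
`ℚ(ζ_p)` and Kummer's lemma. -/
theorem flt_of_caseI_of_pid_of_kummer (hp2 : p ≠ 2) (K : Type*) [Field K] [NumberField K]
    [IsCyclotomicExtension {p} ℚ K] [IsPrincipalIdealRing (𝓞 K)]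
    (hI : ∀ a b c : ℤ, a ^ p + b ^ p + c ^ p = 0 → (p : ℤ) ∣ a * b * c)
    (hK : ∀ u : (𝓞 K)ˣ, (∃ n : ℤ, (p : 𝓞 K) ∣ (u : 𝓞 K) - n) → ∃ v : (𝓞 K)ˣ, u = v ^ p) :
    FermatLastTheoremFor p := by
  obtain ⟨ζ, hζ⟩ := IsCyclotomicExtension.exists_isPrimitiveRoot ℚ K (Set.mem_singleton p)
    hp.out.ne_zero
  exact (kummerData_of_cyclotomic hp2 hζ hK).flt hI

end

end Fermat.Agent.Kummer
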