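-- KUMMER team (helper10): `λ`-adic facts in the ring of integers of `ℚ(ζ_p)`, `λ = ζ - 1`.
import Mathlib

set_option autoImplicit false
set_option linter.unusedSectionVars false

namespace Fermat.Agent.Kummer

open NumberField Polynomial Finset

variable {p : ℕ} [hp : Fact p.Prime] {K : Type*} [Field K] [NumberField K]
  [IsCyclotomicExtension {p} ℚ K] {ζ : K} (hζ : IsPrimitiveRoot ζ p)

/-- Every element of `𝓞 K` is congruent to a rational integer modulo `ζ - 1`. -/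
theorem lam_exists_int_sub_dvd (x : 𝓞 K) : ∃ n : ℤ, (hζ.toInteger - 1) ∣ x - n := by
  obtain ⟨f, hf⟩ := hζ.integralPowerBasis.exists_eq_aeval' x
  rw [hζ.integralPowerBasis_gen] at hf
  refine ⟨f.eval 1, ?_⟩
  have h1 := sub_dvd_eval_sub hζ.toInteger 1 (f.map (algebraMap ℤ (𝓞 K)))
  have h2 : eval hζ.toInteger (f.map (algebraMap ℤ (𝓞 K))) = x := by
    rw [hf, aeval_def, eval_map]
  have h3 : eval (1 : 𝓞 K) (f.map (algebraMap ℤ (𝓞 K))) = ((f.eval 1 : ℤ) : 𝓞 K) := by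
    have := eval_intCast_map (algebraMap ℤ (𝓞 K)) f 1
    simp at this ⊢
  rwa [h2, h3] at h1

/-- `ζ - 1` is prime. -/
theorem lam_prime : Prime (hζ.toInteger - 1) := hζ.zeta_sub_one_prime'

/-- `ζ - 1 ∣ p`. -/
theorem lam_dvd_p : (hζ.toInteger - 1) ∣ (p : 𝓞 K) := hζ.toInteger_sub_one_dvd_prime'

/-- `p ∣ (ζ - 1) ^ (p - 1)`. -/
theorem p_dvd_lam_pow : (p : 𝓞 K) ∣ (hζ.toInteger - 1) ^ (p - 1) :=
  (IsCyclotomicExtension.Rat.associated_zeta_sub_one_pow_prime p hζ).symm.dvd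

/-- `p ∣ (ζ - 1) ^ n` for `p - 1 ≤ n`. -/
theorem p_dvd_lam_pow_of_le {n : ℕ} (hn : p - 1 ≤ n) : (p : 𝓞 K) ∣ (hζ.toInteger - 1) ^ n :=
  (p_dvd_lam_pow hζ).trans (pow_dvd_pow _ hn)

/-- An integer is divisible by `ζ - 1` iff it is divisible by `p`. -/
theorem lam_dvd_intCast_iff {n : ℤ} : (hζ.toInteger - 1) ∣ (n : 𝓞 K) ↔ (p : ℤ) ∣ n :=
  IsCyclotomicExtension.Rat.zeta_sub_one_dvd_intCast_iff' p hζ

/-- `ζ - 1 ∣ ζ ^ j - 1`. -/
theorem lam_dvd_zeta_pow_sub_one (j : ℕ) : (hζ.toInteger - 1) ∣ hζ.toInteger ^ j - 1 := by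
  simpa using sub_dvd_pow_sub_pow hζ.toInteger 1 j

/-- `1 + ζ + ⋯ + ζ ^ (i - 1) ≡ i` modulo `ζ - 1`. -/
theorem lam_dvd_geom_sum_sub (i : ℕ) :
    (hζ.toInteger - 1) ∣ (∑ j ∈ range i, hζ.toInteger ^ j) - (i : 𝓞 K) := by
  have : (∑ j ∈ range i, hζ.toInteger ^ j) - (i : 𝓞 K) = ∑ j ∈ range i, (hζ.toInteger ^ j - 1) := by
    simp [Finset.sum_sub_distrib]
  rw [this]
  exact Finset.dvd_sum fun j _ ↦ lam_dvd_zeta_pow_sub_one hζ j

/-- The `p`-th roots of unity in `𝓞 K`: every one of them is `≡ 1` modulo `ζ - 1`. -/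
theorem lam_dvd_root_sub_one {η : 𝓞 K} (hη : η ∈ nthRootsFinset p (1 : 𝓞 K)) :
    (hζ.toInteger - 1) ∣ η - 1 :=
  hζ.toInteger_isPrimitiveRoot.sub_one_dvd_sub hp.out hη (one_mem_nthRootsFinset hp.out.pos)

/-- Two distinct `p`-th roots of unity differ by a unit times `ζ - 1`. -/
theorem exists_unit_root_sub_root {η₁ η₂ : 𝓞 K} (h₁ : η₁ ∈ nthRootsFinset p (1 : 𝓞 K))
    (h₂ : η₂ ∈ nthRootsFinset p (1 : 𝓞 K)) (hne : η₁ ≠ η₂) :
    ∃ u : (𝓞 K)ˣ, η₁ - η₂ = (hζ.toInteger - 1) * u := by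
  obtain ⟨u, hu⟩ :=
    hζ.toInteger_isPrimitiveRoot.nthRootsFinset_pairwise_associated_sub_one_sub_of_prime
      hp.out h₁ h₂ hne
  exact ⟨u, hu.symm⟩

/-- `1 + ζ` is a unit (for `p` odd). -/
theorem one_add_zeta_isUnit (hodd : p ≠ 2) : IsUnit (1 + hζ.toInteger) := by
  have h2 : (2 : ℕ).Coprime p :=
    (Nat.coprime_primes Nat.prime_two hp.out).mpr (Ne.symm hodd)
  have := hζ.toInteger_isPrimitiveRoot.geom_sum_isUnit hp.out.two_le h2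
  simpa [Finset.sum_range_succ] using this

/-- If `x ≡ y` modulo `ζ - 1` then `x ^ p ≡ y ^ p` modulo `(ζ - 1) ^ p`. -/
theorem lam_pow_dvd_pow_sub_pow {x y : 𝓞 K} (h : (hζ.toInteger - 1) ∣ x - y) :
    (hζ.toInteger - 1) ^ p ∣ x ^ p - y ^ p := by
  rw [hζ.toInteger_isPrimitiveRoot.pow_sub_pow_eq_prod_sub_mul x y hp.out.pos]
  have hcard := hζ.toInteger_isPrimitiveRoot.card_nthRootsFinset
  calc (hζ.toInteger - 1) ^ p
      = ∏ _η ∈ nthRootsFinset p (1 : 𝓞 K), (hζ.toInteger - 1) := by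
        rw [Finset.prod_const, hcard]
    _ ∣ _ := by
        refine Finset.prod_dvd_prod_of_dvd _ _ fun η hη ↦ ?_
        have : x - η * y = (x - y) - (η - 1) * y := by ring
        rw [this]
        exact dvd_sub h ((lam_dvd_root_sub_one hζ hη).mul_right _)

/-- If `x ≡ y` modulo `ζ - 1` then `x ^ p ≡ y ^ p` modulo `p`. -/
theorem p_dvd_pow_sub_pow {x y : 𝓞 K} (h : (hζ.toInteger - 1) ∣ x - y) :
    (p : 𝓞 K) ∣ x ^ p - y ^ p :=
  (p_dvd_lam_pow_of_le hζ (Nat.sub_le p 1)).trans (lam_pow_dvd_pow_sub_pow hζ h)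

/-- Every `p`-th power is congruent to a rational integer modulo `p`; the integer is prime to `p`
if the element is prime to `ζ - 1`. -/
theorem exists_int_pow_sub_dvd (x : 𝓞 K) :
    ∃ n : ℤ, (p : 𝓞 K) ∣ x ^ p - n ∧ (¬ (hζ.toInteger - 1) ∣ x → ¬ (p : ℤ) ∣ n) := by
  obtain ⟨k, hk⟩ := lam_exists_int_sub_dvd hζ x
  refine ⟨k ^ p, ?_, fun hx hpn ↦ hx ?_⟩
  · have := p_dvd_pow_sub_pow hζ hk
    simpa using this
  · have hpk : (p : ℤ) ∣ k := (Nat.prime_iff_prime_int.mp hp.out).dvd_of_dvd_pow hpn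
    have : (hζ.toInteger - 1) ∣ (k : 𝓞 K) := (lam_dvd_intCast_iff hζ).mpr hpk
    have h2 := dvd_add hk this
    simpa using h2

/-- If `ζ - 1 ∣ x + y` and `ζ - 1 ∤ y` then `(ζ - 1) ^ 2 ∣ x + ζ ^ i * y` for some `i`. -/
theorem exists_lam_sq_dvd {x y : 𝓞 K} (hxy : (hζ.toInteger - 1) ∣ x + y)
    (hy : ¬ (hζ.toInteger - 1) ∣ y) :
    ∃ i : ℕ, (hζ.toInteger - 1) ^ 2 ∣ x + hζ.toInteger ^ i * y := by
  obtain ⟨a, ha⟩ := hxy
  obtain ⟨n, hn⟩ := lam_exists_int_sub_dvd hζ a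
  obtain ⟨k, hk⟩ := lam_exists_int_sub_dvd hζ y
  have hpk : ¬ (p : ℤ) ∣ k := fun hpk ↦ hy <| by
    have : (hζ.toInteger - 1) ∣ (k : 𝓞 K) := (lam_dvd_intCast_iff hζ).mpr hpk
    simpa using dvd_add hk this
  have hk0 : (k : ZMod p) ≠ 0 := fun h0 ↦ hpk ((ZMod.intCast_zmod_eq_zero_iff_dvd k p).mp h0)
  set i : ℕ := (-(n : ZMod p) * (k : ZMod p)⁻¹).val with hi
  have hni : (p : ℤ) ∣ n + i * k := by
    rw [← ZMod.intCast_zmod_eq_zero_iff_dvd]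
    push_cast
    rw [hi, ZMod.natCast_zmod_val, mul_assoc, inv_mul_cancel₀ hk0]
    ring
  have hg : (hζ.toInteger - 1) * ∑ j ∈ range i, hζ.toInteger ^ j = hζ.toInteger ^ i - 1 :=
    mul_geom_sum _ _
  have hdvd : (hζ.toInteger - 1) ∣ a + (∑ j ∈ range i, hζ.toInteger ^ j) * y := by
    have h1 : (hζ.toInteger - 1) ∣ ((n + i * k : ℤ) : 𝓞 K) := (lam_dvd_intCast_iff hζ).mpr hni
    have h2 := lam_dvd_geom_sum_sub hζ i
    have : a + (∑ j ∈ range i, hζ.toInteger ^ j) * y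
        = (a - n) + ((∑ j ∈ range i, hζ.toInteger ^ j) - (i : 𝓞 K)) * y + (i : 𝓞 K) * (y - k)
          + ((n + i * k : ℤ) : 𝓞 K) := by
      push_cast; ring
    rw [this]
    exact dvd_add (dvd_add (dvd_add hn (h2.mul_right _)) (hk.mul_left _)) h1
  obtain ⟨c, hc⟩ := hdvd
  refine ⟨i, c, ?_⟩
  have : x + hζ.toInteger ^ i * y = (x + y) + (hζ.toInteger ^ i - 1) * y := by ring
  rw [this, ha, ← hg, pow_two, mul_assoc (hζ.toInteger - 1) (hζ.toInteger - 1) c, ← hc]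
  ring

end Fermat.Agent.Kummer
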