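-- KUMMER team (helper10): the descent step of Case II of Fermat's Last Theorem in `ℤ[ζ_p]`,
-- assuming that `𝓞 K` is a PID and Kummer's lemma.
import Fermat.Agent.Kummer.Lambda

set_option autoImplicit false
set_option linter.unusedSectionVars false

namespace Fermat.Agent.Kummer

open NumberField Polynomial Finset

/-- In a Bézout domain, if the product of pairwise coprime elements is a unit times a `k`-th
power, each of them is associated to a `k`-th power. -/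
theorem exists_associated_pow_of_prod_eq {R ι : Type*} [CommRing R] [IsBezout R] [IsDomain R]
    [DecidableEq ι] {s : Finset ι} {f : ι → R} {c : R} {u : Rˣ} {k : ℕ}
    (hcop : ∀ i ∈ s, ∀ j ∈ s, i ≠ j → IsCoprime (f i) (f j))
    (hprod : ∏ i ∈ s, f i = u * c ^ k) {i : ι} (hi : i ∈ s) :
    ∃ d : R, Associated (d ^ k) (f i) := by
  rw [← Finset.mul_prod_erase s f hi] at hprod
  refine exists_associated_pow_of_associated_pow_mul (b := ∏ j ∈ s.erase i, f j) (c := c)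
    (IsCoprime.prod_right fun j hj ↦ hcop i hi j (Finset.mem_of_mem_erase hj)
      (Finset.ne_of_mem_erase hj).symm) ?_
  rw [hprod]
  exact ⟨u, by rw [mul_comm]⟩

variable {p : ℕ} [hp : Fact p.Prime] {K : Type*} [Field K] [NumberField K]
  [IsCyclotomicExtension {p} ℚ K] {ζ : K} (hζ : IsPrimitiveRoot ζ p)

/-- Normalisation: we may assume `(ζ - 1) ^ 2 ∣ x + y`. -/
theorem caseII_normalize (hodd : p ≠ 2) {m : ℕ} {x y z : 𝓞 K} {ε : (𝓞 K)ˣ}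
    (hxy : IsCoprime x y) (hy : ¬ (hζ.toInteger - 1) ∣ y)
    (h : x ^ p + y ^ p = ε * ((hζ.toInteger - 1) ^ (m + 1) * z) ^ p) :
    ∃ y' : 𝓞 K, IsCoprime x y' ∧ ¬ (hζ.toInteger - 1) ∣ y' ∧ (hζ.toInteger - 1) ^ 2 ∣ x + y' ∧
      x ^ p + y' ^ p = ε * ((hζ.toInteger - 1) ^ (m + 1) * z) ^ p := by
  have hpodd : Odd p := hp.out.odd_of_ne_two hodd
  have hprime := lam_prime hζ
  have hζ' := hζ.toInteger_isPrimitiveRoot
  -- `ζ - 1 ∣ x + y`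
  have h1 : (hζ.toInteger - 1) ∣ x + y := by
    have hdvd : (hζ.toInteger - 1) ∣ ∏ η ∈ nthRootsFinset p (1 : 𝓞 K), (x + η * y) := by
      rw [← hζ'.pow_add_pow_eq_prod_add_mul x y hpodd, h, mul_pow, ← pow_mul]
      refine Dvd.dvd.mul_left (Dvd.dvd.mul_right (dvd_pow_self _ ?_) _) _
      exact Nat.mul_ne_zero (Nat.succ_ne_zero m) hp.out.ne_zero
    obtain ⟨η, hη, hηd⟩ := (Prime.dvd_finsetProd_iff hprime _).mp hdvd
    have : x + y = (x + η * y) - (η - 1) * y := by ring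
    rw [this]
    exact dvd_sub hηd ((lam_dvd_root_sub_one hζ hη).mul_right _)
  obtain ⟨i, hi⟩ := exists_lam_sq_dvd hζ h1 hy
  have hu : IsUnit (hζ.toInteger ^ i) := (hζ'.isUnit hp.out.ne_zero).pow i
  refine ⟨hζ.toInteger ^ i * y, ?_, ?_, hi, ?_⟩
  · exact (isCoprime_mul_unit_left_right hu x y).mpr hxy
  · rwa [hu.dvd_mul_left]
  · rw [mul_pow, ← pow_mul, mul_comm i p, pow_mul, hζ'.pow_eq_one, one_pow, one_mul, h]


section step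

variable {x y : 𝓞 K} {a : 𝓞 K → 𝓞 K}

/-- If `(ζ-1)^2 ∣ x + y` then `(x + η y)/(ζ-1)` is prime to `ζ - 1` for `η ≠ 1`. -/
theorem caseII_a_not_dvd
    (ha : ∀ η ∈ nthRootsFinset p (1 : 𝓞 K), x + η * y = (hζ.toInteger - 1) * a η)
    (hy : ¬ (hζ.toInteger - 1) ∣ y) (h2 : (hζ.toInteger - 1) ^ 2 ∣ x + y)
    {η : 𝓞 K} (hη : η ∈ nthRootsFinset p (1 : 𝓞 K)) (hη1 : η ≠ 1) :
    ¬ (hζ.toInteger - 1) ∣ a η := by
  intro hd
  have hprime := lam_prime hζ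
  have h3 : (hζ.toInteger - 1) ^ 2 ∣ x + η * y := by
    rw [ha η hη, pow_two]; exact mul_dvd_mul_left _ hd
  obtain ⟨u, hu⟩ := exists_unit_root_sub_root hζ hη (one_mem_nthRootsFinset hp.out.pos) hη1
  have h4 : (hζ.toInteger - 1) ^ 2 ∣ (η - 1) * y := by
    have : (η - 1) * y = (x + η * y) - (x + y) := by ring
    rw [this]; exact dvd_sub h3 h2
  rw [hu, pow_two, mul_assoc] at h4
  have h5 : (hζ.toInteger - 1) ∣ u * y := (mul_dvd_mul_iff_left hprime.ne_zero).mp h4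
  exact hy (u.isUnit.dvd_mul_left.mp h5)

/-- The elements `(x + η y)/(ζ-1)` are pairwise coprime. -/
theorem caseII_a_coprime
    (ha : ∀ η ∈ nthRootsFinset p (1 : 𝓞 K), x + η * y = (hζ.toInteger - 1) * a η)
    (hxy : IsCoprime x y) {η₁ η₂ : 𝓞 K} (h₁ : η₁ ∈ nthRootsFinset p (1 : 𝓞 K))
    (h₂ : η₂ ∈ nthRootsFinset p (1 : 𝓞 K)) (hne : η₁ ≠ η₂) : IsCoprime (a η₁) (a η₂) := by
  obtain ⟨u, hu⟩ := exists_unit_root_sub_root hζ h₁ h₂ hne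
  have hπ0 := (lam_prime hζ).ne_zero
  have ha₁ := ha η₁ h₁
  have ha₂ := ha η₂ h₂
  have e1 : a η₁ - a η₂ = u * y := by
    apply mul_left_cancel₀ hπ0
    linear_combination y * hu - ha₁ + ha₂
  have e2 : η₁ * a η₂ - η₂ * a η₁ = u * x := by
    apply mul_left_cancel₀ hπ0
    linear_combination x * hu - η₁ * ha₂ + η₂ * ha₁
  obtain ⟨s, t, hst⟩ := hxy
  refine ⟨↑u⁻¹ * (t - s * η₂), ↑u⁻¹ * (s * η₁ - t), ?_⟩
  have hu1 : (↑u⁻¹ : 𝓞 K) * u = 1 := by simp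
  linear_combination (↑u⁻¹ * t) * e1 + (↑u⁻¹ * s) * e2 + (t * y + s * x) * hu1 + hst

/-- The product of the `(x + η y)/(ζ-1)`. -/
theorem caseII_a_prod
    (ha : ∀ η ∈ nthRootsFinset p (1 : 𝓞 K), x + η * y = (hζ.toInteger - 1) * a η)
    (hodd : p ≠ 2) {m : ℕ} {z : 𝓞 K} {ε : (𝓞 K)ˣ}
    (h : x ^ p + y ^ p = ε * ((hζ.toInteger - 1) ^ (m + 1) * z) ^ p) :
    ∏ η ∈ nthRootsFinset p (1 : 𝓞 K), a η = ε * (hζ.toInteger - 1) ^ (m * p) * z ^ p := by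
  have hpodd : Odd p := hp.out.odd_of_ne_two hodd
  have hπ0 := (lam_prime hζ).ne_zero
  have hζ' := hζ.toInteger_isPrimitiveRoot
  have h1 : (hζ.toInteger - 1) ^ p * ∏ η ∈ nthRootsFinset p (1 : 𝓞 K), a η
      = (hζ.toInteger - 1) ^ p * (ε * (hζ.toInteger - 1) ^ (m * p) * z ^ p) := by
    calc (hζ.toInteger - 1) ^ p * ∏ η ∈ nthRootsFinset p (1 : 𝓞 K), a η
        = ∏ η ∈ nthRootsFinset p (1 : 𝓞 K), ((hζ.toInteger - 1) * a η) := by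
          rw [Finset.prod_mul_distrib, Finset.prod_const, hζ'.card_nthRootsFinset]
      _ = ∏ η ∈ nthRootsFinset p (1 : 𝓞 K), (x + η * y) :=
          Finset.prod_congr rfl fun η hη ↦ (ha η hη).symm
      _ = x ^ p + y ^ p := (hζ'.pow_add_pow_eq_prod_add_mul x y hpodd).symm
      _ = ε * ((hζ.toInteger - 1) ^ (m + 1) * z) ^ p := h
      _ = _ := by
          generalize hζ.toInteger - 1 = π
          rw [mul_pow, ← pow_mul, add_mul, one_mul, pow_add]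
          ring
  exact mul_left_cancel₀ (pow_ne_zero _ hπ0) h1

end step

/-- The congruence needed to apply Kummer's lemma. -/
theorem caseII_unit_congr {d₁ d₂ t : 𝓞 K} {η' : (𝓞 K)ˣ} (hd₂ : ¬ (hζ.toInteger - 1) ∣ d₂)
    (h : d₁ ^ p + η' * d₂ ^ p = (p : 𝓞 K) * t) :
    ∃ n : ℤ, (p : 𝓞 K) ∣ (η' : 𝓞 K) - n := by
  obtain ⟨n₁, hn₁, -⟩ := exists_int_pow_sub_dvd hζ d₁
  obtain ⟨n₂, hn₂, hn₂'⟩ := exists_int_pow_sub_dvd hζ d₂
  have hcop : IsCoprime (p : ℤ) n₂ :=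
    (Nat.prime_iff_prime_int.mp hp.out).coprime_iff_not_dvd.mpr (hn₂' hd₂)
  obtain ⟨s, r, hsr⟩ := hcop
  obtain ⟨w₁, hw₁⟩ := hn₁
  obtain ⟨w₂, hw₂⟩ := hn₂
  refine ⟨-(r * n₁), (r : 𝓞 K) * (t - w₁ - η' * w₂) + (η' : 𝓞 K) * s, ?_⟩
  have hsr' : (s : 𝓞 K) * (p : 𝓞 K) + (r : 𝓞 K) * (n₂ : 𝓞 K) = 1 := by exact_mod_cast congrArg (Int.cast : ℤ → 𝓞 K) hsr
  push_cast
  linear_combination (r : 𝓞 K) * h - (r : 𝓞 K) * hw₁ - (r : 𝓞 K) * (η' : 𝓞 K) * hw₂ - (η' : 𝓞 K) * hsr'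

/-- **The descent step.** -/
theorem caseII_step (hodd : p ≠ 2) [IsPrincipalIdealRing (𝓞 K)]
    (KL : ∀ u : (𝓞 K)ˣ, (∃ n : ℤ, (p : 𝓞 K) ∣ (u : 𝓞 K) - n) → ∃ v : (𝓞 K)ˣ, u = v ^ p)
    {m : ℕ} {x y z : 𝓞 K} {ε : (𝓞 K)ˣ}
    (hxy : IsCoprime x y) (hy : ¬ (hζ.toInteger - 1) ∣ y) (hz : ¬ (hζ.toInteger - 1) ∣ z)
    (h2 : (hζ.toInteger - 1) ^ 2 ∣ x + y)
    (h : x ^ p + y ^ p = ε * ((hζ.toInteger - 1) ^ (m + 1) * z) ^ p) :
    1 ≤ m ∧ ∃ (x' y' z' : 𝓞 K) (ε' : (𝓞 K)ˣ), IsCoprime x' y' ∧ ¬ (hζ.toInteger - 1) ∣ y' ∧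
      ¬ (hζ.toInteger - 1) ∣ z' ∧ x' ^ p + y' ^ p = ε' * ((hζ.toInteger - 1) ^ m * z') ^ p := by
  classical
  have hprime := lam_prime hζ
  have hπ0 := hprime.ne_zero
  have hζ' := hζ.toInteger_isPrimitiveRoot
  have h1R : (1 : 𝓞 K) ∈ nthRootsFinset p (1 : 𝓞 K) := one_mem_nthRootsFinset hp.out.pos
  -- `ζ - 1 ∣ x + η y`
  have hdiv : ∀ η ∈ nthRootsFinset p (1 : 𝓞 K), (hζ.toInteger - 1) ∣ x + η * y := fun η hη ↦ by
    have : x + η * y = (x + y) + (η - 1) * y := by ring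
    rw [this]
    exact dvd_add ((dvd_pow_self _ two_ne_zero).trans h2)
      ((lam_dvd_root_sub_one hζ hη).mul_right _)
  choose! a ha using hdiv
  have hnd := fun η hη hη1 ↦ caseII_a_not_dvd hζ (η := η) ha hy h2 hη hη1
  have hcop := fun η₁ h₁ η₂ h₂ hne ↦ caseII_a_coprime hζ (η₁ := η₁) (η₂ := η₂) ha hxy h₁ h₂ hne
  have hprod := caseII_a_prod hζ ha hodd h
  -- split off `η = 1`
  have hprod' : a 1 * ∏ η ∈ (nthRootsFinset p (1 : 𝓞 K)).erase 1, a η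
      = ε * (hζ.toInteger - 1) ^ (m * p) * z ^ p := by
    rw [Finset.mul_prod_erase _ a h1R]; exact hprod
  have hnd' : ¬ (hζ.toInteger - 1) ∣ ∏ η ∈ (nthRootsFinset p (1 : 𝓞 K)).erase 1, a η := by
    rw [Prime.dvd_finsetProd_iff hprime]
    rintro ⟨η, hη, hd⟩
    exact hnd η (Finset.mem_of_mem_erase hη) (Finset.ne_of_mem_erase hη) hd
  have hπa1 : (hζ.toInteger - 1) ∣ a 1 := by
    have := ha 1 h1R
    rw [one_mul] at this
    rw [this, pow_two] at h2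
    exact (mul_dvd_mul_iff_left hπ0).mp h2
  -- `1 ≤ m`
  have hm : 1 ≤ m := by
    by_contra hm0
    have hm0 : m = 0 := by omega
    rw [hm0, zero_mul, pow_zero, mul_one] at hprod'
    have h3 : (hζ.toInteger - 1) ∣ ε * z ^ p := hprod' ▸ hπa1.mul_right _
    exact hz (hprime.dvd_of_dvd_pow (ε.isUnit.dvd_mul_left.mp h3))
  refine ⟨hm, ?_⟩
  -- `(ζ - 1) ^ (m p) ∣ a 1`
  have hpow : (hζ.toInteger - 1) ^ (m * p) ∣ a 1 := by
    apply hprime.pow_dvd_of_dvd_mul_right _ hnd'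
    rw [hprod']
    exact (dvd_mul_left _ _).mul_right _
  obtain ⟨b, hb⟩ := hpow
  -- the modified family
  let c : 𝓞 K → 𝓞 K := fun η ↦ if η = 1 then b else a η
  have hc1 : c 1 = b := if_pos rfl
  have hcne : ∀ η, η ≠ 1 → c η = a η := fun η h ↦ if_neg h
  have hc_dvd : ∀ η, c η ∣ a η := by
    intro η
    by_cases h : η = 1
    · subst h; rw [hc1, hb]; exact dvd_mul_left _ _
    · rw [hcne η h]
  have hc_cop : ∀ η₁ ∈ nthRootsFinset p (1 : 𝓞 K), ∀ η₂ ∈ nthRootsFinset p (1 : 𝓞 K),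
      η₁ ≠ η₂ → IsCoprime (c η₁) (c η₂) := fun η₁ h₁ η₂ h₂ hne ↦
    ((hcop η₁ h₁ η₂ h₂ hne).of_isCoprime_of_dvd_left (hc_dvd η₁)).of_isCoprime_of_dvd_right
      (hc_dvd η₂)
  have hc_prod : ∏ η ∈ nthRootsFinset p (1 : 𝓞 K), c η = ε * z ^ p := by
    rw [← Finset.mul_prod_erase _ c h1R, hc1]
    have : ∏ η ∈ (nthRootsFinset p (1 : 𝓞 K)).erase 1, c η
        = ∏ η ∈ (nthRootsFinset p (1 : 𝓞 K)).erase 1, a η :=
      Finset.prod_congr rfl fun η hη ↦ hcne η (Finset.ne_of_mem_erase hη)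
    rw [this]
    apply mul_left_cancel₀ (pow_ne_zero (m * p) hπ0)
    rw [← mul_assoc, ← hb, hprod']
    ring
  have key := fun η hη ↦ exists_associated_pow_of_prod_eq (k := p) hc_cop hc_prod (i := η) hη
  -- the three roots `1`, `ζ`, `ζ⁻¹`
  have hζR : hζ.toInteger ∈ nthRootsFinset p (1 : 𝓞 K) :=
    (mem_nthRootsFinset hp.out.pos _).mpr hζ'.pow_eq_one
  have hζinvR : hζ.toInteger ^ (p - 1) ∈ nthRootsFinset p (1 : 𝓞 K) := by
    rw [mem_nthRootsFinset hp.out.pos, ← pow_mul, mul_comm, pow_mul, hζ'.pow_eq_one, one_pow]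
  have hmul : hζ.toInteger * hζ.toInteger ^ (p - 1) = 1 := by
    rw [← pow_succ', Nat.sub_add_cancel hp.out.one_le, hζ'.pow_eq_one]
  have hζ1 : hζ.toInteger ≠ 1 := hζ'.ne_one hp.out.one_lt
  have hζinv1 : hζ.toInteger ^ (p - 1) ≠ 1 := fun h1 ↦ hζ1 <| by
    rw [h1, mul_one] at hmul; exact hmul
  have hζζinv : hζ.toInteger ≠ hζ.toInteger ^ (p - 1) := fun h1 ↦ by
    rw [← h1, ← pow_two] at hmul
    have hdvd : p ∣ 2 := hζ'.dvd_of_pow_eq_one 2 hmul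
    have := Nat.le_of_dvd (by norm_num) hdvd
    have := hp.out.two_le
    omega
  obtain ⟨d₀, u₀, hd₀⟩ := key 1 h1R
  obtain ⟨d₁, u₁, hd₁⟩ := key _ hζR
  obtain ⟨d₂, u₂, hd₂⟩ := key _ hζinvR
  rw [hc1] at hd₀
  rw [hcne _ hζ1] at hd₁
  rw [hcne _ hζinv1] at hd₂
  -- the linear relation
  have hrel : hζ.toInteger * a (hζ.toInteger ^ (p - 1)) + a hζ.toInteger
      = (1 + hζ.toInteger) * a 1 := by
    apply mul_left_cancel₀ hπ0
    have e1 := ha _ hζR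
    have e2 := ha _ hζinvR
    have e3 := ha _ h1R
    linear_combination (-hζ.toInteger) * e2 - e1 + (1 + hζ.toInteger) * e3 + y * hmul
  -- units
  obtain ⟨ζu, hζu⟩ := hζ'.isUnit hp.out.ne_zero
  obtain ⟨w, hw⟩ := one_add_zeta_isUnit hζ hodd
  set η' : (𝓞 K)ˣ := ζu * u₂ * u₁⁻¹ with hη'
  set ε' : (𝓞 K)ˣ := w * u₀ * u₁⁻¹ with hε'
  have hu1 : (↑u₁⁻¹ : 𝓞 K) * u₁ = 1 := by simp
  have hE : d₁ ^ p + η' * d₂ ^ p = ε' * ((hζ.toInteger - 1) ^ m * d₀) ^ p := by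
    rw [hη', hε']
    push_cast
    rw [hζu, hw, mul_pow, ← pow_mul]
    rw [← hd₁, ← hd₂, hb, ← hd₀] at hrel
    linear_combination (↑u₁⁻¹ : 𝓞 K) * hrel - d₁ ^ p * hu1
  -- non-divisibility
  have hd₁π : ¬ (hζ.toInteger - 1) ∣ d₁ := fun hd ↦ hnd _ hζR hζ1 <| by
    rw [← hd₁]; exact (dvd_pow hd hp.out.ne_zero).mul_right _
  have hd₂π : ¬ (hζ.toInteger - 1) ∣ d₂ := fun hd ↦ hnd _ hζinvR hζinv1 <| by
    rw [← hd₂]; exact (dvd_pow hd hp.out.ne_zero).mul_right _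
  have hd₀π : ¬ (hζ.toInteger - 1) ∣ d₀ := fun hd ↦ hz <| by
    have h3 : (hζ.toInteger - 1) ∣ b := by
      rw [← hd₀]; exact (dvd_pow hd hp.out.ne_zero).mul_right _
    have h4 : (hζ.toInteger - 1) ∣ ε * z ^ p := by
      rw [← hc_prod, ← Finset.mul_prod_erase _ c h1R, hc1]; exact h3.mul_right _
    exact hprime.dvd_of_dvd_pow (ε.isUnit.dvd_mul_left.mp h4)
  -- Kummer's lemma
  obtain ⟨t, ht⟩ : (p : 𝓞 K) ∣ (hζ.toInteger - 1) ^ (m * p) :=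
    p_dvd_lam_pow_of_le hζ ((Nat.sub_le p 1).trans (Nat.le_mul_of_pos_left p hm))
  obtain ⟨v, hv⟩ := KL η' <| caseII_unit_congr hζ hd₂π (t := t * (ε' * d₀ ^ p)) <| by
    rw [hE, mul_pow, ← pow_mul, ht]; ring
  refine ⟨d₁, v * d₂, d₀, ε', ?_, ?_, hd₀π, ?_⟩
  · have h5 : IsCoprime d₁ d₂ :=
      ((hcop _ hζR _ hζinvR hζζinv).of_isCoprime_of_dvd_left
        (by rw [← hd₁]; exact (dvd_pow_self d₁ hp.out.ne_zero).mul_right _)).of_isCoprime_of_dvd_right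
        (by rw [← hd₂]; exact (dvd_pow_self d₂ hp.out.ne_zero).mul_right _)
    exact (isCoprime_mul_unit_left_right v.isUnit d₁ d₂).mpr h5
  · rwa [v.isUnit.dvd_mul_left]
  · rw [mul_pow, ← hE, hv]; push_cast; ring

/-- No solution at any level `m + 1 ≥ 1` (`p` odd). -/
theorem caseII_descent_aux (hodd : p ≠ 2) [IsPrincipalIdealRing (𝓞 K)]
    (KL : ∀ u : (𝓞 K)ˣ, (∃ n : ℤ, (p : 𝓞 K) ∣ (u : 𝓞 K) - n) → ∃ v : (𝓞 K)ˣ, u = v ^ p) :
    ∀ (m : ℕ) (x y z : 𝓞 K) (ε : (𝓞 K)ˣ), IsCoprime x y → ¬ (hζ.toInteger - 1) ∣ y →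
      ¬ (hζ.toInteger - 1) ∣ z → x ^ p + y ^ p = ε * ((hζ.toInteger - 1) ^ (m + 1) * z) ^ p →
      False := by
  intro m
  induction m with
  | zero =>
    intro x y z ε hxy hy hz h
    obtain ⟨y', hxy', hy', h2, h'⟩ := caseII_normalize hζ hodd hxy hy h
    have := (caseII_step hζ hodd KL hxy' hy' hz h2 h').1
    omega
  | succ m ih =>
    intro x y z ε hxy hy hz h
    obtain ⟨y', hxy', hy', h2, h'⟩ := caseII_normalize hζ hodd hxy hy h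
    obtain ⟨-, x', y'', z', ε', h1, h3, h4, h5⟩ := caseII_step hζ hodd KL hxy' hy' hz h2 h'
    exact ih x' y'' z' ε' h1 h3 h4 h5

/-- **Case II descent**: in a `p`-th cyclotomic field whose ring of integers is a PID and
satisfies Kummer's lemma, the equation `x ^ p + y ^ p = ε * ((ζ - 1) ^ m * z) ^ p`, `m ≥ 1`,
has no solution with `x, y` coprime and `y, z` prime to `ζ - 1`. -/
theorem caseII_descent (hp5 : 5 ≤ p) [IsPrincipalIdealRing (𝓞 K)]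
    (KL : ∀ u : (𝓞 K)ˣ, (∃ n : ℤ, (p : 𝓞 K) ∣ (u : 𝓞 K) - n) → ∃ v : (𝓞 K)ˣ, u = v ^ p)
    (m : ℕ) (hm : 1 ≤ m) (x y z : 𝓞 K) (ε : (𝓞 K)ˣ) (hxy : IsCoprime x y)
    (hy : ¬ (hζ.toInteger - 1) ∣ y) (hz : ¬ (hζ.toInteger - 1) ∣ z)
    (h : x ^ p + y ^ p = ε * ((hζ.toInteger - 1) ^ m * z) ^ p) : False := by
  obtain ⟨m, rfl⟩ : ∃ m', m = m' + 1 := ⟨m - 1, by omega⟩
  exact caseII_descent_aux hζ (by omega) KL m x y z ε hxy hy hz h

end Fermat.Agent.Kummer
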