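import Mathlib.NumberTheory.NumberField.Cyclotomic.Ideal
import Mathlib.NumberTheory.FLT.Basic
import Mathlib.Tactic

/-!
# From the descent in `ℤ[ζ_p]` to integer solutions of the Fermat equation

* `flt_of_caseI_caseII`: Fermat's Last Theorem for an odd prime exponent `p` follows from Case I
  (`p ∣ a b c` for every solution) and Case II (no coprime solution with `p ∣ a b c`).
* `caseII_of_descent`: Case II for integers follows from the impossibility of
  `x ^ p + y ^ p = ε * (λ ^ m * z) ^ p` in `𝓞 K`, `K = ℚ(ζ_p)`, `λ = ζ - 1`.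
-/

namespace Fermat.Agent.Kummer

open NumberField

/-- Fermat's Last Theorem for a prime exponent from Case I and Case II. -/
theorem flt_of_caseI_caseII {p : ℕ} (hp : p.Prime)
    (hI : ∀ a b c : ℤ, a ^ p + b ^ p = c ^ p → (p : ℤ) ∣ a * b * c)
    (hII : ∀ a b c : ℤ, IsCoprime a b → a ^ p + b ^ p = c ^ p → (p : ℤ) ∣ a * b * c →
      a * b * c = 0) :
    FermatLastTheoremFor p := by
  rw [fermatLastTheoremFor_iff_int]
  refine fermatLastTheoremWith_of_fermatLastTheoremWith_coprime fun a b c ha hb hc hgcd h => ?_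
  have hcop : IsCoprime a b := by
    refine isCoprime_of_prime_dvd ?_ fun q hq hqa hqb => hq.not_dvd_one ?_
    · rintro ⟨rfl, -⟩; exact ha rfl
    · rw [← hgcd]
      refine Finset.dvd_gcd_iff.mpr fun x hx => ?_
      simp only [Finset.mem_insert, Finset.mem_singleton] at hx
      rcases hx with rfl | rfl | rfl
      · exact hqa
      · exact hqb
      · have : q ∣ x ^ p := h ▸ dvd_add (dvd_pow hqa hp.ne_zero) (dvd_pow hqb hp.ne_zero)
        exact hq.dvd_of_dvd_pow this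
  have h0 := hII a b c hcop h (hI a b c h)
  exact mul_ne_zero (mul_ne_zero ha hb) hc h0

section

variable {p : ℕ} [hp : Fact p.Prime] {K : Type*} [Field K] [NumberField K]
  [IsCyclotomicExtension {p} ℚ K] {ζ : K} (hζ : IsPrimitiveRoot ζ p)

/-- Core of the integer wrapper: a coprime solution with `p ∣ c`, `c ≠ 0` contradicts the descent. -/
theorem caseII_core
    (hdesc : ∀ (m : ℕ), 1 ≤ m → ∀ (x y z : 𝓞 K) (ε : (𝓞 K)ˣ), IsCoprime x y →
      ¬ (hζ.toInteger - 1) ∣ y → ¬ (hζ.toInteger - 1) ∣ z →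
      x ^ p + y ^ p = ε * ((hζ.toInteger - 1) ^ m * z) ^ p → False)
    {a b c : ℤ} (hab : IsCoprime a b) (h : a ^ p + b ^ p = c ^ p) (hpc : (p : ℤ) ∣ c)
    (hc : c ≠ 0) : False := by
  have hpprime : Prime (p : ℤ) := Nat.prime_iff_prime_int.mp hp.out
  have hp0 : p ≠ 0 := hp.out.ne_zero
  -- `p ∤ b`
  have hpb : ¬ (p : ℤ) ∣ b := by
    intro hb
    have hpa : (p : ℤ) ∣ a := by
      have : (p : ℤ) ∣ a ^ p := by
        have h1 : a ^ p = c ^ p - b ^ p := by rw [← h]; ring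
        rw [h1]; exact dvd_sub (dvd_pow hpc hp0) (dvd_pow hb hp0)
      exact hpprime.dvd_of_dvd_pow this
    exact hpprime.not_isUnit (hab.isUnit_of_dvd' hpa hb)
  -- `c = p ^ k * c'`
  have hfin : FiniteMultiplicity (p : ℤ) c :=
    Int.finiteMultiplicity_iff.mpr ⟨by simpa using hp.out.ne_one, hc⟩
  obtain ⟨c', hc', hpc'⟩ := hfin.exists_eq_pow_mul_and_not_dvd
  set k := multiplicity (p : ℤ) c with hkdef
  have hk : 1 ≤ k := by
    by_contra hlt
    have hk0 : k = 0 := by omega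
    rw [hk0, pow_zero, one_mul] at hc'
    exact hpc' (hc' ▸ hpc)
  obtain ⟨u, hu⟩ := IsCyclotomicExtension.Rat.associated_zeta_sub_one_pow_prime p hζ
  have hcK : ((c : ℤ) : 𝓞 K) = ((hζ.toInteger - 1) ^ (p - 1) * u) ^ k * (c' : 𝓞 K) := by
    rw [hu, hc']; push_cast; ring
  refine hdesc ((p - 1) * k) ?_ (a : 𝓞 K) (b : 𝓞 K) (c' : 𝓞 K) (u ^ (k * p)) ?_ ?_ ?_ ?_
  · have : 1 ≤ p - 1 := by have := hp.out.two_le; omega
    exact Nat.one_le_iff_ne_zero.mpr (Nat.mul_ne_zero (by omega) (by omega))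
  · exact hab.map (Int.castRingHom (𝓞 K))
  · rwa [IsCyclotomicExtension.Rat.zeta_sub_one_dvd_intCast_iff' p hζ]
  · rwa [IsCyclotomicExtension.Rat.zeta_sub_one_dvd_intCast_iff' p hζ]
  · have hK : ((a : ℤ) : 𝓞 K) ^ p + ((b : ℤ) : 𝓞 K) ^ p = ((c : ℤ) : 𝓞 K) ^ p := by
      exact_mod_cast congrArg (Int.cast : ℤ → 𝓞 K) h
    rw [hK, hcK]
    push_cast
    ring

/-- Case II for integers from the descent in `𝓞 K`. -/
theorem caseII_of_descent (hp2 : p ≠ 2)
    (hdesc : ∀ (m : ℕ), 1 ≤ m → ∀ (x y z : 𝓞 K) (ε : (𝓞 K)ˣ), IsCoprime x y →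
      ¬ (hζ.toInteger - 1) ∣ y → ¬ (hζ.toInteger - 1) ∣ z →
      x ^ p + y ^ p = ε * ((hζ.toInteger - 1) ^ m * z) ^ p → False)
    {a b c : ℤ} (hab : IsCoprime a b) (h : a ^ p + b ^ p = c ^ p)
    (hdvd : (p : ℤ) ∣ a * b * c) : a * b * c = 0 := by
  by_contra hne
  have ha : a ≠ 0 := fun h0 => hne (by rw [h0]; ring)
  have hb : b ≠ 0 := fun h0 => hne (by rw [h0]; ring)
  have hc : c ≠ 0 := fun h0 => hne (by rw [h0]; ring)
  have hpprime : Prime (p : ℤ) := Nat.prime_iff_prime_int.mp hp.out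
  have hp0 : p ≠ 0 := hp.out.ne_zero
  have hodd : Odd p := hp.out.odd_of_ne_two hp2
  -- pairwise coprimality
  have hcb : IsCoprime c b := by
    refine isCoprime_of_prime_dvd ?_ fun q hq hqc hqb => hq.not_isUnit ?_
    · rintro ⟨rfl, -⟩; exact hc rfl
    · have hqa : q ∣ a := by
        have : q ∣ a ^ p := by
          have h1 : a ^ p = c ^ p - b ^ p := by rw [← h]; ring
          rw [h1]; exact dvd_sub (dvd_pow hqc hp0) (dvd_pow hqb hp0)
        exact hq.dvd_of_dvd_pow this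
      exact hab.isUnit_of_dvd' hqa hqb
  have hca : IsCoprime c a := by
    refine isCoprime_of_prime_dvd ?_ fun q hq hqc hqa => hq.not_isUnit ?_
    · rintro ⟨rfl, -⟩; exact hc rfl
    · have hqb : q ∣ b := by
        have : q ∣ b ^ p := by
          have h1 : b ^ p = c ^ p - a ^ p := by rw [← h]; ring
          rw [h1]; exact dvd_sub (dvd_pow hqc hp0) (dvd_pow hqa hp0)
        exact hq.dvd_of_dvd_pow this
      exact hab.isUnit_of_dvd' hqa hqb
  rcases hpprime.dvd_or_dvd hdvd with hpab | hpc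
  · rcases hpprime.dvd_or_dvd hpab with hpa | hpb
    · -- `c ^ p + (-b) ^ p = a ^ p`
      have h' : c ^ p + (-b) ^ p = a ^ p := by rw [hodd.neg_pow, ← h]; ring
      exact caseII_core hζ hdesc hcb.neg_right h' hpa ha
    · -- `c ^ p + (-a) ^ p = b ^ p`
      have h' : c ^ p + (-a) ^ p = b ^ p := by rw [hodd.neg_pow, ← h]; ring
      exact caseII_core hζ hdesc hca.neg_right h' hpb hb
  · exact caseII_core hζ hdesc hab h hpc hc

/-- Fermat's Last Theorem for the odd prime `p` from Case I and the descent in `𝓞 K`. -/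
theorem flt_of_caseI_of_descent (hp2 : p ≠ 2)
    (hI : ∀ a b c : ℤ, a ^ p + b ^ p = c ^ p → (p : ℤ) ∣ a * b * c)
    (hdesc : ∀ (m : ℕ), 1 ≤ m → ∀ (x y z : 𝓞 K) (ε : (𝓞 K)ˣ), IsCoprime x y →
      ¬ (hζ.toInteger - 1) ∣ y → ¬ (hζ.toInteger - 1) ∣ z →
      x ^ p + y ^ p = ε * ((hζ.toInteger - 1) ^ m * z) ^ p → False) :
    FermatLastTheoremFor p :=
  flt_of_caseI_caseII hp.out hI fun _ _ _ hab h hdvd =>
    caseII_of_descent hζ hp2 hdesc hab h hdvd

end

end Fermat.Agent.Kummer
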