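import Fermat.Agent.Kummer.ClassNumberAux
import Mathlib.Tactic

/-! # `ℤ[ζ₁₁]` is a PID -/

namespace Fermat.Agent.Kummer

open NumberField Polynomial Ideal
open scoped Real

instance fact_prime_eleven : Fact (Nat.Prime 11) := ⟨by norm_num⟩

instance fact_prime_twentythree : Fact (Nat.Prime 23) := ⟨by norm_num⟩

/-- The prime `(1 + ζ + ζ³)` of norm `23` in `ℤ[ζ₁₁]`. -/
theorem exists_isPrincipal_primesOver_23 (K : Type*) [Field K] [NumberField K]
    [IsCyclotomicExtension {11} ℚ K] :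
    ∃ P ∈ primesOver (span {((23 : ℕ) : ℤ)}) (𝓞 K), Submodule.IsPrincipal P := by
  have hΦ := sum_zetaInt_pow 11 K
  simp only [Finset.sum_range_succ, Finset.sum_range_zero, zero_add, pow_zero, pow_one] at hΦ
  set ζ := zetaInt 11 K with hζ
  refine exists_isPrincipal_primesOver_of_linear 11 K 23 4 (by decide)
    (1 + ζ + ζ ^ 3)
    (-2 - 14 * ζ - 17 * ζ ^ 2 - 12 * ζ ^ 3 - 5 * ζ ^ 4 - 9 * ζ ^ 5 - 10 * ζ ^ 6 - 16 * ζ ^ 7
      - 6 * ζ ^ 8 - 15 * ζ ^ 9)
    (1 + 3 * ζ + 3 * ζ ^ 2 + 2 * ζ ^ 3 + ζ ^ 4 + 2 * ζ ^ 5 + 2 * ζ ^ 6 + 3 * ζ ^ 7 + ζ ^ 8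
      + 3 * ζ ^ 9)
    (17 + 4 * ζ + ζ ^ 2) 3 ?_ ?_ ?_
  · push_cast
    linear_combination (-25 + 9 * ζ - 15 * ζ ^ 2) * hΦ
  · push_cast
    linear_combination (-5 + 2 * ζ - 3 * ζ ^ 2) * hΦ
  · push_cast
    ring

theorem eleven_pid (K : Type*) [Field K] [NumberField K] [IsCyclotomicExtension {11} ℚ K] :
    IsPrincipalIdealRing (𝓞 K) := by
  refine cyclotomic_isPrincipalIdealRing_of_data 11 K 60 ?_ ?_
  · have hpi : (4 : ℝ) / π < 4 / 3.14 :=
      div_lt_div_of_pos_left (by norm_num) (by norm_num) Real.pi_gt_d2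
    have hsq : √(2357947691 : ℝ) < 48560 := by
      rw [Real.sqrt_lt' (by norm_num)]; norm_num
    norm_num [Nat.factorial]
    calc (4 / π) ^ 5 * (567 / 1562500 * √2357947691)
        ≤ (4 / 3.14) ^ 5 * (567 / 1562500 * 48560) := by gcongr
      _ < 61 := by norm_num
  · intro p hp hprime hne
    rw [Finset.mem_Icc] at hp
    obtain ⟨h1, h60⟩ := hp
    have hp0 : ((p : ℕ) : ZMod 11) ≠ 0 := by
      rw [Ne, ZMod.natCast_eq_zero_iff]
      intro hd
      exact hne ((Nat.prime_dvd_prime_iff_eq (by norm_num) hprime).mp hd).symm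
    by_cases hp1 : ((p : ℕ) : ZMod 11) = 1
    · -- p ≡ 1 mod 11, so p = 23
      right
      have hmod : p % 11 = 1 := by
        have := (ZMod.natCast_eq_natCast_iff' p 1 11).mp (by simpa using hp1)
        simpa using this
      have hp23 : p = 23 := by
        have hk : p = 11 * (p / 11) + 1 := by omega
        have hk5 : p / 11 ≤ 5 := by omega
        generalize p / 11 = k at hk hk5
        subst hk
        interval_cases k <;> first | rfl | (exfalso; revert hprime; norm_num)
      subst hp23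
      exact exists_isPrincipal_primesOver_23 K
    · left
      by_cases h8 : 8 ≤ p
      · have h2 : 2 ≤ orderOf ((p : ℕ) : ZMod 11) := two_le_orderOf hp0 hp1
        calc 60 < 8 ^ 2 := by norm_num
          _ ≤ p ^ 2 := Nat.pow_le_pow_left h8 2
          _ ≤ p ^ orderOf ((p : ℕ) : ZMod 11) := Nat.pow_le_pow_right (by omega) h2
      · rw [not_le] at h8
        interval_cases p
        · exact absurd hprime (by norm_num)
        · have : 6 ≤ orderOf ((2 : ℕ) : ZMod 11) :=
            le_orderOf_of_forall_pow_ne_one (by decide) 6 (by decide)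
          calc 60 < 2 ^ 6 := by norm_num
            _ ≤ 2 ^ orderOf ((2 : ℕ) : ZMod 11) := Nat.pow_le_pow_right (by norm_num) this
        · have : 4 ≤ orderOf ((3 : ℕ) : ZMod 11) :=
            le_orderOf_of_forall_pow_ne_one (by decide) 4 (by decide)
          calc 60 < 3 ^ 4 := by norm_num
            _ ≤ 3 ^ orderOf ((3 : ℕ) : ZMod 11) := Nat.pow_le_pow_right (by norm_num) this
        · exact absurd hprime (by norm_num)
        · have : 3 ≤ orderOf ((5 : ℕ) : ZMod 11) :=
            le_orderOf_of_forall_pow_ne_one (by decide) 3 (by decide)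
          calc 60 < 5 ^ 3 := by norm_num
            _ ≤ 5 ^ orderOf ((5 : ℕ) : ZMod 11) := Nat.pow_le_pow_right (by norm_num) this
        · exact absurd hprime (by norm_num)
        · have : 3 ≤ orderOf ((7 : ℕ) : ZMod 11) :=
            le_orderOf_of_forall_pow_ne_one (by decide) 3 (by decide)
          calc 60 < 7 ^ 3 := by norm_num
            _ ≤ 7 ^ orderOf ((7 : ℕ) : ZMod 11) := Nat.pow_le_pow_right (by norm_num) this

end Fermat.Agent.Kummer
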