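import Fermat.Agent.Kummer.ClassNumberAux
import Mathlib.Tactic
import Mathlib.Algebra.Polynomial.SpecificDegree

/-! # `ℤ[ζ₁₃]` is a PID -/

namespace Fermat.Agent.Kummer

open NumberField Polynomial Ideal
open scoped Real

instance fact_prime_thirteen : Fact (Nat.Prime 13) := ⟨by norm_num⟩

instance fact_prime_fiftythree : Fact (Nat.Prime 53) := ⟨by norm_num⟩

instance fact_prime_seventynine : Fact (Nat.Prime 79) := ⟨by norm_num⟩

instance fact_prime_onethreeone : Fact (Nat.Prime 131) := ⟨by norm_num⟩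

instance fact_prime_onefiveseven : Fact (Nat.Prime 157) := ⟨by norm_num⟩

section

variable (K : Type*) [Field K] [NumberField K] [IsCyclotomicExtension {13} ℚ K]

/-- The relation `1 + ζ + ⋯ + ζ¹² = 0`. -/
theorem sum_zetaInt_thirteen :
    1 + zetaInt 13 K + zetaInt 13 K ^ 2 + zetaInt 13 K ^ 3 + zetaInt 13 K ^ 4 + zetaInt 13 K ^ 5
      + zetaInt 13 K ^ 6 + zetaInt 13 K ^ 7 + zetaInt 13 K ^ 8 + zetaInt 13 K ^ 9
      + zetaInt 13 K ^ 10 + zetaInt 13 K ^ 11 + zetaInt 13 K ^ 12 = 0 := by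
  have hΦ := sum_zetaInt_pow 13 K
  simpa only [Finset.sum_range_succ, Finset.sum_range_zero, zero_add, pow_zero, pow_one] using hΦ

/-- The prime `(1 + ζ + ζ³)` of norm `53` in `ℤ[ζ₁₃]`. -/
theorem exists_isPrincipal_primesOver_53 :
    ∃ P ∈ primesOver (span {((53 : ℕ) : ℤ)}) (𝓞 K), Submodule.IsPrincipal P := by
  have hΦ := sum_zetaInt_thirteen K
  set ζ := zetaInt 13 K with hζ
  refine exists_isPrincipal_primesOver_of_linear 13 K 53 (-17) (by decide)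
    (1 + ζ + ζ ^ 3)
    (1 - 24 * ζ - 35 * ζ ^ 2 - 25 * ζ ^ 3 - 10 * ζ ^ 4 - 14 * ζ ^ 5 - 20 * ζ ^ 6 - 29 * ζ ^ 7
      - 16 * ζ ^ 8 - 23 * ζ ^ 9 - 7 * ζ ^ 10 - 36 * ζ ^ 11)
    (1 - 7 * ζ - 11 * ζ ^ 2 - 8 * ζ ^ 3 - 3 * ζ ^ 4 - 4 * ζ ^ 5 - 6 * ζ ^ 6 - 9 * ζ ^ 7
      - 5 * ζ ^ 8 - 7 * ζ ^ 9 - 2 * ζ ^ 10 - 11 * ζ ^ 11)
    (290 - 17 * ζ + ζ ^ 2) (-93) ?_ ?_ ?_
  · push_cast
    linear_combination (-52 + 29 * ζ - 36 * ζ ^ 2) * hΦ
  · push_cast
    linear_combination (16 - 9 * ζ + 11 * ζ ^ 2) * hΦ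
  · push_cast
    ring

/-- The prime `(1 - ζ - ζ³)` of norm `131` in `ℤ[ζ₁₃]`. -/
theorem exists_isPrincipal_primesOver_131 :
    ∃ P ∈ primesOver (span {((131 : ℕ) : ℤ)}) (𝓞 K), Submodule.IsPrincipal P := by
  have hΦ := sum_zetaInt_thirteen K
  set ζ := zetaInt 13 K with hζ
  refine exists_isPrincipal_primesOver_of_linear 13 K 131 (-51) (by decide)
    (1 - ζ - ζ ^ 3)
    (111 + 78 * ζ + 17 * ζ ^ 2 + 67 * ζ ^ 3 + 84 * ζ ^ 4 + 40 * ζ ^ 5 + 46 * ζ ^ 6 + 69 * ζ ^ 7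
      + 48 * ζ ^ 8 + 33 * ζ ^ 9 + 41 * ζ ^ 10 + 28 * ζ ^ 11)
    (43 + 31 * ζ + 7 * ζ ^ 2 + 26 * ζ ^ 3 + 33 * ζ ^ 4 + 16 * ζ ^ 5 + 18 * ζ ^ 6 + 27 * ζ ^ 7
      + 19 * ζ ^ 8 + 13 * ζ ^ 9 + 16 * ζ ^ 10 + 11 * ζ ^ 11)
    (-2602 + 51 * ζ - ζ ^ 2) 1013 ?_ ?_ ?_
  · push_cast
    linear_combination (-20 - 13 * ζ - 28 * ζ ^ 2) * hΦ
  · push_cast
    linear_combination (8 + 5 * ζ + 11 * ζ ^ 2) * hΦ
  · push_cast
    ring

/-- The prime `(1 + ζ - ζ⁴)` of norm `79` in `ℤ[ζ₁₃]`. -/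
theorem exists_isPrincipal_primesOver_79 :
    ∃ P ∈ primesOver (span {((79 : ℕ) : ℤ)}) (𝓞 K), Submodule.IsPrincipal P := by
  have hΦ := sum_zetaInt_thirteen K
  set ζ := zetaInt 13 K with hζ
  refine exists_isPrincipal_primesOver_of_linear 13 K 79 (-15) (by decide)
    (1 + ζ - ζ ^ 4)
    (24 - 25 * ζ - 27 * ζ ^ 2 + 10 * ζ ^ 3 - 3 * ζ ^ 4 - 39 * ζ ^ 5 - 5 * ζ ^ 6 - 2 * ζ ^ 7
      - 18 * ζ ^ 8 - 38 * ζ ^ 9 + 16 * ζ ^ 10 - 35 * ζ ^ 11)
    (5 - 4 * ζ - 5 * ζ ^ 2 + 2 * ζ ^ 3 - 7 * ζ ^ 5 - ζ ^ 6 - 3 * ζ ^ 8 - 7 * ζ ^ 9 + 3 * ζ ^ 10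
      - 6 * ζ ^ 11)
    (3376 - 225 * ζ + 15 * ζ ^ 2 - ζ ^ 3) (-641) ?_ ?_ ?_
  · push_cast
    linear_combination (-55 + 54 * ζ - 51 * ζ ^ 2 + 35 * ζ ^ 3) * hΦ
  · push_cast
    linear_combination (10 - 10 * ζ + 9 * ζ ^ 2 - 6 * ζ ^ 3) * hΦ
  · push_cast
    ring

/-- The prime `(1 - ζ + ζ² + ζ⁴)` of norm `157` in `ℤ[ζ₁₃]`. -/
theorem exists_isPrincipal_primesOver_157 :
    ∃ P ∈ primesOver (span {((157 : ℕ) : ℤ)}) (𝓞 K), Submodule.IsPrincipal P := by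
  have hΦ := sum_zetaInt_thirteen K
  set ζ := zetaInt 13 K with hζ
  refine exists_isPrincipal_primesOver_of_linear 13 K 157 75 (by decide)
    (1 - ζ + ζ ^ 2 + ζ ^ 4)
    (89 + 86 * ζ + 42 * ζ ^ 2 + 77 * ζ ^ 3 + 67 * ζ ^ 4 + 25 * ζ ^ 5 + 37 * ζ ^ 6 + 56 * ζ ^ 7
      + 73 * ζ ^ 8 + 113 * ζ ^ 9 + 124 * ζ ^ 10 + 76 * ζ ^ 11)
    (-43 - 41 * ζ - 20 * ζ ^ 2 - 37 * ζ ^ 3 - 32 * ζ ^ 4 - 12 * ζ ^ 5 - 18 * ζ ^ 6 - 27 * ζ ^ 7
      - 35 * ζ ^ 8 - 54 * ζ ^ 9 - 59 * ζ ^ 10 - 36 * ζ ^ 11)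
    (421949 + 5626 * ζ + 75 * ζ ^ 2 + ζ ^ 3) 201568 ?_ ?_ ?_
  · push_cast
    linear_combination (-68 + 65 * ζ + 48 * ζ ^ 2 + 76 * ζ ^ 3) * hΦ
  · push_cast
    linear_combination (-32 + 31 * ζ + 23 * ζ ^ 2 + 36 * ζ ^ 3) * hΦ
  · push_cast
    ring

/-- The prime `(1 + ζ - ζ³)` of norm `27` in `ℤ[ζ₁₃]`. -/
theorem exists_isPrincipal_primesOver_3 :
    ∃ P ∈ primesOver (span {((3 : ℕ) : ℤ)}) (𝓞 K), Submodule.IsPrincipal P := by
  have hΦ := sum_zetaInt_thirteen K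
  set ζ := zetaInt 13 K with hζ
  have hmap : (X ^ 3 - X - 1 : ℤ[X]).map (Int.castRingHom (ZMod 3)) = X ^ 3 - X - 1 := by
    simp
  have haeval : aeval ζ (X ^ 3 - X - 1 : ℤ[X]) = ζ ^ 3 - ζ - 1 := by
    simp
  have hdeg : (X ^ 3 - X - 1 : (ZMod 3)[X]).natDegree = 3 := by
    compute_degree!
  refine exists_isPrincipal_primesOver 13 K 3 (X ^ 3 - X - 1) ?_ ?_ ?_
    (1 + ζ - ζ ^ 3)
    (-1 - ζ ^ 2 - ζ ^ 3 - 2 * ζ ^ 5 - ζ ^ 7 - 2 * ζ ^ 8 + ζ ^ 9 - 3 * ζ ^ 10)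
    (-1) 0 (-1) ?_ ?_ ?_
  · rw [hmap]
    refine irreducible_of_degree_le_three_of_not_isRoot (by rw [hdeg]; decide) ?_
    intro x
    simp only [IsRoot.def, eval_sub, eval_pow, eval_X, eval_one]
    revert x
    decide
  · rw [hmap]
    refine monic_of_natDegree_le_of_coeff_eq_one 3 hdeg.le ?_
    simp [coeff_X, coeff_one]
  · rw [hmap, ← map_cyclotomic_int, cyclotomic_prime]
    have hZ : (∑ i ∈ Finset.range 13, X ^ i : ℤ[X]) =
        (X ^ 3 - X - 1) * (20 + 15 * X + 11 * X ^ 2 + 8 * X ^ 3 + 6 * X ^ 4 + 4 * X ^ 5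
          + 3 * X ^ 6 + 2 * X ^ 7 + X ^ 8 + X ^ 9) + C 3 * (7 + 12 * X + 9 * X ^ 2) := by
      simp only [Finset.sum_range_succ, Finset.sum_range_zero, zero_add, pow_zero, pow_one]
      simp only [map_ofNat]
      ring
    rw [hZ, Polynomial.map_add, Polynomial.map_mul, Polynomial.map_mul, hmap]
    have h3 : (C (3 : ℤ) : ℤ[X]).map (Int.castRingHom (ZMod 3)) = 0 := by
      rw [map_C]
      have : (Int.castRingHom (ZMod 3)) 3 = 0 := by decide
      rw [this, map_zero]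
    rw [h3, zero_mul, add_zero]
    exact dvd_mul_right _ _
  · push_cast
    linear_combination (-4 + 3 * ζ) * hΦ
  · rw [haeval]; ring
  · rw [haeval]; push_cast; ring

theorem thirteen_pid : IsPrincipalIdealRing (𝓞 K) := by
  refine cyclotomic_isPrincipalIdealRing_of_data 13 K 310 ?_ ?_
  · have hpi : (4 : ℝ) / π < 4 / 3.14 :=
      div_lt_div_of_pos_left (by norm_num) (by norm_num) Real.pi_gt_d2
    have hsq : √(1792160394037 : ℝ) < 1338720 := by
      rw [Real.sqrt_lt' (by norm_num)]; norm_num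
    norm_num [Nat.factorial]
    calc (4 / π) ^ 6 * (1925 / 35831808 * √1792160394037)
        ≤ (4 / 3.14) ^ 6 * (1925 / 35831808 * 1338720) := by gcongr
      _ < 311 := by norm_num
  · intro p hp hprime hne
    rw [Finset.mem_Icc] at hp
    obtain ⟨h1, h310⟩ := hp
    have hp0 : ((p : ℕ) : ZMod 13) ≠ 0 := by
      rw [Ne, ZMod.natCast_eq_zero_iff]
      intro hd
      exact hne ((Nat.prime_dvd_prime_iff_eq (by norm_num) hprime).mp hd).symm
    by_cases hp1 : ((p : ℕ) : ZMod 13) = 1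
    · -- p ≡ 1 mod 13, so p ∈ {53, 79, 131, 157}
      right
      have hmod : p % 13 = 1 := by
        have := (ZMod.natCast_eq_natCast_iff' p 1 13).mp (by simpa using hp1)
        simpa using this
      have hcases : p = 53 ∨ p = 79 ∨ p = 131 ∨ p = 157 := by
        have hk : p = 13 * (p / 13) + 1 := by omega
        have hk5 : p / 13 ≤ 23 := by omega
        generalize p / 13 = k at hk hk5
        subst hk
        interval_cases k <;> first | omega | (exfalso; revert hprime; norm_num)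
      rcases hcases with rfl | rfl | rfl | rfl
      · exact exists_isPrincipal_primesOver_53 K
      · exact exists_isPrincipal_primesOver_79 K
      · exact exists_isPrincipal_primesOver_131 K
      · exact exists_isPrincipal_primesOver_157 K
    · by_cases h18 : 18 ≤ p
      · left
        have h2 : 2 ≤ orderOf ((p : ℕ) : ZMod 13) := two_le_orderOf hp0 hp1
        calc 310 < 18 ^ 2 := by norm_num
          _ ≤ p ^ 2 := Nat.pow_le_pow_left h18 2
          _ ≤ p ^ orderOf ((p : ℕ) : ZMod 13) := Nat.pow_le_pow_right (by omega) h2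
      · rw [not_le] at h18
        interval_cases p
        · exact absurd hprime (by norm_num)
        · left
          have : 9 ≤ orderOf ((2 : ℕ) : ZMod 13) :=
            le_orderOf_of_forall_pow_ne_one (by decide) 9 (by decide)
          calc 310 < 2 ^ 9 := by norm_num
            _ ≤ 2 ^ orderOf ((2 : ℕ) : ZMod 13) := Nat.pow_le_pow_right (by norm_num) this
        · right
          exact exists_isPrincipal_primesOver_3 K
        · exact absurd hprime (by norm_num)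
        · left
          have : 4 ≤ orderOf ((5 : ℕ) : ZMod 13) :=
            le_orderOf_of_forall_pow_ne_one (by decide) 4 (by decide)
          calc 310 < 5 ^ 4 := by norm_num
            _ ≤ 5 ^ orderOf ((5 : ℕ) : ZMod 13) := Nat.pow_le_pow_right (by norm_num) this
        · exact absurd hprime (by norm_num)
        · left
          have : 3 ≤ orderOf ((7 : ℕ) : ZMod 13) :=
            le_orderOf_of_forall_pow_ne_one (by decide) 3 (by decide)
          calc 310 < 7 ^ 3 := by norm_num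
            _ ≤ 7 ^ orderOf ((7 : ℕ) : ZMod 13) := Nat.pow_le_pow_right (by norm_num) this
        · exact absurd hprime (by norm_num)
        · exact absurd hprime (by norm_num)
        · exact absurd hprime (by norm_num)
        · left
          have : 3 ≤ orderOf ((11 : ℕ) : ZMod 13) :=
            le_orderOf_of_forall_pow_ne_one (by decide) 3 (by decide)
          calc 310 < 11 ^ 3 := by norm_num
            _ ≤ 11 ^ orderOf ((11 : ℕ) : ZMod 13) := Nat.pow_le_pow_right (by norm_num) this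
        · exact absurd hprime (by norm_num)
        · exact absurd rfl hne
        · exact absurd hprime (by norm_num)
        · exact absurd hprime (by norm_num)
        · exact absurd hprime (by norm_num)
        · left
          have : 3 ≤ orderOf ((17 : ℕ) : ZMod 13) :=
            le_orderOf_of_forall_pow_ne_one (by decide) 3 (by decide)
          calc 310 < 17 ^ 3 := by norm_num
            _ ≤ 17 ^ orderOf ((17 : ℕ) : ZMod 13) := Nat.pow_le_pow_right (by norm_num) this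

end

end Fermat.Agent.Kummer
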