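import Fermat.Agent.Kummer.ClassNumberAux
import Mathlib.Tactic

/-! # `ℤ[ζ₇]` is a PID -/

namespace Fermat.Agent.Kummer

open NumberField Polynomial
open scoped Real

instance fact_prime_seven : Fact (Nat.Prime 7) := ⟨by norm_num⟩

theorem seven_pid (K : Type*) [Field K] [NumberField K] [IsCyclotomicExtension {7} ℚ K] :
    IsPrincipalIdealRing (𝓞 K) := by
  refine cyclotomic_isPrincipalIdealRing_of_data 7 K 4 ?_ ?_
  · have hpi : (4 : ℝ) / π < 4 / 3.14 :=
      div_lt_div_of_pos_left (by norm_num) (by norm_num) Real.pi_gt_d2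
    have hsq : √(16807 : ℝ) < 130 := by
      rw [Real.sqrt_lt' (by norm_num)]; norm_num
    norm_num [Nat.factorial]
    calc (4 / π) ^ 3 * (5 / 324 * √16807) ≤ (4 / 3.14) ^ 3 * (5 / 324 * 130) := by
          gcongr
      _ < 5 := by norm_num
  · intro p hp hprime hne
    left
    rw [Finset.mem_Icc] at hp
    obtain ⟨h1, h4⟩ := hp
    interval_cases p
    · exact absurd hprime (by norm_num)
    · -- p = 2, order 3
      have : 3 ≤ orderOf ((2 : ℕ) : ZMod 7) :=
        le_orderOf_of_forall_pow_ne_one (by decide) 3 (by decide)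
      calc 4 < 2 ^ 3 := by norm_num
        _ ≤ 2 ^ orderOf ((2 : ℕ) : ZMod 7) := Nat.pow_le_pow_right (by norm_num) this
    · have : 2 ≤ orderOf ((3 : ℕ) : ZMod 7) :=
        two_le_orderOf (by decide) (by decide)
      calc 4 < 3 ^ 2 := by norm_num
        _ ≤ 3 ^ orderOf ((3 : ℕ) : ZMod 7) := Nat.pow_le_pow_right (by norm_num) this
    · exact absurd hprime (by norm_num)

end Fermat.Agent.Kummer
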