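import Mathlib.NumberTheory.NumberField.Cyclotomic.PID
import Mathlib.NumberTheory.NumberField.Cyclotomic.Ideal
import Mathlib.NumberTheory.NumberField.Ideal.KummerDedekind

/-!
# Tools for proving that `ℤ[ζ_ℓ]` is a PID for small primes `ℓ`

* `isPrincipalIdealRing_of_minkowski_lt`: Galois version of the Minkowski bound criterion with a
  user supplied (possibly non-sharp) bound `B`.
* `exists_isPrincipal_primesOver`: a certificate based criterion for the existence of a principal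
  prime above `p` in `ℚ(ζ_ℓ)` (Kummer–Dedekind).
-/

namespace Fermat.Agent.Kummer

open NumberField RingOfIntegers Ideal Polynomial Module InfinitePlace Nat
open scoped Real

section Minkowski

variable (K : Type*) [Field K] [NumberField K]

/-- The Galois version of the Minkowski bound criterion, with a non-sharp bound `B`. -/
theorem isPrincipalIdealRing_of_minkowski_lt [IsGalois ℚ K] (B : ℕ)
    (hB : (4 / π) ^ nrComplexPlaces K *
      ((finrank ℚ K)! / (finrank ℚ K) ^ (finrank ℚ K) * √|discr K|) < B + 1)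
    (h : ∀ p ∈ Finset.Icc 1 B, p.Prime →
      ∃ P ∈ primesOver (span {(p : ℤ)}) (𝓞 K),
        B < p ^ P.inertiaDeg ℤ ∨ Submodule.IsPrincipal P) :
    IsPrincipalIdealRing (𝓞 K) := by
  have hfl : ⌊(4 / π) ^ nrComplexPlaces K *
      ((finrank ℚ K)! / (finrank ℚ K) ^ (finrank ℚ K) * √|discr K|)⌋₊ ≤ B := by
    rw [← Nat.lt_succ_iff, Nat.floor_lt (by positivity)]
    exact_mod_cast hB
  refine isPrincipalIdealRing_of_isPrincipal_of_lt_or_isPrincipal_of_mem_primesOver_of_mem_Icc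
    fun p hp hprime => ?_
  have hp' : p ∈ Finset.Icc 1 B := by
    rw [Finset.mem_Icc] at hp ⊢
    exact ⟨hp.1, hp.2.trans hfl⟩
  obtain ⟨P, hP, hP'⟩ := h p hp' hprime
  refine ⟨P, hP, hP'.imp (fun h1 => lt_of_le_of_lt hfl h1) id⟩

end Minkowski

section Cyclotomic

open IsCyclotomicExtension IsCyclotomicExtension.Rat

variable (ℓ : ℕ) [hℓ : Fact ℓ.Prime] (K : Type*) [Field K] [NumberField K]
  [hK : IsCyclotomicExtension {ℓ} ℚ K]

/-- The chosen primitive `ℓ`-th root of unity in `𝓞 K`. -/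
noncomputable abbrev zetaInt : 𝓞 K := (zeta_spec ℓ ℚ K).toInteger

theorem sum_zetaInt_pow : ∑ i ∈ Finset.range ℓ, zetaInt ℓ K ^ i = 0 :=
  (zeta_spec ℓ ℚ K).toInteger_isPrimitiveRoot.geom_sum_eq_zero hℓ.out.one_lt

theorem minpoly_zetaInt : minpoly ℤ (zetaInt ℓ K) = cyclotomic ℓ ℤ := by
  rw [cyclotomic_eq_minpoly (zeta_spec ℓ ℚ K) hℓ.out.pos, ← RingOfIntegers.minpoly_coe]
  rfl

/-- Certificate based criterion for the existence of a principal prime above `p` in `ℚ(ζ_ℓ)`: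
`Q` reduces to a monic irreducible factor of `Φ_ℓ` modulo `p` and `(p, Q(ζ)) = (α)`. -/
theorem exists_isPrincipal_primesOver (p : ℕ) [Fact p.Prime] (Q : ℤ[X])
    (hQirr : Irreducible (Q.map (Int.castRingHom (ZMod p))))
    (hQmonic : (Q.map (Int.castRingHom (ZMod p))).Monic)
    (hQdvd : Q.map (Int.castRingHom (ZMod p)) ∣ cyclotomic ℓ (ZMod p))
    (α β γ u v : 𝓞 K)
    (h1 : α * β = p) (h2 : aeval (zetaInt ℓ K) Q = α * γ)
    (h3 : α = p * u + aeval (zetaInt ℓ K) Q * v) :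
    ∃ P ∈ primesOver (span {(p : ℤ)}) (𝓞 K), Submodule.IsPrincipal P := by
  have h₁ : ¬ p ∣ exponent (zetaInt ℓ K) := by
    rw [exponent_eq_one_iff.mpr <| adjoin_singleton_eq_top (zeta_spec ℓ ℚ K)]
    exact (Fact.out : p.Prime).not_dvd_one
  have hQ : Q.map (Int.castRingHom (ZMod p)) ∈ monicFactorsMod (zetaInt ℓ K) p := by
    rw [Multiset.mem_toFinset, Polynomial.mem_normalizedFactors_iff
      (map_monic_ne_zero (minpoly.monic (zetaInt ℓ K).isIntegral))]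
    refine ⟨hQirr, hQmonic, ?_⟩
    rw [minpoly_zetaInt, map_cyclotomic]
    exact hQdvd
  refine ⟨_, ((NumberField.Ideal.primesOverSpanEquivMonicFactorsMod h₁).symm ⟨_, hQ⟩).prop, ?_⟩
  rw [NumberField.Ideal.primesOverSpanEquivMonicFactorsMod_symm_apply_eq_span h₁ hQ]
  have : span {(p : 𝓞 K), aeval (zetaInt ℓ K) Q} = span {α} := by
    apply le_antisymm
    · rw [span_le]
      intro x hx
      simp only [Set.mem_insert_iff, Set.mem_singleton_iff] at hx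
      rcases hx with rfl | rfl
      · exact mem_span_singleton'.mpr ⟨β, by rw [mul_comm, h1]⟩
      · exact mem_span_singleton'.mpr ⟨γ, by rw [mul_comm, h2]⟩
    · rw [span_singleton_le_iff_mem, h3]
      exact add_mem (mul_mem_right _ _ (subset_span (by simp)))
        (mul_mem_right _ _ (subset_span (by simp)))
  rw [this]
  exact ⟨⟨α, rfl⟩⟩

/-- Linear case of `exists_isPrincipal_primesOver`: `p` splits, `P = (p, ζ - r) = (α)`. -/
theorem exists_isPrincipal_primesOver_of_linear (p : ℕ) [Fact p.Prime] (r : ℤ)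
    (hr : ∑ i ∈ Finset.range ℓ, ((r : ℤ) : ZMod p) ^ i = 0)
    (α β γ v : 𝓞 K) (m : ℤ)
    (h1 : α * β = p) (h2 : zetaInt ℓ K - r = α * γ)
    (h3 : α = p * m + (zetaInt ℓ K - r) * v) :
    ∃ P ∈ primesOver (span {(p : ℤ)}) (𝓞 K), Submodule.IsPrincipal P := by
  have hmap : (X - C r : ℤ[X]).map (Int.castRingHom (ZMod p)) = X - C ((r : ℤ) : ZMod p) := by
    simp
  have haeval : aeval (zetaInt ℓ K) (X - C r : ℤ[X]) = zetaInt ℓ K - r := by
    simp
  refine exists_isPrincipal_primesOver ℓ K p (X - C r) ?_ ?_ ?_ α β γ m v h1 ?_ ?_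
  · rw [hmap]; exact irreducible_X_sub_C _
  · rw [hmap]; exact monic_X_sub_C _
  · rw [hmap, dvd_iff_isRoot, IsRoot.def, cyclotomic_prime, eval_geom_sum]
    exact hr
  · rw [haeval]; exact h2
  · rw [haeval]; exact h3

/-- The Minkowski bound of `ℚ(ζ_ℓ)` in explicit form. -/
theorem minkowski_cyclotomic_eq :
    (4 / π) ^ nrComplexPlaces K *
      ((finrank ℚ K)! / (finrank ℚ K) ^ (finrank ℚ K) * √|discr K|) =
    (4 / π) ^ ((ℓ - 1) / 2) *
      (((ℓ - 1)! : ℕ) / ((ℓ - 1 : ℕ) : ℝ) ^ (ℓ - 1) * √((ℓ : ℝ) ^ (ℓ - 2))) := by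
  rw [discr_prime ℓ K, IsCyclotomicExtension.finrank (n := ℓ) K
    (cyclotomic.irreducible_rat hℓ.out.pos), nrComplexPlaces_eq_totient_div_two ℓ,
    totient_prime hℓ.out]
  congr 3
  push_cast
  rw [abs_mul, abs_pow, abs_neg, abs_one, one_pow, one_mul, abs_pow, Nat.abs_cast]

/-- Criterion for `𝓞 ℚ(ζ_ℓ)` to be a PID. -/
theorem cyclotomic_isPrincipalIdealRing_of_data (B : ℕ)
    (hB : (4 / π) ^ ((ℓ - 1) / 2) *
      (((ℓ - 1)! : ℕ) / ((ℓ - 1 : ℕ) : ℝ) ^ (ℓ - 1) * √((ℓ : ℝ) ^ (ℓ - 2))) < B + 1)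
    (h : ∀ p ∈ Finset.Icc 1 B, p.Prime → p ≠ ℓ →
      B < p ^ orderOf (p : ZMod ℓ) ∨
        ∃ P ∈ primesOver (span {(p : ℤ)}) (𝓞 K), Submodule.IsPrincipal P) :
    IsPrincipalIdealRing (𝓞 K) := by
  have : IsGalois ℚ K := IsCyclotomicExtension.isGalois {ℓ} ℚ K
  refine isPrincipalIdealRing_of_minkowski_lt K B ?_ fun p hp hprime => ?_
  · rw [minkowski_cyclotomic_eq ℓ K]; exact hB
  have : Fact p.Prime := ⟨hprime⟩
  by_cases hpl : p = ℓ
  · subst hpl
    obtain ⟨⟨P, hP1, hP2⟩⟩ := (span {(p : ℤ)}).nonempty_primesOver (S := 𝓞 K)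
    refine ⟨P, ⟨hP1, hP2⟩, Or.inr ?_⟩
    rw [eq_span_zeta_sub_one_of_liesOver' p K (zeta_spec p ℚ K) P]
    exact ⟨⟨_, rfl⟩⟩
  · rcases h p hp hprime hpl with h1 | ⟨P, hP, hP'⟩
    · obtain ⟨⟨P, hP1, hP2⟩⟩ := (span {(p : ℤ)}).nonempty_primesOver (S := 𝓞 K)
      refine ⟨P, ⟨hP1, hP2⟩, Or.inl ?_⟩
      have hm : ¬ p ∣ ℓ := fun hd => hpl ((Nat.prime_dvd_prime_iff_eq hprime hℓ.out).mp hd)
      rw [inertiaDeg_eq_of_not_dvd p K P hm]
      exact h1
    · exact ⟨P, hP, Or.inr hP'⟩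

end Cyclotomic

section Order

/-- Lower bound for the order of `p` modulo `ℓ`. -/
theorem le_orderOf_of_forall_pow_ne_one {ℓ : ℕ} [Fact ℓ.Prime] {x : ZMod ℓ} (hx : x ≠ 0) (k : ℕ)
    (hk : ∀ j ∈ Finset.Ico 1 k, x ^ j ≠ 1) : k ≤ orderOf x := by
  by_contra hlt
  rw [not_le] at hlt
  have hfin : IsOfFinOrder x :=
    isOfFinOrder_iff_pow_eq_one.mpr ⟨ℓ - 1, Nat.sub_pos_of_lt (Fact.out : ℓ.Prime).one_lt,
      ZMod.pow_card_sub_one_eq_one hx⟩
  exact hk (orderOf x) (Finset.mem_Ico.mpr ⟨hfin.orderOf_pos, hlt⟩) (pow_orderOf_eq_one x)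

/-- If `p ≢ 1 mod ℓ` then `p` has order at least `2` modulo `ℓ`. -/
theorem two_le_orderOf {ℓ : ℕ} [Fact ℓ.Prime] {x : ZMod ℓ} (hx : x ≠ 0) (hx1 : x ≠ 1) :
    2 ≤ orderOf x := by
  refine le_orderOf_of_forall_pow_ne_one hx 2 fun j hj => ?_
  have : j = 1 := by
    rw [Finset.mem_Ico] at hj; omega
  rw [this, pow_one]; exact hx1

end Order

end Fermat.Agent.Kummer
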