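import Mathlib

/-!
# Kummer's lemma, slice (C): the explicit independence check for `p ∈ {5, 7, 11, 13}`

Let `V p = (ZMod p)[X] ⧸ (X ^ (p - 2))` and let `g p i` be the image of `ζ` (for `i = 0`) resp. of
the cyclotomic unit `1 + ζ + ⋯ + ζ ^ i` (for `1 ≤ i < (p - 1) / 2`) under `ζ ↦ 1 + X`. The main
theorem `linearIndependent_dlog` says that, for `p ∈ {5, 7, 11, 13}`, any family `v` with
`v i * g p i = (g p i)'` in `V p` (the logarithmic derivatives) is linearly independent over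
`ZMod p`.

The proof is a kernel-checked computation: an explicit table `M` of the coefficients of the
logarithmic derivatives (certified coefficientwise by `decide`) and an explicit right inverse `N`
of `M` (certified by `decide`).
-/

set_option autoImplicit false

open Polynomial

namespace Fermat.Agent.Kummer.KLIndep

section Glue

variable {F : Type*} [Field F]

/-- The polynomial with prescribed coefficients below `n`. -/
noncomputable def polyOf (n : ℕ) (a : ℕ → F) : F[X] := ∑ k ∈ Finset.range n, C (a k) * X ^ k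

theorem coeff_polyOf (n : ℕ) (a : ℕ → F) (j : ℕ) :
    (polyOf n a).coeff j = if j < n then a j else 0 := by
  unfold polyOf
  rw [finsetSum_coeff]
  simp only [coeff_C_mul, coeff_X_pow]
  split_ifs with h
  · rw [Finset.sum_eq_single j]
    · simp
    · intro b _ hb
      simp [hb.symm]
    · intro hj
      exact absurd (Finset.mem_range.mpr h) hj
  · refine Finset.sum_eq_zero fun b hb => ?_
    have : j ≠ b := by
      rintro rfl
      exact h (Finset.mem_range.mp hb)
    simp [this]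

/-- A polynomial with nonzero constant coefficient is a unit modulo `X ^ n`. -/
theorem isUnit_mk_of_coeff_zero_ne_zero (n : ℕ) (f : F[X]) (hf : f.coeff 0 ≠ 0) :
    IsUnit (Ideal.Quotient.mk (Ideal.span {(X : F[X]) ^ n}) f) := by
  have hX : ¬ (X : F[X]) ∣ f := by
    rw [X_dvd_iff]
    exact hf
  have hcop : IsCoprime ((X : F[X]) ^ n) f :=
    IsCoprime.pow_left ((irreducible_X (R := F)).coprime_iff_not_dvd.mpr hX)
  obtain ⟨a, b, hab⟩ := hcop
  refine IsUnit.of_mul_eq_one (Ideal.Quotient.mk _ b) ?_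
  rw [← map_mul, ← map_one (Ideal.Quotient.mk (Ideal.span {(X : F[X]) ^ n})), ← hab, map_add,
    mul_comm f b]
  have : Ideal.Quotient.mk (Ideal.span {(X : F[X]) ^ n}) (a * X ^ n) = 0 := by
    rw [Ideal.Quotient.eq_zero_iff_mem, Ideal.mem_span_singleton]
    exact Dvd.intro_left a rfl
  rw [this, zero_add]

/-- The glue theorem: if the explicit data `M`, `N` certify (coefficientwise) that
`polyOf n (M i) * G i ≡ (G i)'` modulo `X ^ n` and that `M` has a right inverse, then any family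
`v` of logarithmic derivatives of the `G i` modulo `X ^ n` is linearly independent. -/
theorem linearIndependent_of_cert {m n : ℕ} (G : Fin m → F[X]) (M : ℕ → ℕ → F) (N : ℕ → ℕ → F)
    (h0 : ∀ i, (G i).coeff 0 ≠ 0)
    (hcert : ∀ (i : Fin m) (j : Fin n),
      ∑ k ∈ Finset.range ((j : ℕ) + 1), M i k * (G i).coeff ((j : ℕ) - k) =
        (G i).coeff ((j : ℕ) + 1) * (((j : ℕ) : F) + 1))
    (hMN : ∀ i k : Fin m, ∑ j ∈ Finset.range n, M i j * N j k = if i = k then 1 else 0)
    (v : Fin m → F[X] ⧸ Ideal.span {(X : F[X]) ^ n})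
    (hv : ∀ i, v i * Ideal.Quotient.mk _ (G i) = Ideal.Quotient.mk _ (derivative (G i))) :
    LinearIndependent F v := by
  -- the explicit logarithmic derivatives
  have hW : ∀ i : Fin m, v i = Ideal.Quotient.mk _ (polyOf n (M i)) := by
    intro i
    have hcertpoly : Ideal.Quotient.mk (Ideal.span {(X : F[X]) ^ n}) (polyOf n (M i)) *
        Ideal.Quotient.mk _ (G i) = Ideal.Quotient.mk _ (derivative (G i)) := by
      rw [← map_mul, Ideal.Quotient.eq, Ideal.mem_span_singleton, X_pow_dvd_iff]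
      intro d hd
      rw [coeff_sub, coeff_mul, Finset.Nat.sum_antidiagonal_eq_sum_range_succ_mk, coeff_derivative,
        sub_eq_zero]
      have := hcert i ⟨d, hd⟩
      simp only at this
      rw [← this]
      refine Finset.sum_congr rfl fun k hk => ?_
      have hk' : k < n := lt_of_lt_of_le (Finset.mem_range.mp hk) hd
      rw [coeff_polyOf, if_pos hk']
    exact (isUnit_mk_of_coeff_zero_ne_zero n (G i) (h0 i)).mul_left_injective
      ((hv i).trans hcertpoly.symm)
  rw [Fintype.linearIndependent_iff]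
  intro c hc k
  -- the relation in terms of coefficients
  have hcoef : ∀ j, j < n → ∑ i : Fin m, c i * M i j = 0 := by
    intro j hj
    have h1 : Ideal.Quotient.mk (Ideal.span {(X : F[X]) ^ n})
        (∑ i : Fin m, C (c i) * polyOf n (M i)) = 0 := by
      rw [map_sum, ← hc]
      refine Finset.sum_congr rfl fun i _ => ?_
      rw [hW i, ← smul_eq_C_mul]
      rfl
    rw [Ideal.Quotient.eq_zero_iff_mem, Ideal.mem_span_singleton, X_pow_dvd_iff] at h1
    have h2 := h1 j hj
    rw [finsetSum_coeff] at h2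
    rw [← h2]
    refine Finset.sum_congr rfl fun i _ => ?_
    rw [coeff_C_mul, coeff_polyOf, if_pos hj]
  -- invert
  have h3 : ∑ j ∈ Finset.range n, (∑ i : Fin m, c i * M i j) * N j k = 0 := by
    refine Finset.sum_eq_zero fun j hj => ?_
    rw [hcoef j (Finset.mem_range.mp hj), zero_mul]
  have h4 : ∑ j ∈ Finset.range n, (∑ i : Fin m, c i * M i j) * N j k =
      ∑ i : Fin m, c i * ∑ j ∈ Finset.range n, M i j * N j k := by
    simp_rw [Finset.sum_mul, Finset.mul_sum]
    rw [Finset.sum_comm]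
    refine Finset.sum_congr rfl fun i _ => Finset.sum_congr rfl fun j _ => ?_
    ring
  rw [h4] at h3
  simp_rw [hMN] at h3
  simpa using h3

end Glue


/-- The target of the logarithmic derivative: polynomials over `ZMod p` modulo `X ^ (p - 2)`. -/
abbrev V (p : ℕ) := (ZMod p)[X] ⧸ Ideal.span {(X : (ZMod p)[X]) ^ (p - 2)}

/-- The images of `ζ` (for `i = 0`) and of the cyclotomic units `1 + ζ + ⋯ + ζ ^ i` (for `i ≥ 1`)
under `ζ ↦ 1 + X`. -/
noncomputable def g (p : ℕ) (i : Fin ((p - 1) / 2)) : (ZMod p)[X] :=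
  if (i : ℕ) = 0 then 1 + X else ∑ j ∈ Finset.range ((i : ℕ) + 1), (1 + X) ^ j

/-- The coefficients of `g p i`, computably. -/
def gc (p : ℕ) (i j : ℕ) : ZMod p :=
  if i = 0 then (if j ≤ 1 then 1 else 0)
  else ∑ l ∈ Finset.range (i + 1), ((l.choose j : ℕ) : ZMod p)

theorem coeff_g (p : ℕ) (i : Fin ((p - 1) / 2)) (j : ℕ) : (g p i).coeff j = gc p i j := by
  unfold g gc
  split_ifs with h
  · rw [coeff_add, coeff_one, coeff_X]
    rcases j with _ | _ | j
    · simp
    · simp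
    · omega
  · rw [coeff_add, coeff_one, coeff_X]
    rcases j with _ | _ | j
    · omega
    · omega
    · simp
  · rw [finsetSum_coeff]
    refine Finset.sum_congr rfl fun l _ => ?_
    rw [coeff_one_add_X_pow]

/-- Table lookup. -/
def tbl (p : ℕ) (t : List (List ℕ)) (i j : ℕ) : ZMod p := (((t.getD i []).getD j 0 : ℕ) : ZMod p)

/-- Coefficients of the logarithmic derivatives for `p = 5`. -/
def M5 : List (List ℕ) := [[1, 4, 1], [3, 1, 2]]

/-- A right inverse of `M5` modulo `5`. -/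
def N5 : List (List ℕ) := [[4, 4], [3, 4], [0, 0]]

/-- Coefficients of the logarithmic derivatives for `p = 7`. -/
def M7 : List (List ℕ) := [[1, 6, 1, 6, 1], [4, 5, 1, 3, 2], [1, 2, 0, 4, 3]]

/-- A right inverse of `M7` modulo `7`. -/
def N7 : List (List ℕ) := [[0, 3, 3], [5, 4, 0], [0, 0, 0], [1, 6, 3], [0, 0, 0]]

/-- Coefficients of the logarithmic derivatives for `p = 11`. -/
def M11 : List (List ℕ) := [[1, 10, 1, 10, 1, 10, 1, 10, 1], [6, 8, 7, 2, 10, 6, 8, 7, 2], [1, 7, 0, 5, 6, 7, 2, 3, 0], [7, 8, 1, 8, 7, 6, 4, 0, 0], [2, 0, 10, 3, 0, 6, 5, 6, 5]]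

/-- A right inverse of `M11` modulo `11`. -/
def N11 : List (List ℕ) := [[9, 6, 7, 0, 2], [1, 8, 7, 4, 2], [0, 0, 0, 0, 0], [9, 0, 1, 3, 1], [0, 0, 0, 0, 0], [0, 8, 5, 0, 1], [0, 0, 0, 0, 0], [9, 1, 5, 4, 9], [0, 0, 0, 0, 0]]

/-- Coefficients of the logarithmic derivatives for `p = 13`. -/
def M13 : List (List ℕ) := [[1, 12, 1, 12, 1, 12, 1, 12, 1, 12, 1], [7, 3, 5, 4, 11, 1, 6, 10, 8, 9, 2], [1, 4, 0, 3, 10, 2, 12, 9, 0, 10, 3], [8, 3, 11, 11, 1, 1, 11, 5, 4, 9, 4], [2, 0, 12, 6, 0, 2, 11, 4, 7, 3, 5], [9, 8, 3, 8, 9, 1, 6, 7, 6, 7, 6]]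

/-- A right inverse of `M13` modulo `13`. -/
def N13 : List (List ℕ) := [[1, 10, 12, 7, 4, 4], [3, 2, 12, 11, 2, 1], [0, 0, 0, 0, 0, 0], [3, 10, 2, 9, 2, 2], [0, 0, 0, 0, 0, 0], [9, 7, 4, 9, 7, 11], [0, 0, 0, 0, 0, 0], [7, 11, 0, 6, 1, 1], [0, 0, 0, 0, 0, 0], [4, 6, 7, 11, 5, 2], [0, 0, 0, 0, 0, 0]]

set_option maxRecDepth 100000 in
theorem cert5_unit : ∀ i : Fin ((5 - 1) / 2), gc 5 i 0 ≠ 0 := by decide

set_option maxRecDepth 100000 in
theorem cert5_dlog : ∀ (i : Fin ((5 - 1) / 2)) (j : Fin (5 - 2)),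
    ∑ k ∈ Finset.range ((j : ℕ) + 1), tbl 5 M5 i k * gc 5 i ((j : ℕ) - k) =
      gc 5 i ((j : ℕ) + 1) * (((j : ℕ) : ZMod 5) + 1) := by decide

set_option maxRecDepth 100000 in
theorem cert5_inv : ∀ i k : Fin ((5 - 1) / 2),
    ∑ j ∈ Finset.range (5 - 2), tbl 5 M5 i j * tbl 5 N5 j k = if i = k then 1 else 0 := by
  decide

theorem linearIndependent_dlog_5 (v : Fin ((5 - 1) / 2) → V 5)
    (hv : ∀ i, v i * Ideal.Quotient.mk _ (g 5 i) = Ideal.Quotient.mk _ (derivative (g 5 i))) :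
    LinearIndependent (ZMod 5) v := by
  have : Fact (Nat.Prime 5) := ⟨by norm_num⟩
  refine linearIndependent_of_cert (F := ZMod 5) (m := (5 - 1) / 2) (n := 5 - 2) (g 5)
    (tbl 5 M5) (tbl 5 N5) ?_ ?_ ?_ v hv
  · simp only [coeff_g]
    exact cert5_unit
  · simp only [coeff_g]
    exact cert5_dlog
  · exact cert5_inv

set_option maxRecDepth 100000 in
theorem cert7_unit : ∀ i : Fin ((7 - 1) / 2), gc 7 i 0 ≠ 0 := by decide

set_option maxRecDepth 100000 in
theorem cert7_dlog : ∀ (i : Fin ((7 - 1) / 2)) (j : Fin (7 - 2)),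
    ∑ k ∈ Finset.range ((j : ℕ) + 1), tbl 7 M7 i k * gc 7 i ((j : ℕ) - k) =
      gc 7 i ((j : ℕ) + 1) * (((j : ℕ) : ZMod 7) + 1) := by decide

set_option maxRecDepth 100000 in
theorem cert7_inv : ∀ i k : Fin ((7 - 1) / 2),
    ∑ j ∈ Finset.range (7 - 2), tbl 7 M7 i j * tbl 7 N7 j k = if i = k then 1 else 0 := by
  decide

theorem linearIndependent_dlog_7 (v : Fin ((7 - 1) / 2) → V 7)
    (hv : ∀ i, v i * Ideal.Quotient.mk _ (g 7 i) = Ideal.Quotient.mk _ (derivative (g 7 i))) :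
    LinearIndependent (ZMod 7) v := by
  have : Fact (Nat.Prime 7) := ⟨by norm_num⟩
  refine linearIndependent_of_cert (F := ZMod 7) (m := (7 - 1) / 2) (n := 7 - 2) (g 7)
    (tbl 7 M7) (tbl 7 N7) ?_ ?_ ?_ v hv
  · simp only [coeff_g]
    exact cert7_unit
  · simp only [coeff_g]
    exact cert7_dlog
  · exact cert7_inv

set_option maxRecDepth 100000 in
theorem cert11_unit : ∀ i : Fin ((11 - 1) / 2), gc 11 i 0 ≠ 0 := by decide

set_option maxRecDepth 100000 in
theorem cert11_dlog : ∀ (i : Fin ((11 - 1) / 2)) (j : Fin (11 - 2)),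
    ∑ k ∈ Finset.range ((j : ℕ) + 1), tbl 11 M11 i k * gc 11 i ((j : ℕ) - k) =
      gc 11 i ((j : ℕ) + 1) * (((j : ℕ) : ZMod 11) + 1) := by decide

set_option maxRecDepth 100000 in
theorem cert11_inv : ∀ i k : Fin ((11 - 1) / 2),
    ∑ j ∈ Finset.range (11 - 2), tbl 11 M11 i j * tbl 11 N11 j k = if i = k then 1 else 0 := by
  decide

theorem linearIndependent_dlog_11 (v : Fin ((11 - 1) / 2) → V 11)
    (hv : ∀ i, v i * Ideal.Quotient.mk _ (g 11 i) = Ideal.Quotient.mk _ (derivative (g 11 i))) :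
    LinearIndependent (ZMod 11) v := by
  have : Fact (Nat.Prime 11) := ⟨by norm_num⟩
  refine linearIndependent_of_cert (F := ZMod 11) (m := (11 - 1) / 2) (n := 11 - 2) (g 11)
    (tbl 11 M11) (tbl 11 N11) ?_ ?_ ?_ v hv
  · simp only [coeff_g]
    exact cert11_unit
  · simp only [coeff_g]
    exact cert11_dlog
  · exact cert11_inv

set_option maxRecDepth 100000 in
theorem cert13_unit : ∀ i : Fin ((13 - 1) / 2), gc 13 i 0 ≠ 0 := by decide

set_option maxRecDepth 100000 in
theorem cert13_dlog : ∀ (i : Fin ((13 - 1) / 2)) (j : Fin (13 - 2)),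
    ∑ k ∈ Finset.range ((j : ℕ) + 1), tbl 13 M13 i k * gc 13 i ((j : ℕ) - k) =
      gc 13 i ((j : ℕ) + 1) * (((j : ℕ) : ZMod 13) + 1) := by decide

set_option maxRecDepth 100000 in
theorem cert13_inv : ∀ i k : Fin ((13 - 1) / 2),
    ∑ j ∈ Finset.range (13 - 2), tbl 13 M13 i j * tbl 13 N13 j k = if i = k then 1 else 0 := by
  decide

theorem linearIndependent_dlog_13 (v : Fin ((13 - 1) / 2) → V 13)
    (hv : ∀ i, v i * Ideal.Quotient.mk _ (g 13 i) = Ideal.Quotient.mk _ (derivative (g 13 i))) :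
    LinearIndependent (ZMod 13) v := by
  have : Fact (Nat.Prime 13) := ⟨by norm_num⟩
  refine linearIndependent_of_cert (F := ZMod 13) (m := (13 - 1) / 2) (n := 13 - 2) (g 13)
    (tbl 13 M13) (tbl 13 N13) ?_ ?_ ?_ v hv
  · simp only [coeff_g]
    exact cert13_unit
  · simp only [coeff_g]
    exact cert13_dlog
  · exact cert13_inv

/-- **Independence of the logarithmic derivatives** of `ζ` and the cyclotomic units modulo `p`,
for `p ∈ {5, 7, 11, 13}`. -/
theorem linearIndependent_dlog {p : ℕ} (hp : p = 5 ∨ p = 7 ∨ p = 11 ∨ p = 13)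
    (v : Fin ((p - 1) / 2) → V p)
    (hv : ∀ i, v i * Ideal.Quotient.mk _ (g p i) = Ideal.Quotient.mk _ (derivative (g p i))) :
    LinearIndependent (ZMod p) v := by
  rcases hp with rfl | rfl | rfl | rfl
  · exact linearIndependent_dlog_5 v hv
  · exact linearIndependent_dlog_7 v hv
  · exact linearIndependent_dlog_11 v hv
  · exact linearIndependent_dlog_13 v hv

end Fermat.Agent.Kummer.KLIndep
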