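import Mathlib

/-!
Abstract endgame for Kummer's lemma: a homomorphism from a finitely generated commutative group to
an `𝔽_p`-vector space which is "as injective as possible" detects `p`-th powers.
-/

set_option autoImplicit false

namespace Fermat.Agent.Kummer.KLAbstract

open Module

/-- If `k` linearly independent vectors lie in the span of `k` vectors `w`, then `w` is linearly
independent. -/
theorem linearIndependent_of_span_le {F V : Type*} [Field F] [AddCommGroup V] [Module F V]
    {k : ℕ} (v w : Fin k → V) (hv : LinearIndependent F v)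
    (hvw : ∀ j, v j ∈ Submodule.span F (Set.range w)) : LinearIndependent F w := by
  rw [linearIndependent_iff_card_eq_finrank_span]
  have h1 : Submodule.span F (Set.range v) ≤ Submodule.span F (Set.range w) := by
    rw [Submodule.span_le]
    rintro _ ⟨j, rfl⟩
    exact hvw j
  have h2 : Fintype.card (Fin k) = (Set.range v).finrank F :=
    linearIndependent_iff_card_eq_finrank_span.mp hv
  have h3 : (Set.range v).finrank F ≤ (Set.range w).finrank F := by
    haveI : Module.Finite F (Submodule.span F (Set.range w)) :=
      Module.Finite.span_of_finite F (Set.finite_range w)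
    exact Submodule.finrank_mono h1
  have h4 : (Set.range w).finrank F ≤ Fintype.card (Fin k) := finrank_range_le_card w
  omega

/-- Abstract endgame of Kummer's lemma. -/
theorem exists_pow_of_log_eq_zero {G : Type*} [CommGroup G] {p : ℕ} [Fact p.Prime] {V : Type*}
    [AddCommGroup V] [Module (ZMod p) V] (L : Additive G →+ V) {k : ℕ} (t : Fin k → G)
    (ht : ∀ u : G, ∃ e : Fin k → ℤ, u = ∏ i, t i ^ e i)
    (g : Fin k → G)
    (hg : LinearIndependent (ZMod p) (fun i => L (Additive.ofMul (g i))))
    (u : G) (hu : L (Additive.ofMul u) = 0) : ∃ v : G, u = v ^ p := by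
  -- the value of `L` on a product of powers
  have hL : ∀ e : Fin k → ℤ, L (Additive.ofMul (∏ i, t i ^ e i))
      = ∑ i, ((e i : ℤ) : ZMod p) • L (Additive.ofMul (t i)) := by
    intro e
    rw [ofMul_prod, map_sum]
    refine Finset.sum_congr rfl fun i _ => ?_
    rw [ofMul_zpow, map_zsmul, Int.cast_smul_eq_zsmul]
  -- `L ∘ t` is linearly independent
  have hw : LinearIndependent (ZMod p) (fun i => L (Additive.ofMul (t i))) := by
    refine linearIndependent_of_span_le _ _ hg fun j => ?_
    obtain ⟨e, he⟩ := ht (g j)
    show L (Additive.ofMul (g j)) ∈ _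
    rw [he, hL]
    refine Submodule.sum_mem _ fun i _ => Submodule.smul_mem _ _ (Submodule.subset_span ⟨i, rfl⟩)
  obtain ⟨e, he⟩ := ht u
  rw [he, hL] at hu
  have hzero := (Fintype.linearIndependent_iff.mp hw) (fun i => ((e i : ℤ) : ZMod p)) hu
  have hdvd : ∀ i, (p : ℤ) ∣ e i := fun i => (ZMod.intCast_zmod_eq_zero_iff_dvd (e i) p).mp (hzero i)
  choose f hf using hdvd
  refine ⟨∏ i, t i ^ f i, ?_⟩
  rw [he, ← Finset.prod_pow]
  refine Finset.prod_congr rfl fun i _ => ?_
  rw [hf i, mul_comm, zpow_mul, zpow_natCast]

end Fermat.Agent.Kummer.KLAbstract
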