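import Mathlib

/-!
Dirichlet's unit theorem, packaged: the unit group of the ring of integers of a number field is
generated by `rank K + 1` elements; for the `p`-th cyclotomic field (`p` an odd prime) this number
is `(p - 1) / 2`.
-/

set_option autoImplicit false

namespace Fermat.Agent.Kummer.KLDirichlet

open NumberField NumberField.Units NumberField.InfinitePlace

/-- The units of `𝓞 K` are generated by `rank K + 1` elements. -/
theorem exists_generators (K : Type*) [Field K] [NumberField K] :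
    ∃ t : Fin (rank K + 1) → (𝓞 K)ˣ,
      ∀ u : (𝓞 K)ˣ, ∃ e : Fin (rank K + 1) → ℤ, u = ∏ i, t i ^ e i := by
  obtain ⟨ζ₀, hζ₀⟩ := IsCyclic.exists_generator (α := torsion K)
  refine ⟨Fin.cons (ζ₀ : (𝓞 K)ˣ) (fundSystem K), fun u => ?_⟩
  obtain ⟨⟨ζ, e⟩, hu, -⟩ := exist_unique_eq_mul_prod K u
  obtain ⟨m, hm⟩ := Subgroup.mem_zpowers_iff.mp (hζ₀ ζ)
  refine ⟨Fin.cons m e, ?_⟩
  rw [Fin.prod_univ_succ]
  simp only [Fin.cons_zero, Fin.cons_succ]
  rw [hu]
  congr 1
  rw [← hm]
  simp

/-- The number of generators for a cyclotomic field of odd prime conductor. -/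
theorem rank_cyclotomic (p : ℕ) [hp : Fact p.Prime] (hp2 : 2 < p) (K : Type*) [Field K]
    [NumberField K] [IsCyclotomicExtension {p} ℚ K] : rank K + 1 = (p - 1) / 2 := by
  haveI : NeZero p := ⟨hp.out.ne_zero⟩
  have h1 : rank K = (p - 1) / 2 - 1 := by
    dsimp only [rank]
    rw [card_eq_nrRealPlaces_add_nrComplexPlaces,
      IsCyclotomicExtension.Rat.nrRealPlaces_eq_zero (n := p) K hp2, zero_add,
      IsCyclotomicExtension.Rat.nrComplexPlaces_eq_totient_div_two (n := p),
      Nat.totient_prime hp.out]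
  have h2 : 1 ≤ (p - 1) / 2 := by omega
  omega

/-- The units of the ring of integers of the `p`-th cyclotomic field are generated by
`(p - 1) / 2` elements. -/
theorem exists_generators_cyclotomic (p : ℕ) [hp : Fact p.Prime] (hp2 : 2 < p) (K : Type*)
    [Field K] [NumberField K] [IsCyclotomicExtension {p} ℚ K] :
    ∃ t : Fin ((p - 1) / 2) → (𝓞 K)ˣ,
      ∀ u : (𝓞 K)ˣ, ∃ e : Fin ((p - 1) / 2) → ℤ, u = ∏ i, t i ^ e i := by
  rw [← rank_cyclotomic p hp2 K]
  exact exists_generators K

end Fermat.Agent.Kummer.KLDirichlet
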