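import Mathlib

/-!
The ring homomorphism `θ : 𝓞 K → 𝔽_p[X] / (X ^ (p - 1))`, `ζ ↦ 1 + X`, for the `p`-th cyclotomic
field `K`.
-/

set_option autoImplicit false

namespace Fermat.Agent.Kummer.KLTheta

open Polynomial NumberField

/-- The truncated polynomial ring `𝔽_p[X] / (X ^ n)`. -/
abbrev Trunc (p n : ℕ) : Type := (ZMod p)[X] ⧸ Ideal.span {(X : (ZMod p)[X]) ^ n}

/-- The quotient map `𝔽_p[X] → 𝔽_p[X] / (X ^ n)`. -/
noncomputable abbrev tmk (p n : ℕ) : (ZMod p)[X] →+* Trunc p n :=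
  Ideal.Quotient.mk (Ideal.span {(X : (ZMod p)[X]) ^ n})

variable (p : ℕ) [hp : Fact p.Prime]

/-- `Φ_p(1 + X) = X ^ (p - 1)` over `𝔽_p`. -/
theorem cyclotomic_comp_one_add_X :
    (cyclotomic p (ZMod p)).comp (1 + X) = X ^ (p - 1) := by
  have h := cyclotomic_mul_prime_eq_pow_of_not_dvd (ZMod p) (p := p) (n := 1)
    (fun h => hp.out.one_lt.ne' (Nat.dvd_one.mp h))
  rw [one_mul, cyclotomic_one] at h
  rw [h, pow_comp, sub_comp, X_comp, one_comp]
  ring

theorem aeval_one_add_X_cyclotomic :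
    aeval (tmk p (p - 1) (1 + X)) (cyclotomic p ℤ) = 0 := by
  have h1 : aeval (tmk p (p - 1) (1 + X)) (cyclotomic p ℤ)
      = tmk p (p - 1) (aeval (1 + X : (ZMod p)[X]) (cyclotomic p ℤ)) := by
    have := Polynomial.aeval_algHom_apply
      ((Ideal.Quotient.mkₐ ℤ (Ideal.span {(X : (ZMod p)[X]) ^ (p - 1)})))
      (1 + X : (ZMod p)[X]) (cyclotomic p ℤ)
    exact this
  rw [h1]
  have h2 : aeval (1 + X : (ZMod p)[X]) (cyclotomic p ℤ)
      = (cyclotomic p (ZMod p)).comp (1 + X) := by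
    rw [← map_cyclotomic_int p (ZMod p), Polynomial.comp, Polynomial.eval₂_map, Polynomial.aeval_def]
    congr 1
  rw [h2, cyclotomic_comp_one_add_X]
  exact Ideal.Quotient.eq_zero_iff_mem.mpr (Ideal.subset_span rfl)

variable {K : Type*} [Field K] [NumberField K] [IsCyclotomicExtension {p} ℚ K]

theorem aeval_gen_eq_zero {ζ : K} (hζ : IsPrimitiveRoot ζ p) :
    haveI : NeZero p := ⟨hp.out.ne_zero⟩
    aeval (tmk p (p - 1) (1 + X)) (minpoly ℤ hζ.integralPowerBasis.gen) = 0 := by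
  haveI : NeZero p := ⟨hp.out.ne_zero⟩
  rw [hζ.integralPowerBasis_gen]
  have hmin : minpoly ℤ hζ.toInteger = cyclotomic p ℤ := by
    rw [cyclotomic_eq_minpoly hζ hp.out.pos, ← RingOfIntegers.minpoly_coe]
    rfl
  rw [hmin]
  exact aeval_one_add_X_cyclotomic p

/-- The `ℤ`-algebra homomorphism `𝓞 K → 𝔽_p[X] / (X ^ (p - 1))` sending `ζ` to `1 + X`. -/
noncomputable def thetaAlg {ζ : K} (hζ : IsPrimitiveRoot ζ p) : 𝓞 K →ₐ[ℤ] Trunc p (p - 1) :=
  haveI : NeZero p := ⟨hp.out.ne_zero⟩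
  hζ.integralPowerBasis.lift (tmk p (p - 1) (1 + X)) (aeval_gen_eq_zero p hζ)

/-- The ring homomorphism `𝓞 K → 𝔽_p[X] / (X ^ (p - 1))` sending `ζ` to `1 + X`. -/
noncomputable def theta {ζ : K} (hζ : IsPrimitiveRoot ζ p) : 𝓞 K →+* Trunc p (p - 1) :=
  (thetaAlg p hζ).toRingHom

theorem theta_zeta {ζ : K} (hζ : IsPrimitiveRoot ζ p) :
    theta p hζ hζ.toInteger = tmk p (p - 1) (1 + X) := by
  haveI : NeZero p := ⟨hp.out.ne_zero⟩
  have h := hζ.integralPowerBasis.lift_gen (tmk p (p - 1) (1 + X)) (aeval_gen_eq_zero p hζ)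
  rw [hζ.integralPowerBasis_gen] at h
  exact h

theorem natCast_self_trunc (n : ℕ) : (p : Trunc p n) = 0 := by
  have h : (p : Trunc p n) = algebraMap (ZMod p) (Trunc p n) (p : ZMod p) := by
    rw [map_natCast]
  rw [h, ZMod.natCast_self, map_zero]

theorem theta_natCast_self {ζ : K} (hζ : IsPrimitiveRoot ζ p) :
    theta p hζ (p : 𝓞 K) = 0 := by
  rw [map_natCast]
  exact natCast_self_trunc p _

theorem theta_intCast {ζ : K} (hζ : IsPrimitiveRoot ζ p) (n : ℤ) :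
    theta p hζ (n : 𝓞 K) = tmk p (p - 1) (C (n : ZMod p)) := by
  rw [map_intCast]
  simp

/-- An element congruent to an integer modulo `p` is sent to a constant. -/
theorem theta_eq_C_of_dvd_sub {ζ : K} (hζ : IsPrimitiveRoot ζ p) {u : 𝓞 K} {n : ℤ}
    (h : (p : 𝓞 K) ∣ u - n) : theta p hζ u = tmk p (p - 1) (C (n : ZMod p)) := by
  obtain ⟨c, hc⟩ := h
  have : u = n + p * c := by rw [← hc]; ring
  rw [this, map_add, map_mul, theta_natCast_self, zero_mul, add_zero, theta_intCast]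

/-- The image of the cyclotomic unit `1 + ζ + ⋯ + ζ ^ (a - 1)`. -/
theorem theta_geom_sum {ζ : K} (hζ : IsPrimitiveRoot ζ p) (a : ℕ) :
    theta p hζ (∑ j ∈ Finset.range a, hζ.toInteger ^ j)
      = tmk p (p - 1) (∑ j ∈ Finset.range a, (1 + X) ^ j) := by
  rw [map_sum, map_sum]
  refine Finset.sum_congr rfl fun j _ => ?_
  rw [map_pow, map_pow, theta_zeta]

end Fermat.Agent.Kummer.KLTheta
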