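import Mathlib
import Fermat.Agent.Kummer.KLTheta

/-!
The logarithmic derivative on the units of `𝔽_p[X] / (X ^ m)`, with values in
`𝔽_p[X] / (X ^ n)`, `n < m`.
-/

set_option autoImplicit false

namespace Fermat.Agent.Kummer.KLDlog

open Polynomial Fermat.Agent.Kummer.KLTheta

section Abstract

variable {A B : Type*} [CommRing A] [CommRing B]

/-- The logarithmic derivative attached to a derivation-like map `D` over a ring hom `π`. -/
noncomputable def dlogOf (π : A →+* B) (D : A →+ B)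
    (hD : ∀ a b, D (a * b) = π a * D b + π b * D a) : Additive Aˣ →+ B :=
  AddMonoidHom.mk' (fun u => D ((Additive.toMul u : Aˣ) : A) * π (((Additive.toMul u)⁻¹ : Aˣ) : A))
    (by
      intro u v
      show D (((Additive.toMul u * Additive.toMul v : Aˣ)) : A)
          * π ((((Additive.toMul u * Additive.toMul v)⁻¹ : Aˣ)) : A) = _
      set a : Aˣ := Additive.toMul u
      set b : Aˣ := Additive.toMul v
      have ha : π (a : A) * π ((a⁻¹ : Aˣ) : A) = 1 := by
        rw [← map_mul, Units.mul_inv, map_one]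
      have hb : π (b : A) * π ((b⁻¹ : Aˣ) : A) = 1 := by
        rw [← map_mul, Units.mul_inv, map_one]
      rw [Units.val_mul, hD, mul_inv_rev, Units.val_mul, map_mul]
      linear_combination (D (b : A) * π ((b⁻¹ : Aˣ) : A)) * ha
        + (D (a : A) * π ((a⁻¹ : Aˣ) : A)) * hb)

theorem dlogOf_apply (π : A →+* B) (D : A →+ B)
    (hD : ∀ a b, D (a * b) = π a * D b + π b * D a) (u : Aˣ) :
    dlogOf π D hD (Additive.ofMul u) = D (u : A) * π ((u⁻¹ : Aˣ) : A) := rfl

theorem dlogOf_mul (π : A →+* B) (D : A →+ B)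
    (hD : ∀ a b, D (a * b) = π a * D b + π b * D a) (u : Aˣ) :
    dlogOf π D hD (Additive.ofMul u) * π (u : A) = D (u : A) := by
  rw [dlogOf_apply, mul_assoc, ← map_mul, Units.inv_mul, map_one, mul_one]

end Abstract

variable (p : ℕ) [hp : Fact p.Prime]

theorem span_X_pow_le {m n : ℕ} (h : n ≤ m) :
    Ideal.span {(X : (ZMod p)[X]) ^ m} ≤ Ideal.span {(X : (ZMod p)[X]) ^ n} := by
  rw [Ideal.span_singleton_le_span_singleton]
  exact pow_dvd_pow X h

/-- The projection `𝔽_p[X] / (X ^ m) → 𝔽_p[X] / (X ^ n)` for `n ≤ m`. -/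
noncomputable def proj {m n : ℕ} (h : n ≤ m) : Trunc p m →+* Trunc p n :=
  Ideal.Quotient.factor (span_X_pow_le p h)

theorem proj_mk {m n : ℕ} (h : n ≤ m) (f : (ZMod p)[X]) :
    proj p h (tmk p m f) = tmk p n f := by
  simp [proj, tmk]

/-- The derivative followed by the quotient map. -/
noncomputable def derivAdd (n : ℕ) : (ZMod p)[X] →+ Trunc p n :=
  ((tmk p n : (ZMod p)[X] →+* Trunc p n) : (ZMod p)[X] →+ Trunc p n).comp
    ((derivative : (ZMod p)[X] →ₗ[ZMod p] (ZMod p)[X]) : (ZMod p)[X] →+ (ZMod p)[X])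

theorem derivAdd_apply (n : ℕ) (f : (ZMod p)[X]) : derivAdd p n f = tmk p n (derivative f) := rfl

theorem derivAdd_eq_zero {m n : ℕ} (h : n < m) {f : (ZMod p)[X]}
    (hf : f ∈ Ideal.span {(X : (ZMod p)[X]) ^ m}) : derivAdd p n f = 0 := by
  obtain ⟨q, rfl⟩ := Ideal.mem_span_singleton.mp hf
  rw [derivAdd_apply, derivative_mul, derivative_X_pow]
  apply Ideal.Quotient.eq_zero_iff_mem.mpr
  apply Ideal.add_mem
  · apply Ideal.mem_span_singleton.mpr
    have : (X : (ZMod p)[X]) ^ n ∣ X ^ (m - 1) := pow_dvd_pow X (by omega)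
    exact Dvd.dvd.mul_right (Dvd.dvd.mul_left this _) _
  · apply Ideal.mem_span_singleton.mpr
    have : (X : (ZMod p)[X]) ^ n ∣ X ^ m := pow_dvd_pow X (by omega)
    exact Dvd.dvd.mul_right this _

/-- The derivative `𝔽_p[X] / (X ^ m) → 𝔽_p[X] / (X ^ n)` for `n < m`. -/
noncomputable def D {m n : ℕ} (h : n < m) : Trunc p m →+ Trunc p n :=
  QuotientAddGroup.lift (Ideal.span {(X : (ZMod p)[X]) ^ m}).toAddSubgroup (derivAdd p n)
    (fun _ hf => derivAdd_eq_zero p h hf)

theorem D_mk {m n : ℕ} (h : n < m) (f : (ZMod p)[X]) :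
    D p h (tmk p m f) = tmk p n (derivative f) := rfl

theorem D_mul {m n : ℕ} (h : n < m) (a b : Trunc p m) :
    D p h (a * b) = proj p h.le a * D p h b + proj p h.le b * D p h a := by
  obtain ⟨f, rfl⟩ := Ideal.Quotient.mk_surjective a
  obtain ⟨g, rfl⟩ := Ideal.Quotient.mk_surjective b
  rw [← map_mul]
  show D p h (tmk p m (f * g)) = proj p h.le (tmk p m f) * D p h (tmk p m g)
    + proj p h.le (tmk p m g) * D p h (tmk p m f)
  rw [D_mk, D_mk, D_mk, proj_mk, proj_mk, derivative_mul, map_add, map_mul, map_mul]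
  ring

/-- The logarithmic derivative on units of `𝔽_p[X] / (X ^ m)`. -/
noncomputable def dlog {m n : ℕ} (h : n < m) : Additive (Trunc p m)ˣ →+ Trunc p n :=
  dlogOf (proj p h.le) (D p h) (D_mul p h)

theorem dlog_mul {m n : ℕ} (h : n < m) (u : (Trunc p m)ˣ) :
    dlog p h (Additive.ofMul u) * proj p h.le (u : Trunc p m) = D p h (u : Trunc p m) :=
  dlogOf_mul _ _ _ u

/-- The logarithmic derivative of a constant vanishes. -/
theorem dlog_eq_zero_of_C {m n : ℕ} (h : n < m) (u : (Trunc p m)ˣ) (c : ZMod p)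
    (hu : (u : Trunc p m) = tmk p m (C c)) : dlog p h (Additive.ofMul u) = 0 := by
  show D p h (u : Trunc p m) * _ = 0
  rw [hu, D_mk, derivative_C, map_zero, zero_mul]

end Fermat.Agent.Kummer.KLDlog
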