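import Mathlib
import Fermat.Agent.Kummer.KLAbstract
import Fermat.Agent.Kummer.KLDirichlet
import Fermat.Agent.Kummer.KLTheta
import Fermat.Agent.Kummer.KLDlog

/-!
Kummer's lemma for the `p`-th cyclotomic field, assuming the explicit linear independence of the
logarithmic derivatives of `ζ` and of the cyclotomic units `1 + ζ + ⋯ + ζ ^ i`,
`1 ≤ i < (p - 1) / 2`, in `𝔽_p[X] / (X ^ (p - 2))`.
-/

set_option autoImplicit false

namespace Fermat.Agent.Kummer.KLMain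

open Polynomial NumberField Fermat.Agent.Kummer.KLTheta Fermat.Agent.Kummer.KLDlog

/-- The image of `ζ` (for `a = 0`), resp. of `1 + ζ + ⋯ + ζ ^ a`, under `ζ ↦ 1 + X`. -/
noncomputable def gpoly (p : ℕ) (a : ℕ) : (ZMod p)[X] :=
  if a = 0 then 1 + X else ∑ i ∈ Finset.range (a + 1), (1 + X) ^ i

/-- The independence hypothesis, in a shape that does not depend on the definition of the
logarithmic derivative. -/
def IndepHyp (p : ℕ) : Prop :=
  ∀ v : Fin ((p - 1) / 2) → Trunc p (p - 2),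
    (∀ i, v i * tmk p (p - 2) (gpoly p (i : ℕ)) = tmk p (p - 2) (derivative (gpoly p (i : ℕ)))) →
    LinearIndependent (ZMod p) v

variable {p : ℕ} [hp : Fact p.Prime] {K : Type*} [Field K] [NumberField K]
  [IsCyclotomicExtension {p} ℚ K]

/-- The cyclotomic element attached to `a`: `ζ` for `a = 0`, and `1 + ζ + ⋯ + ζ ^ a` otherwise. -/
noncomputable def cycElt {ζ : K} (hζ : IsPrimitiveRoot ζ p) (a : ℕ) : 𝓞 K :=
  if a = 0 then hζ.toInteger else ∑ i ∈ Finset.range (a + 1), hζ.toInteger ^ i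

theorem isUnit_cycElt {ζ : K} (hζ : IsPrimitiveRoot ζ p) {a : ℕ} (ha : a + 1 < p) :
    IsUnit (cycElt hζ a) := by
  unfold cycElt
  split_ifs with h0
  · exact hζ.toInteger_isPrimitiveRoot.isUnit hp.out.ne_zero
  · refine hζ.toInteger_isPrimitiveRoot.geom_sum_isUnit hp.out.two_le ?_
    exact (Nat.coprime_of_lt_prime (Nat.succ_ne_zero a) ha hp.out).symm

theorem theta_cycElt {ζ : K} (hζ : IsPrimitiveRoot ζ p) (a : ℕ) :
    theta p hζ (cycElt hζ a) = tmk p (p - 1) (gpoly p a) := by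
  unfold cycElt gpoly
  split_ifs with h0
  · exact theta_zeta p hζ
  · exact theta_geom_sum p hζ (a + 1)

/-- The Kummer logarithm `(𝓞 K)ˣ → 𝔽_p[X] / (X ^ (p - 2))`. -/
noncomputable def klog (hp2 : 2 < p) {ζ : K} (hζ : IsPrimitiveRoot ζ p) :
    Additive (𝓞 K)ˣ →+ Trunc p (p - 2) :=
  (dlog p (show p - 2 < p - 1 by omega)).comp
    (MonoidHom.toAdditive (Units.map (theta p hζ : 𝓞 K →* Trunc p (p - 1))))

theorem klog_mul (hp2 : 2 < p) {ζ : K} (hζ : IsPrimitiveRoot ζ p) (u : (𝓞 K)ˣ)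
    (f : (ZMod p)[X]) (hf : theta p hζ (u : 𝓞 K) = tmk p (p - 1) f) :
    klog hp2 hζ (Additive.ofMul u) * tmk p (p - 2) f = tmk p (p - 2) (derivative f) := by
  have h := dlog_mul p (show p - 2 < p - 1 by omega)
    (Units.map (theta p hζ : 𝓞 K →* Trunc p (p - 1)) u)
  have hcoe : ((Units.map (theta p hζ : 𝓞 K →* Trunc p (p - 1)) u : (Trunc p (p - 1))ˣ) :
      Trunc p (p - 1)) = tmk p (p - 1) f := hf
  rw [hcoe, proj_mk, D_mk] at h
  exact h

theorem klog_eq_zero_of_dvd_sub (hp2 : 2 < p) {ζ : K} (hζ : IsPrimitiveRoot ζ p) (u : (𝓞 K)ˣ)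
    {n : ℤ} (h : (p : 𝓞 K) ∣ (u : 𝓞 K) - n) : klog hp2 hζ (Additive.ofMul u) = 0 := by
  refine dlog_eq_zero_of_C p (show p - 2 < p - 1 by omega)
    (Units.map (theta p hζ : 𝓞 K →* Trunc p (p - 1)) u) (n : ZMod p) ?_
  exact theta_eq_C_of_dvd_sub p hζ h

/-- **Kummer's lemma**, assuming the explicit independence statement. -/
theorem eq_pow_prime_of_unit_of_congruent_of_indep (hp2 : 2 < p) (hindep : IndepHyp p)
    (u : (𝓞 K)ˣ) (hcong : ∃ n : ℤ, (p : 𝓞 K) ∣ (u : 𝓞 K) - n) : ∃ v : (𝓞 K)ˣ, u = v ^ p := by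
  haveI : NeZero p := ⟨hp.out.ne_zero⟩
  have hζ := IsCyclotomicExtension.zeta_spec p ℚ K
  obtain ⟨t, ht⟩ := KLDirichlet.exists_generators_cyclotomic p hp2 K
  obtain ⟨n, hn⟩ := hcong
  have hlt : ∀ i : Fin ((p - 1) / 2), (i : ℕ) + 1 < p := fun i => by
    have := i.2
    omega
  let g : Fin ((p - 1) / 2) → (𝓞 K)ˣ := fun i => (isUnit_cycElt hζ (hlt i)).unit
  refine KLAbstract.exists_pow_of_log_eq_zero (klog hp2 hζ) t ht g ?_ u
    (klog_eq_zero_of_dvd_sub hp2 hζ u hn)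
  refine hindep _ fun i => ?_
  refine klog_mul hp2 hζ (g i) (gpoly p (i : ℕ)) ?_
  show theta p hζ ((isUnit_cycElt hζ (hlt i)).unit : 𝓞 K) = _
  rw [IsUnit.unit_spec, theta_cycElt]

end Fermat.Agent.Kummer.KLMain
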