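import Mathlib
import Fermat.Agent.Kummer.KLMain
import Fermat.Agent.Kummer.KLIndep

/-!
Kummer's lemma for the `p`-th cyclotomic field, `p ∈ {5, 7, 11, 13}`: a unit congruent to a
rational integer modulo `p` is a `p`-th power.
-/

set_option autoImplicit false

namespace Fermat.Agent.Kummer.KLH19

open Polynomial NumberField Fermat.Agent.Kummer.KLTheta Fermat.Agent.Kummer.KLMain

theorem indepHyp {p : ℕ} (hp : p = 5 ∨ p = 7 ∨ p = 11 ∨ p = 13) : IndepHyp p := by
  intro v hv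
  refine KLIndep.linearIndependent_dlog hp v fun i => ?_
  have h := hv i
  have hg : KLIndep.g p i = gpoly p (i : ℕ) := rfl
  rw [hg]
  exact h

/-- **Kummer's lemma** for `p ∈ {5, 7, 11, 13}`. -/
theorem eq_pow_prime_of_unit_of_congruent {p : ℕ} [Fact p.Prime]
    (hp : p = 5 ∨ p = 7 ∨ p = 11 ∨ p = 13) {K : Type*} [Field K] [NumberField K]
    [IsCyclotomicExtension {p} ℚ K] (u : (𝓞 K)ˣ)
    (hcong : ∃ n : ℤ, (p : 𝓞 K) ∣ (u : 𝓞 K) - n) : ∃ v : (𝓞 K)ˣ, u = v ^ p :=
  eq_pow_prime_of_unit_of_congruent_of_indep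
    (by rcases hp with rfl | rfl | rfl | rfl <;> norm_num) (indepHyp hp) u hcong

end Fermat.Agent.Kummer.KLH19
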