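import Fermat.Agent.Kummer.FinalOfKL
import Fermat.Agent.Kummer.KummersLemmaH19

/-! # Fermat's Last Theorem for the exponents `5`, `7`, `11`, `13` (Kummer) -/

namespace Fermat.Agent.Kummer

open NumberField

/-- **Fermat's Last Theorem for `p ∈ {5, 7, 11, 13}`.** -/
theorem flt_small {p : ℕ} (hp : p = 5 ∨ p = 7 ∨ p = 11 ∨ p = 13) : FermatLastTheoremFor p := by
  have : Fact p.Prime := ⟨prime_small hp⟩
  have := isCyclotomicExtension_cyclotomicField_rat p
  exact flt_small_of_kummersLemma hp fun u hu =>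
    KLH19.eq_pow_prime_of_unit_of_congruent hp u hu

end Fermat.Agent.Kummer
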