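import Fermat.Agent.Kummer.CaseI
import Fermat.Agent.Kummer.CaseII
import Fermat.Agent.Kummer.ClassNumber7
import Fermat.Agent.Kummer.ClassNumber11
import Fermat.Agent.Kummer.ClassNumber13

/-!
# Fermat's Last Theorem for `p ∈ {5, 7, 11, 13}`: assembly in hypothesis form

`flt_small_of_kummerData` reduces `FermatLastTheoremFor p` for `p ∈ {5, 7, 11, 13}` to the
construction of `KummerData (𝓞 K) p ζ` for `K = CyclotomicField p ℚ` (i.e. to Kummer's lemma and the
`λ`-adic facts), using Case I (Sophie Germain), the abstract Case II descent and class number one.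
-/

namespace Fermat.Agent.Kummer

open NumberField

instance fact_prime_five : Fact (Nat.Prime 5) := ⟨by norm_num⟩

/-- `𝓞 ℚ(ζ_p)` is a PID for `p ∈ {5, 7, 11, 13}`. -/
theorem pid_small {p : ℕ} (hp : p = 5 ∨ p = 7 ∨ p = 11 ∨ p = 13) (K : Type*) [Field K]
    [NumberField K] [IsCyclotomicExtension {p} ℚ K] : IsPrincipalIdealRing (𝓞 K) := by
  rcases hp with rfl | rfl | rfl | rfl
  · exact IsCyclotomicExtension.Rat.five_pid K
  · exact seven_pid K
  · exact eleven_pid K
  · exact thirteen_pid K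

theorem prime_small {p : ℕ} (hp : p = 5 ∨ p = 7 ∨ p = 11 ∨ p = 13) : p.Prime := by
  rcases hp with rfl | rfl | rfl | rfl <;> norm_num

/-- Assembly: FLT for `p ∈ {5, 7, 11, 13}` from the Kummer data of `𝓞 ℚ(ζ_p)`. -/
theorem flt_small_of_kummerData {p : ℕ} (hp : p = 5 ∨ p = 7 ∨ p = 11 ∨ p = 13)
    {K : Type*} [Field K] [NumberField K] [IsCyclotomicExtension {p} ℚ K] {ζ : 𝓞 K}
    (D : KummerData (𝓞 K) p ζ) : FermatLastTheoremFor p := by
  have := pid_small hp K
  exact D.flt fun a b c h => caseI_sum hp h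

end Fermat.Agent.Kummer
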