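import Fermat.Agent.Kummer.FinalAux
import Fermat.Agent.Kummer.CaseIICyclo

/-!
# Fermat's Last Theorem for `p ∈ {5, 7, 11, 13}` from Kummer's lemma

The last missing input is Kummer's lemma for `𝓞 (CyclotomicField p ℚ)`; everything else
(Case I, the Case II descent, class number one) is assembled here.
-/

namespace Fermat.Agent.Kummer

open NumberField

/-- `CyclotomicField p ℚ` is a `p`-th cyclotomic extension of `ℚ` for the `ℚ`-algebra structure
found by instance search (`DivisionRing.toRatAlgebra`), which is the one used in statements about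
a general number field `K`. -/
theorem isCyclotomicExtension_cyclotomicField_rat (p : ℕ) :
    IsCyclotomicExtension {p} ℚ (CyclotomicField p ℚ) :=
  (inferInstance : @IsCyclotomicExtension {p} ℚ (CyclotomicField p ℚ) _ _
    (CyclotomicField.algebra p ℚ))

/-- FLT for `p ∈ {5, 7, 11, 13}`, given Kummer's lemma for `ℚ(ζ_p)`. -/
theorem flt_small_of_kummersLemma {p : ℕ} (hp : p = 5 ∨ p = 7 ∨ p = 11 ∨ p = 13)
    (hKL : ∀ u : (𝓞 (CyclotomicField p ℚ))ˣ,
      (∃ n : ℤ, (p : 𝓞 (CyclotomicField p ℚ)) ∣ (u : 𝓞 (CyclotomicField p ℚ)) - n) →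
        ∃ v : (𝓞 (CyclotomicField p ℚ))ˣ, u = v ^ p) :
    FermatLastTheoremFor p := by
  have hprime : p.Prime := prime_small hp
  have : Fact p.Prime := ⟨hprime⟩
  have := isCyclotomicExtension_cyclotomicField_rat p
  have hp2 : p ≠ 2 := by rcases hp with rfl | rfl | rfl | rfl <;> norm_num
  have := pid_small hp (CyclotomicField p ℚ)
  exact flt_of_caseI_of_pid_of_kummer hp2 (CyclotomicField p ℚ)
    (fun a b c h => caseI_sum hp h) hKL

end Fermat.Agent.Kummer
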