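import Mathlib

/-!
# Kummer's lemma, slice (C): explicit independence of the logarithmic derivatives

For `p ∈ {5, 7, 11, 13}`, `k = (p - 1) / 2`, consider in `(ZMod p)[X]` the polynomials
`g p 0 = 1 + X` (the image of `ζ` under `ζ ↦ 1 + X`) and
`g p a = ∑ i < a + 1, (1 + X) ^ i` for `1 ≤ a < k` (the image of the cyclotomic unit
`η_{a+1} = 1 + ζ + ⋯ + ζ ^ a`).  We show that the logarithmic derivatives
`(g p a)' / g p a`, truncated modulo `X ^ (p - 2)`, are linearly independent over `ZMod p`.

The proofs are certificate checks (`decide` on small lists over `ZMod p`).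
-/

set_option autoImplicit false
set_option linter.unusedSimpArgs false

namespace Fermat.Agent.Kummer.KLCore

open Polynomial

section General

variable {F : Type*} [CommRing F]

/-- The polynomial with the given list of coefficients. -/
noncomputable def ofList (l : List F) : F[X] :=
  ∑ i ∈ Finset.range l.length, C (l.getD i 0) * X ^ i

theorem coeff_ofList (l : List F) (d : ℕ) : (ofList l).coeff d = l.getD d 0 := by
  unfold ofList
  rw [finsetSum_coeff]
  simp only [coeff_C_mul, coeff_X_pow]
  by_cases hd : d < l.length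
  · rw [Finset.sum_eq_single d]
    · simp
    · intro b _ hb
      rw [if_neg (Ne.symm hb), mul_zero]
    · intro h
      exact absurd (Finset.mem_range.mpr hd) h
  · rw [List.getD_eq_default _ _ (not_lt.mp hd)]
    refine Finset.sum_eq_zero fun i hi => ?_
    have : d ≠ i := by
      have := Finset.mem_range.mp hi
      omega
    rw [if_neg this, mul_zero]

theorem coeff_mul_range (P Q : F[X]) (d : ℕ) :
    (P * Q).coeff d = ∑ i ∈ Finset.range (d + 1), P.coeff i * Q.coeff (d - i) := by
  rw [coeff_mul, Finset.Nat.sum_antidiagonal_eq_sum_range_succ (fun i j => P.coeff i * Q.coeff j)]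

/-- Certificate for `X ^ n ∣ g * W - g'`. -/
theorem X_pow_dvd_mul_sub_derivative (lg lW : List F) (n : ℕ)
    (h : ∀ d < n, (∑ i ∈ Finset.range (d + 1), lg.getD i 0 * lW.getD (d - i) 0)
      = lg.getD (d + 1) 0 * ((d + 1 : ℕ) : F)) :
    X ^ n ∣ ofList lg * ofList lW - derivative (ofList lg) := by
  rw [X_pow_dvd_iff]
  intro d hd
  rw [coeff_sub, coeff_mul_range, coeff_derivative, coeff_ofList]
  simp only [coeff_ofList]
  rw [h d hd]
  push_cast
  ring

/-- A left inverse forces a trivial kernel. -/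
theorem eq_zero_of_vecMul_eq_zero {k n : ℕ} (M : Matrix (Fin k) (Fin n) F)
    (N : Matrix (Fin n) (Fin k) F) (h : M * N = 1) (c : Fin k → F)
    (hc : Matrix.vecMul c M = 0) : c = 0 := by
  have h1 := congrArg (fun v => Matrix.vecMul v N) hc
  simpa [Matrix.vecMul_vecMul, h] using h1

/-- Independence certificate. -/
theorem eq_zero_of_X_pow_dvd {k n : ℕ} (lW : Fin k → List F) (N : Matrix (Fin n) (Fin k) F)
    (h : (Matrix.of fun (a : Fin k) (j : Fin n) => (lW a).getD j 0) * N = 1)
    (c : Fin k → F) (hc : X ^ n ∣ ∑ a, C (c a) * ofList (lW a)) : c = 0 := by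
  refine eq_zero_of_vecMul_eq_zero _ N h c ?_
  ext j
  have := (X_pow_dvd_iff.mp hc) j j.2
  rw [finsetSum_coeff] at this
  simp only [coeff_C_mul, coeff_ofList] at this
  simpa [Matrix.vecMul, dotProduct] using this

end General

/-- The images of `ζ` (`a = 0`) and of the cyclotomic units `η_{a+1}` (`a ≥ 1`) under
`ζ ↦ 1 + X`. -/
noncomputable def g (p : ℕ) (a : ℕ) : (ZMod p)[X] :=
  if a = 0 then 1 + X else ∑ i ∈ Finset.range (a + 1), (1 + X) ^ i

theorem g_zero (p : ℕ) : g p 0 = 1 + X := if_pos rfl

theorem g_of_ne_zero (p : ℕ) {a : ℕ} (ha : a ≠ 0) :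
    g p a = ∑ i ∈ Finset.range (a + 1), (1 + X) ^ i := if_neg ha

/-- The statement proved for each `p`: explicit truncated logarithmic derivatives `W a` of the
`g p a`, which are linearly independent modulo `X ^ (p - 2)`. -/
def Core (p : ℕ) : Prop :=
  ∃ W : Fin ((p - 1) / 2) → (ZMod p)[X],
    (∀ a : Fin ((p - 1) / 2),
      X ^ (p - 2) ∣ g p (a : ℕ) * W a - derivative (g p (a : ℕ))) ∧
    ∀ c : Fin ((p - 1) / 2) → ZMod p, X ^ (p - 2) ∣ ∑ a, C (c a) * W a → c = 0


/-! ### `p = 5` -/

/-- Coefficient lists of `g p a` for `p = 5`. -/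
def gList_five : Fin 2 → List (ZMod 5) :=
  ![[1, 1], [2, 1]]

/-- Coefficient lists of the truncated logarithmic derivatives for `p = 5`. -/
def wList_five : Fin 2 → List (ZMod 5) :=
  ![[1, 4, 1], [3, 1, 2]]

/-- Left inverse certificate for `p = 5`. -/
def nMat_five : Matrix (Fin 3) (Fin 2) (ZMod 5) :=
  !![4, 4;
    3, 4;
    0, 0]

theorem g_eq_ofList_five (a : Fin 2) :
    g 5 (a : ℕ) = ofList (gList_five a) := by
  fin_cases a
  · show g 5 0 = ofList [1, 1]
    rw [g_zero]
    simp only [ofList, Finset.sum_range_succ, Finset.sum_range_zero,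
      List.length_cons, List.length_nil, List.getD_cons_zero, List.getD_cons_succ, map_ofNat, map_one]
    ring
  · show g 5 1 = ofList [2, 1]
    rw [g_of_ne_zero _ (by decide)]
    simp only [ofList, Finset.sum_range_succ, Finset.sum_range_zero,
      List.length_cons, List.length_nil, List.getD_cons_zero, List.getD_cons_succ, map_ofNat, map_one]
    ring

theorem core_five : Core 5 := by
  refine ⟨fun a => ofList (wList_five a), fun a => ?_, fun c hc => ?_⟩
  · rw [g_eq_ofList_five]
    refine X_pow_dvd_mul_sub_derivative _ _ _ ?_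
    revert a
    decide
  · exact eq_zero_of_X_pow_dvd (n := 3) wList_five nMat_five (by decide) c hc


/-! ### `p = 7` -/

/-- Coefficient lists of `g p a` for `p = 7`. -/
def gList_seven : Fin 3 → List (ZMod 7) :=
  ![[1, 1], [2, 1], [3, 3, 1]]

/-- Coefficient lists of the truncated logarithmic derivatives for `p = 7`. -/
def wList_seven : Fin 3 → List (ZMod 7) :=
  ![[1, 6, 1, 6, 1], [4, 5, 1, 3, 2], [1, 2, 0, 4, 3]]

/-- Left inverse certificate for `p = 7`. -/
def nMat_seven : Matrix (Fin 5) (Fin 3) (ZMod 7) :=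
  !![0, 3, 3;
    5, 4, 0;
    0, 0, 0;
    1, 6, 3;
    0, 0, 0]

theorem g_eq_ofList_seven (a : Fin 3) :
    g 7 (a : ℕ) = ofList (gList_seven a) := by
  fin_cases a
  · show g 7 0 = ofList [1, 1]
    rw [g_zero]
    simp only [ofList, Finset.sum_range_succ, Finset.sum_range_zero,
      List.length_cons, List.length_nil, List.getD_cons_zero, List.getD_cons_succ, map_ofNat, map_one]
    ring
  · show g 7 1 = ofList [2, 1]
    rw [g_of_ne_zero _ (by decide)]
    simp only [ofList, Finset.sum_range_succ, Finset.sum_range_zero,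
      List.length_cons, List.length_nil, List.getD_cons_zero, List.getD_cons_succ, map_ofNat, map_one]
    ring
  · show g 7 2 = ofList [3, 3, 1]
    rw [g_of_ne_zero _ (by decide)]
    simp only [ofList, Finset.sum_range_succ, Finset.sum_range_zero,
      List.length_cons, List.length_nil, List.getD_cons_zero, List.getD_cons_succ, map_ofNat, map_one]
    ring

theorem core_seven : Core 7 := by
  refine ⟨fun a => ofList (wList_seven a), fun a => ?_, fun c hc => ?_⟩
  · rw [g_eq_ofList_seven]
    refine X_pow_dvd_mul_sub_derivative _ _ _ ?_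
    revert a
    decide
  · exact eq_zero_of_X_pow_dvd (n := 5) wList_seven nMat_seven (by decide) c hc


/-! ### `p = 11` -/

/-- Coefficient lists of `g p a` for `p = 11`. -/
def gList_eleven : Fin 5 → List (ZMod 11) :=
  ![[1, 1], [2, 1], [3, 3, 1], [4, 6, 4, 1], [5, 10, 10, 5, 1]]

/-- Coefficient lists of the truncated logarithmic derivatives for `p = 11`. -/
def wList_eleven : Fin 5 → List (ZMod 11) :=
  ![[1, 10, 1, 10, 1, 10, 1, 10, 1], [6, 8, 7, 2, 10, 6, 8, 7, 2], [1, 7, 0, 5, 6, 7, 2, 3, 0], [7, 8, 1, 8, 7, 6, 4, 0, 0], [2, 0, 10, 3, 0, 6, 5, 6, 5]]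

/-- Left inverse certificate for `p = 11`. -/
def nMat_eleven : Matrix (Fin 9) (Fin 5) (ZMod 11) :=
  !![9, 6, 7, 0, 2;
    1, 8, 7, 4, 2;
    0, 0, 0, 0, 0;
    9, 0, 1, 3, 1;
    0, 0, 0, 0, 0;
    0, 8, 5, 0, 1;
    0, 0, 0, 0, 0;
    9, 1, 5, 4, 9;
    0, 0, 0, 0, 0]

theorem g_eq_ofList_eleven (a : Fin 5) :
    g 11 (a : ℕ) = ofList (gList_eleven a) := by
  fin_cases a
  · show g 11 0 = ofList [1, 1]
    rw [g_zero]
    simp only [ofList, Finset.sum_range_succ, Finset.sum_range_zero,
      List.length_cons, List.length_nil, List.getD_cons_zero, List.getD_cons_succ, map_ofNat, map_one]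
    ring
  · show g 11 1 = ofList [2, 1]
    rw [g_of_ne_zero _ (by decide)]
    simp only [ofList, Finset.sum_range_succ, Finset.sum_range_zero,
      List.length_cons, List.length_nil, List.getD_cons_zero, List.getD_cons_succ, map_ofNat, map_one]
    ring
  · show g 11 2 = ofList [3, 3, 1]
    rw [g_of_ne_zero _ (by decide)]
    simp only [ofList, Finset.sum_range_succ, Finset.sum_range_zero,
      List.length_cons, List.length_nil, List.getD_cons_zero, List.getD_cons_succ, map_ofNat, map_one]
    ring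
  · show g 11 3 = ofList [4, 6, 4, 1]
    rw [g_of_ne_zero _ (by decide)]
    simp only [ofList, Finset.sum_range_succ, Finset.sum_range_zero,
      List.length_cons, List.length_nil, List.getD_cons_zero, List.getD_cons_succ, map_ofNat, map_one]
    ring
  · show g 11 4 = ofList [5, 10, 10, 5, 1]
    rw [g_of_ne_zero _ (by decide)]
    simp only [ofList, Finset.sum_range_succ, Finset.sum_range_zero,
      List.length_cons, List.length_nil, List.getD_cons_zero, List.getD_cons_succ, map_ofNat, map_one]
    ring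

theorem core_eleven : Core 11 := by
  refine ⟨fun a => ofList (wList_eleven a), fun a => ?_, fun c hc => ?_⟩
  · rw [g_eq_ofList_eleven]
    refine X_pow_dvd_mul_sub_derivative _ _ _ ?_
    revert a
    decide
  · exact eq_zero_of_X_pow_dvd (n := 9) wList_eleven nMat_eleven (by decide) c hc


/-! ### `p = 13` -/

/-- Coefficient lists of `g p a` for `p = 13`. -/
def gList_thirteen : Fin 6 → List (ZMod 13) :=
  ![[1, 1], [2, 1], [3, 3, 1], [4, 6, 4, 1], [5, 10, 10, 5, 1], [6, 15, 20, 15, 6, 1]]

/-- Coefficient lists of the truncated logarithmic derivatives for `p = 13`. -/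
def wList_thirteen : Fin 6 → List (ZMod 13) :=
  ![[1, 12, 1, 12, 1, 12, 1, 12, 1, 12, 1], [7, 3, 5, 4, 11, 1, 6, 10, 8, 9, 2], [1, 4, 0, 3, 10, 2, 12, 9, 0, 10, 3], [8, 3, 11, 11, 1, 1, 11, 5, 4, 9, 4], [2, 0, 12, 6, 0, 2, 11, 4, 7, 3, 5], [9, 8, 3, 8, 9, 1, 6, 7, 6, 7, 6]]

/-- Left inverse certificate for `p = 13`. -/
def nMat_thirteen : Matrix (Fin 11) (Fin 6) (ZMod 13) :=
  !![1, 10, 12, 7, 4, 4;
    3, 2, 12, 11, 2, 1;
    0, 0, 0, 0, 0, 0;
    3, 10, 2, 9, 2, 2;
    0, 0, 0, 0, 0, 0;
    9, 7, 4, 9, 7, 11;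
    0, 0, 0, 0, 0, 0;
    7, 11, 0, 6, 1, 1;
    0, 0, 0, 0, 0, 0;
    4, 6, 7, 11, 5, 2;
    0, 0, 0, 0, 0, 0]

theorem g_eq_ofList_thirteen (a : Fin 6) :
    g 13 (a : ℕ) = ofList (gList_thirteen a) := by
  fin_cases a
  · show g 13 0 = ofList [1, 1]
    rw [g_zero]
    simp only [ofList, Finset.sum_range_succ, Finset.sum_range_zero,
      List.length_cons, List.length_nil, List.getD_cons_zero, List.getD_cons_succ, map_ofNat, map_one]
    ring
  · show g 13 1 = ofList [2, 1]
    rw [g_of_ne_zero _ (by decide)]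
    simp only [ofList, Finset.sum_range_succ, Finset.sum_range_zero,
      List.length_cons, List.length_nil, List.getD_cons_zero, List.getD_cons_succ, map_ofNat, map_one]
    ring
  · show g 13 2 = ofList [3, 3, 1]
    rw [g_of_ne_zero _ (by decide)]
    simp only [ofList, Finset.sum_range_succ, Finset.sum_range_zero,
      List.length_cons, List.length_nil, List.getD_cons_zero, List.getD_cons_succ, map_ofNat, map_one]
    ring
  · show g 13 3 = ofList [4, 6, 4, 1]
    rw [g_of_ne_zero _ (by decide)]
    simp only [ofList, Finset.sum_range_succ, Finset.sum_range_zero,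
      List.length_cons, List.length_nil, List.getD_cons_zero, List.getD_cons_succ, map_ofNat, map_one]
    ring
  · show g 13 4 = ofList [5, 10, 10, 5, 1]
    rw [g_of_ne_zero _ (by decide)]
    simp only [ofList, Finset.sum_range_succ, Finset.sum_range_zero,
      List.length_cons, List.length_nil, List.getD_cons_zero, List.getD_cons_succ, map_ofNat, map_one]
    ring
  · show g 13 5 = ofList [6, 15, 20, 15, 6, 1]
    rw [g_of_ne_zero _ (by decide)]
    simp only [ofList, Finset.sum_range_succ, Finset.sum_range_zero,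
      List.length_cons, List.length_nil, List.getD_cons_zero, List.getD_cons_succ, map_ofNat, map_one]
    ring

theorem core_thirteen : Core 13 := by
  refine ⟨fun a => ofList (wList_thirteen a), fun a => ?_, fun c hc => ?_⟩
  · rw [g_eq_ofList_thirteen]
    refine X_pow_dvd_mul_sub_derivative _ _ _ ?_
    revert a
    decide
  · exact eq_zero_of_X_pow_dvd (n := 11) wList_thirteen nMat_thirteen (by decide) c hc


/-- The core independence statement for `p ∈ {5, 7, 11, 13}`. -/
theorem core_all {p : ℕ} (hp : p = 5 ∨ p = 7 ∨ p = 11 ∨ p = 13) : Core p := by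
  rcases hp with rfl | rfl | rfl | rfl
  · exact core_five
  · exact core_seven
  · exact core_eleven
  · exact core_thirteen

/-- The core independence statement, unfolded (interface of slice (C)). -/
theorem core (p : ℕ) (hp : p = 5 ∨ p = 7 ∨ p = 11 ∨ p = 13) :
    ∃ W : Fin ((p - 1) / 2) → (ZMod p)[X],
      (∀ a : Fin ((p - 1) / 2), X ^ (p - 2) ∣ g p a * W a - derivative (g p a)) ∧
      ∀ c : Fin ((p - 1) / 2) → ZMod p, X ^ (p - 2) ∣ ∑ a, C (c a) * W a → c = 0 :=
  core_all hp

end Fermat.Agent.Kummer.KLCore
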