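import Mathlib
import Fermat.Agent.Kummer.KLCore
import Fermat.Agent.Kummer.KLMain

/-!
# Kummer's lemma: the independence hypothesis `IndepHyp p` for `p ∈ {5, 7, 11, 13}`

We derive `KLMain.IndepHyp p` from the explicit certificates of `KLCore.core`.
-/

set_option autoImplicit false

namespace Fermat.Agent.Kummer.KLIndepHyp

open Polynomial Fermat.Agent.Kummer.KLTheta

/-- A polynomial with unit constant coefficient is a unit modulo `X ^ n`. -/
theorem isUnit_tmk_of_isUnit_coeff_zero {p : ℕ} (n : ℕ) (f : (ZMod p)[X])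
    (hf : IsUnit (f.coeff 0)) : IsUnit (tmk p n f) := by
  obtain ⟨u, hu⟩ := hf
  have hcop : IsCoprime (X : (ZMod p)[X]) f := by
    refine ⟨-(C ((u⁻¹ : (ZMod p)ˣ) : ZMod p) * f.divX), C ((u⁻¹ : (ZMod p)ˣ) : ZMod p), ?_⟩
    have h1 : X * f.divX + C (f.coeff 0) = f := X_mul_divX_add f
    have h2 : C ((u⁻¹ : (ZMod p)ˣ) : ZMod p) * C (f.coeff 0) = (1 : (ZMod p)[X]) := by
      rw [← C_mul, ← hu, Units.inv_mul, C_1]
    calc -(C ((u⁻¹ : (ZMod p)ˣ) : ZMod p) * f.divX) * X + C ((u⁻¹ : (ZMod p)ˣ) : ZMod p) * f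
        = -(C ((u⁻¹ : (ZMod p)ˣ) : ZMod p) * f.divX) * X
          + C ((u⁻¹ : (ZMod p)ˣ) : ZMod p) * (X * f.divX + C (f.coeff 0)) := by rw [h1]
      _ = C ((u⁻¹ : (ZMod p)ˣ) : ZMod p) * C (f.coeff 0) := by ring
      _ = 1 := h2
  obtain ⟨a, b, hab⟩ := hcop.pow_left (m := n)
  refine IsUnit.of_mul_eq_one (tmk p n b) ?_
  have h3 : tmk p n (a * X ^ n + b * f) = 1 := by rw [hab, map_one]
  rw [map_add, map_mul, map_mul] at h3
  have h4 : tmk p n (X ^ n) = 0 :=
    Ideal.Quotient.eq_zero_iff_mem.mpr (Ideal.mem_span_singleton_self _)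
  rw [h4, mul_zero, zero_add] at h3
  rw [mul_comm]
  exact h3

/-- The constant coefficient of `g p a`. -/
theorem coeff_zero_g (p a : ℕ) : (KLCore.g p a).coeff 0 = if a = 0 then 1 else ((a + 1 : ℕ) : ZMod p) := by
  unfold KLCore.g
  split_ifs with h
  · simp
  · rw [coeff_zero_eq_eval_zero, eval_finsetSum]
    simp

theorem isUnit_coeff_zero_g (p : ℕ) [Fact p.Prime] {a : ℕ} (ha : a + 1 < p) :
    IsUnit ((KLCore.g p a).coeff 0) := by
  rw [coeff_zero_g]
  split_ifs with h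
  · exact isUnit_one
  · rw [isUnit_iff_ne_zero, Ne, ZMod.natCast_eq_zero_iff]
    exact Nat.not_dvd_of_pos_of_lt (Nat.succ_pos a) ha

/-- **Independence hypothesis** of `KLMain` for `p ∈ {5, 7, 11, 13}`. -/
theorem indepHyp (p : ℕ) [Fact p.Prime] (hp : p = 5 ∨ p = 7 ∨ p = 11 ∨ p = 13) :
    KLMain.IndepHyp p := by
  obtain ⟨W, hW, hind⟩ := KLCore.core p hp
  intro v hv
  have hp3 : 3 ≤ p := by rcases hp with rfl | rfl | rfl | rfl <;> norm_num
  -- `v a = mk (W a)`
  have hvW : ∀ a, v a = tmk p (p - 2) (W a) := by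
    intro a
    have hunit : IsUnit (tmk p (p - 2) (KLCore.g p (a : ℕ))) := by
      refine isUnit_tmk_of_isUnit_coeff_zero _ _ (isUnit_coeff_zero_g p ?_)
      have := a.2
      omega
    have h1 : tmk p (p - 2) (W a) * tmk p (p - 2) (KLCore.g p (a : ℕ))
        = tmk p (p - 2) (derivative (KLCore.g p (a : ℕ))) := by
      rw [← map_mul, mul_comm]
      have := Ideal.Quotient.eq_zero_iff_mem.mpr (Ideal.mem_span_singleton.mpr (hW a))
      rw [map_sub, sub_eq_zero] at this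
      exact this
    have h2 : v a * tmk p (p - 2) (KLCore.g p (a : ℕ))
        = tmk p (p - 2) (derivative (KLCore.g p (a : ℕ))) := hv a
    exact hunit.mul_right_cancel (h2.trans h1.symm)
  rw [Fintype.linearIndependent_iff]
  intro c hc
  have h3 : tmk p (p - 2) (∑ a, C (c a) * W a) = 0 := by
    rw [map_sum, ← hc]
    refine Finset.sum_congr rfl fun a _ => ?_
    rw [hvW a, ← smul_eq_C_mul]
    rfl
  have h4 : X ^ (p - 2) ∣ ∑ a, C (c a) * W a :=
    Ideal.mem_span_singleton.mp (Ideal.Quotient.eq_zero_iff_mem.mp h3)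
  exact fun i => congrFun (hind c h4) i

end Fermat.Agent.Kummer.KLIndepHyp
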