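import Fermat.Agent.Kummer.KummersLemmaCore

/-!
# Kummer's lemma for `p ∈ {5, 7, 11, 13}`

A unit of `ℤ[ζ_p]` congruent to a rational integer modulo `p` is a `p`-th power.
The certificates below (matrices `Q`, `S`, `T`, `N`) were computed offline; Lean checks them by
`ring` (polynomial identities in `ℤ[X]`) and `decide` (a matrix identity over `𝔽_p`).
-/

open Polynomial NumberField

namespace Fermat.Agent.Kummer

/-- Exponents `a` of the cyclotomic units `1 + ζ + ⋯ + ζ^(a-1)` used for `p = 5`. -/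
def klA5 : Fin 2 → ℕ := ![4, 2]

/-- Coefficients of the logarithmic derivatives for `p = 5`. -/
def klQ5 : Matrix (Fin 2) (Fin 3) ℤ :=
  !![-1, 1, -1;
    -2, 1, 2]

/-- Certificate (multiples of `p`) for `p = 5`. -/
def klS5 : Matrix (Fin 2) (Fin 3) ℤ :=
  !![-2, -2, -1;
    -1, 0, 1]

/-- Certificate (multiples of `(X - 1)^3`) for `p = 5`. -/
def klT5 : Matrix (Fin 2) (Fin 3) ℤ :=
  !![-3, -3, -1;
    2, 0, 0]

/-- Right inverse of `klQ5` modulo `5`. -/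
def klN5 : Matrix (Fin 3) (Fin 2) (ZMod 5) :=
  !![1, 4;
    2, 4;
    0, 0]

theorem klCert5 : ∀ j, klPoly (klQ5 j) * (∑ i ∈ Finset.range (klA5 j), (X : ℤ[X]) ^ i) =
    derivative (∑ i ∈ Finset.range (klA5 j), (X : ℤ[X]) ^ i) +
      C ((5 : ℕ) : ℤ) * klPoly (klS5 j) + (X - 1) ^ 3 * klPoly (klT5 j) := by
  intro j
  fin_cases j <;>
  simp [klPoly, Fin.sum_univ_succ, Finset.sum_range_succ, klA5, klQ5, klS5, klT5] <;>
  ring

set_option maxRecDepth 100000 in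
theorem klInv5 : klQ5.map (Int.cast : ℤ → ZMod 5) * klN5 = 1 := by decide

theorem kummers_lemma_five [Fact (Nat.Prime 5)] {K : Type*} [Field K] [NumberField K]
    [IsCyclotomicExtension {5} ℚ K] (u : (𝓞 K)ˣ)
    (hcong : ∃ n : ℤ, ((5 : ℕ) : 𝓞 K) ∣ (u : 𝓞 K) - n) : ∃ v : (𝓞 K)ˣ, u = v ^ 5 :=
  kummers_lemma_of_cert K 5 (by norm_num) (m := 2) (by norm_num) 3 (by norm_num) klA5
    (by decide) klQ5 klS5 klT5 klN5 klCert5 klInv5 u hcong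

/-- Exponents `a` of the cyclotomic units `1 + ζ + ⋯ + ζ^(a-1)` used for `p = 7`. -/
def klA7 : Fin 3 → ℕ := ![6, 2, 3]

/-- Coefficients of the logarithmic derivatives for `p = 7`. -/
def klQ7 : Matrix (Fin 3) (Fin 5) ℤ :=
  !![-1, 1, -1, 1, -1;
    -3, -2, 1, 3, 2;
    1, 2, 0, -3, 3]

/-- Certificate (multiples of `p`) for `p = 7`. -/
def klS7 : Matrix (Fin 3) (Fin 5) ℤ :=
  !![-3, -7, -8, -4, -1;
    -1, -1, 0, 1, 1;
    0, 1, 1, -1, 0]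

/-- Certificate (multiples of `(X - 1)^5`) for `p = 7`. -/
def klT7 : Matrix (Fin 3) (Fin 5) ℤ :=
  !![-5, -10, -10, -5, -1;
    2, 0, 0, 0, 0;
    6, 3, 0, 0, 0]

/-- Right inverse of `klQ7` modulo `7`. -/
def klN7 : Matrix (Fin 5) (Fin 3) (ZMod 7) :=
  !![0, 3, 3;
    2, 4, 0;
    0, 0, 0;
    6, 6, 3;
    0, 0, 0]

theorem klCert7 : ∀ j, klPoly (klQ7 j) * (∑ i ∈ Finset.range (klA7 j), (X : ℤ[X]) ^ i) =
    derivative (∑ i ∈ Finset.range (klA7 j), (X : ℤ[X]) ^ i) +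
      C ((7 : ℕ) : ℤ) * klPoly (klS7 j) + (X - 1) ^ 5 * klPoly (klT7 j) := by
  intro j
  fin_cases j <;>
  simp [klPoly, Fin.sum_univ_succ, Finset.sum_range_succ, klA7, klQ7, klS7, klT7] <;>
  ring

set_option maxRecDepth 100000 in
theorem klInv7 : klQ7.map (Int.cast : ℤ → ZMod 7) * klN7 = 1 := by decide

theorem kummers_lemma_seven [Fact (Nat.Prime 7)] {K : Type*} [Field K] [NumberField K]
    [IsCyclotomicExtension {7} ℚ K] (u : (𝓞 K)ˣ)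
    (hcong : ∃ n : ℤ, ((7 : ℕ) : 𝓞 K) ∣ (u : 𝓞 K) - n) : ∃ v : (𝓞 K)ˣ, u = v ^ 7 :=
  kummers_lemma_of_cert K 7 (by norm_num) (m := 3) (by norm_num) 5 (by norm_num) klA7
    (by decide) klQ7 klS7 klT7 klN7 klCert7 klInv7 u hcong

/-- Exponents `a` of the cyclotomic units `1 + ζ + ⋯ + ζ^(a-1)` used for `p = 11`. -/
def klA11 : Fin 5 → ℕ := ![10, 2, 3, 4, 5]

/-- Coefficients of the logarithmic derivatives for `p = 11`. -/
def klQ11 : Matrix (Fin 5) (Fin 9) ℤ :=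
  !![-1, 1, -1, 1, -1, 1, -1, 1, -1;
    -5, -3, -4, 2, -1, -5, -3, -4, 2;
    1, -4, 0, 5, -5, -4, 2, 3, 0;
    -4, -3, 1, -3, -4, -5, 4, 0, 0;
    2, 0, -1, 3, 0, -5, 5, -5, 5]

/-- Certificate (multiples of `p`) for `p = 11`. -/
def klS11 : Matrix (Fin 5) (Fin 9) ℤ :=
  !![-5, -25, -65, -103, -107, -73, -32, -8, -1;
    -1, -1, -1, 0, 0, -1, -1, -1, 0;
    0, -1, -1, 1, 0, -2, -1, 1, 1;
    -2, -4, -3, -2, -3, -5, -3, 0, 1;
    0, 0, 0, 1, 2, 0, -1, -2, 0]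

/-- Certificate (multiples of `(X - 1)^9`) for `p = 11`. -/
def klT11 : Matrix (Fin 5) (Fin 9) ℤ :=
  !![-9, -36, -84, -126, -126, -84, -36, -9, -1;
    2, 0, 0, 0, 0, 0, 0, 0, 0;
    3, 0, 0, 0, 0, 0, 0, 0, 0;
    4, 0, 0, 0, 0, 0, 0, 0, 0;
    20, 30, 20, 5, 0, 0, 0, 0, 0]

/-- Right inverse of `klQ11` modulo `11`. -/
def klN11 : Matrix (Fin 9) (Fin 5) (ZMod 11) :=
  !![2, 6, 7, 0, 2;
    10, 8, 7, 4, 2;
    0, 0, 0, 0, 0;
    2, 0, 1, 3, 1;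
    0, 0, 0, 0, 0;
    0, 8, 5, 0, 1;
    0, 0, 0, 0, 0;
    2, 1, 5, 4, 9;
    0, 0, 0, 0, 0]

theorem klCert11 : ∀ j, klPoly (klQ11 j) * (∑ i ∈ Finset.range (klA11 j), (X : ℤ[X]) ^ i) =
    derivative (∑ i ∈ Finset.range (klA11 j), (X : ℤ[X]) ^ i) +
      C ((11 : ℕ) : ℤ) * klPoly (klS11 j) + (X - 1) ^ 9 * klPoly (klT11 j) := by
  intro j
  fin_cases j <;>
  simp [klPoly, Fin.sum_univ_succ, Finset.sum_range_succ, klA11, klQ11, klS11, klT11] <;>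
  ring

set_option maxRecDepth 100000 in
theorem klInv11 : klQ11.map (Int.cast : ℤ → ZMod 11) * klN11 = 1 := by decide

theorem kummers_lemma_eleven [Fact (Nat.Prime 11)] {K : Type*} [Field K] [NumberField K]
    [IsCyclotomicExtension {11} ℚ K] (u : (𝓞 K)ˣ)
    (hcong : ∃ n : ℤ, ((11 : ℕ) : 𝓞 K) ∣ (u : 𝓞 K) - n) : ∃ v : (𝓞 K)ˣ, u = v ^ 11 :=
  kummers_lemma_of_cert K 11 (by norm_num) (m := 5) (by norm_num) 9 (by norm_num) klA11
    (by decide) klQ11 klS11 klT11 klN11 klCert11 klInv11 u hcong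

/-- Exponents `a` of the cyclotomic units `1 + ζ + ⋯ + ζ^(a-1)` used for `p = 13`. -/
def klA13 : Fin 6 → ℕ := ![12, 2, 3, 4, 5, 6]

/-- Coefficients of the logarithmic derivatives for `p = 13`. -/
def klQ13 : Matrix (Fin 6) (Fin 11) ℤ :=
  !![-1, 1, -1, 1, -1, 1, -1, 1, -1, 1, -1;
    -6, 3, 5, 4, -2, 1, 6, -3, -5, -4, 2;
    1, 4, 0, 3, -3, 2, -1, -4, 0, -3, 3;
    -5, 3, -2, -2, 1, 1, -2, 5, 4, -4, 4;
    2, 0, -1, 6, 0, 2, -2, 4, -6, 3, 5;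
    -4, -5, 3, -5, -4, 1, 6, -6, 6, -6, 6]

/-- Certificate (multiples of `p`) for `p = 13`. -/
def klS13 : Matrix (Fin 6) (Fin 11) ℤ :=
  !![-6, -38, -127, -269, -391, -401, -292, -148, -50, -10, -1;
    -1, 0, 1, 1, 0, 0, 1, 0, -1, -1, 0;
    0, 1, 1, 1, 0, 0, 0, -1, -1, -1, 0;
    -2, -2, -1, -1, -1, 0, 0, 1, 3, 2, 1;
    0, 0, 0, 2, 4, 5, 3, 2, 0, -1, 1;
    -3, -10, -14, -13, -11, -11, -7, -1, 4, 2, 1]

/-- Certificate (multiples of `(X - 1)^11`) for `p = 13`. -/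
def klT13 : Matrix (Fin 6) (Fin 11) ℤ :=
  !![-11, -55, -165, -330, -462, -462, -330, -165, -55, -11, -1;
    2, 0, 0, 0, 0, 0, 0, 0, 0, 0, 0;
    6, 3, 0, 0, 0, 0, 0, 0, 0, 0, 0;
    12, 12, 4, 0, 0, 0, 0, 0, 0, 0, 0;
    54, 59, 28, 5, 0, 0, 0, 0, 0, 0, 0;
    30, 60, 60, 30, 6, 0, 0, 0, 0, 0, 0]

/-- Right inverse of `klQ13` modulo `13`. -/
def klN13 : Matrix (Fin 11) (Fin 6) (ZMod 13) :=
  !![12, 10, 12, 7, 4, 4;
    10, 2, 12, 11, 2, 1;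
    0, 0, 0, 0, 0, 0;
    10, 10, 2, 9, 2, 2;
    0, 0, 0, 0, 0, 0;
    4, 7, 4, 9, 7, 11;
    0, 0, 0, 0, 0, 0;
    6, 11, 0, 6, 1, 1;
    0, 0, 0, 0, 0, 0;
    9, 6, 7, 11, 5, 2;
    0, 0, 0, 0, 0, 0]

theorem klCert13 : ∀ j, klPoly (klQ13 j) * (∑ i ∈ Finset.range (klA13 j), (X : ℤ[X]) ^ i) =
    derivative (∑ i ∈ Finset.range (klA13 j), (X : ℤ[X]) ^ i) +
      C ((13 : ℕ) : ℤ) * klPoly (klS13 j) + (X - 1) ^ 11 * klPoly (klT13 j) := by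
  intro j
  fin_cases j <;>
  simp [klPoly, Fin.sum_univ_succ, Finset.sum_range_succ, klA13, klQ13, klS13, klT13] <;>
  ring

set_option maxRecDepth 100000 in
theorem klInv13 : klQ13.map (Int.cast : ℤ → ZMod 13) * klN13 = 1 := by decide

theorem kummers_lemma_thirteen [Fact (Nat.Prime 13)] {K : Type*} [Field K] [NumberField K]
    [IsCyclotomicExtension {13} ℚ K] (u : (𝓞 K)ˣ)
    (hcong : ∃ n : ℤ, ((13 : ℕ) : 𝓞 K) ∣ (u : 𝓞 K) - n) : ∃ v : (𝓞 K)ˣ, u = v ^ 13 :=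
  kummers_lemma_of_cert K 13 (by norm_num) (m := 6) (by norm_num) 11 (by norm_num) klA13
    (by decide) klQ13 klS13 klT13 klN13 klCert13 klInv13 u hcong

/-- **Kummer's lemma** for `p ∈ {5, 7, 11, 13}`: a unit of `ℤ[ζ_p]` which is congruent to a
rational integer modulo `p` is a `p`-th power of a unit. -/
theorem eq_pow_prime_of_unit_of_congruent {p : ℕ} [Fact p.Prime]
    (hp : p = 5 ∨ p = 7 ∨ p = 11 ∨ p = 13) {K : Type*} [Field K] [NumberField K]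
    [IsCyclotomicExtension {p} ℚ K] (u : (𝓞 K)ˣ)
    (hcong : ∃ n : ℤ, (p : 𝓞 K) ∣ (u : 𝓞 K) - n) : ∃ v : (𝓞 K)ˣ, u = v ^ p := by
  rcases hp with rfl | rfl | rfl | rfl
  · exact kummers_lemma_five u hcong
  · exact kummers_lemma_seven u hcong
  · exact kummers_lemma_eleven u hcong
  · exact kummers_lemma_thirteen u hcong

end Fermat.Agent.Kummer
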