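import Mathlib

/-!
# Kummer's lemma via logarithmic derivatives modulo `p` (generic part)

For an odd prime `p` and `K = ℚ(ζ_p)` we build a ring homomorphism
`Θ : 𝓞 K → (𝔽_p[y]/(y^n))[ε]`, `ζ ↦ 1 + y + ε` (for `n + 2 ≤ p`), whose `ε`-component is a
derivation.  The logarithmic derivative `u ↦ snd (Θ u) / fst (Θ u)` is a group homomorphism
`(𝓞 K)ˣ → 𝔽_p[y]/(y^n)` which vanishes on units congruent to a rational integer mod `p`.
By Dirichlet's unit theorem `(𝓞 K)ˣ` is generated by `(p - 1)/2` elements, so as soon as the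
logarithmic derivatives of `(p - 1)/2` explicit (cyclotomic) units are linearly independent
over `𝔽_p`, the kernel of the logarithmic derivative is exactly the group of `p`-th powers.
The independence is reduced to an explicit certificate (`kummers_lemma_of_cert`).
-/

open Polynomial NumberField Module

namespace Fermat.Agent.Kummer

/-- Abstract linear-algebra core: a commutative group generated by `card ι` elements, with a
homomorphism to an `𝔽_p`-vector space whose image contains `card ι` independent vectors: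
the kernel consists of `p`-th powers. -/
theorem exists_pow_eq_of_hom_eq_one {E : Type*} [CommGroup E] {p : ℕ} [Fact p.Prime]
    {V : Type*} [AddCommGroup V] [Module (ZMod p) V]
    (L : E →* Multiplicative V) {ι : Type*} [Fintype ι] (g : ι → E)
    (hg : ∀ x : E, ∃ e : ι → ℤ, x = ∏ i, g i ^ e i)
    {ι' : Type*} [Fintype ι'] (w : ι' → E) (hcard : Fintype.card ι ≤ Fintype.card ι')
    (hw : LinearIndependent (ZMod p) (fun j => (L (w j)).toAdd))
    (u : E) (hu : L u = 1) : ∃ v : E, u = v ^ p := by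
  classical
  set b : ι → V := fun i => (L (g i)).toAdd with hb
  -- L of a product
  have hL : ∀ e : ι → ℤ, (L (∏ i, g i ^ e i)).toAdd = ∑ i, ((e i : ℤ) : ZMod p) • b i := by
    intro e
    rw [map_prod, toAdd_prod]
    refine Finset.sum_congr rfl fun i _ => ?_
    rw [map_zpow, toAdd_zpow, Int.cast_smul_eq_zsmul]
  -- span of the w-images is inside the span of the b's
  have hspan : Submodule.span (ZMod p) (Set.range fun j => (L (w j)).toAdd) ≤
      Submodule.span (ZMod p) (Set.range b) := by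
    rw [Submodule.span_le]
    rintro _ ⟨j, rfl⟩
    obtain ⟨e, he⟩ := hg (w j)
    simp only [SetLike.mem_coe]
    rw [he, hL]
    exact Submodule.sum_mem _ fun i _ => Submodule.smul_mem _ _ (Submodule.subset_span ⟨i, rfl⟩)
  have hfin : Fintype.card ι' ≤ finrank (ZMod p) (Submodule.span (ZMod p) (Set.range b)) := by
    rw [← finrank_span_eq_card hw]
    have : Module.Finite (ZMod p) (Submodule.span (ZMod p) (Set.range b)) :=
      FiniteDimensional.span_of_finite (ZMod p) (Set.finite_range b)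
    exact Submodule.finrank_mono hspan
  have hle : finrank (ZMod p) (Submodule.span (ZMod p) (Set.range b)) ≤ Fintype.card ι :=
    finrank_range_le_card b
  have hbind : LinearIndependent (ZMod p) b := by
    rw [linearIndependent_iff_card_eq_finrank_span]
    exact le_antisymm (hcard.trans hfin) hle
  obtain ⟨e, he⟩ := hg u
  have h0 : ∑ i, ((e i : ℤ) : ZMod p) • b i = 0 := by
    rw [← hL, ← he, hu]; rfl
  have hz := Fintype.linearIndependent_iff.mp hbind _ h0
  have hdvd : ∀ i, (p : ℤ) ∣ e i := fun i => (ZMod.intCast_zmod_eq_zero_iff_dvd _ _).mp (hz i)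
  choose e' he' using hdvd
  refine ⟨∏ i, g i ^ e' i, ?_⟩
  rw [he, ← Finset.prod_pow]
  refine Finset.prod_congr rfl fun i _ => ?_
  rw [he' i, mul_comm, zpow_mul, zpow_natCast]


/-- Dirichlet's unit theorem, in the form needed: if a homomorphism from the units to an
`𝔽_p`-vector space takes `rank + 1` units to independent vectors, its kernel consists of `p`-th
powers. -/
theorem units_exists_pow_eq_of_hom_eq_one {K : Type*} [Field K] [NumberField K] {p : ℕ}
    [Fact p.Prime] {V : Type*} [AddCommGroup V] [Module (ZMod p) V]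
    (L : (𝓞 K)ˣ →* Multiplicative V) {ι' : Type*} [Fintype ι'] (w : ι' → (𝓞 K)ˣ)
    (hcard : Units.rank K + 1 ≤ Fintype.card ι')
    (hw : LinearIndependent (ZMod p) (fun j => (L (w j)).toAdd)) (u : (𝓞 K)ˣ) (hu : L u = 1) :
    ∃ v : (𝓞 K)ˣ, u = v ^ p := by
  obtain ⟨t, ht⟩ := IsCyclic.exists_generator (α := Units.torsion K)
  refine exists_pow_eq_of_hom_eq_one L (ι := Option (Fin (Units.rank K)))
    (fun o => o.elim (t : (𝓞 K)ˣ) (Units.fundSystem K)) ?_ w (by simpa using hcard) hw u hu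
  intro x
  obtain ⟨⟨ζ, e⟩, hx, -⟩ := Units.exist_unique_eq_mul_prod K x
  obtain ⟨k, hk⟩ := Subgroup.mem_zpowers_iff.mp (ht ζ)
  refine ⟨fun o => o.elim k e, ?_⟩
  rw [Fintype.prod_option]
  simp only [Option.elim]
  rw [hx, ← hk]
  simp

noncomputable section

set_option linter.style.haveILetI false

/-- The truncated polynomial ring `𝔽_p[y]/(y^n)`. -/
abbrev KLRing (p n : ℕ) : Type := AdjoinRoot ((X : (ZMod p)[X]) ^ n)

/-- The class of `y` in `𝔽_p[y]/(y^n)`. -/
def klY (p n : ℕ) : KLRing p n := AdjoinRoot.root _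

theorem klY_pow (p n : ℕ) : klY p n ^ n = 0 := by
  have h := AdjoinRoot.mk_self (f := (X : (ZMod p)[X]) ^ n)
  rw [map_pow, AdjoinRoot.mk_X] at h
  exact h

theorem cyclotomic_comp_X_add_one_zmod (p : ℕ) [hp : Fact p.Prime] :
    (cyclotomic p (ZMod p)).comp (X + 1) = X ^ (p - 1) := by
  have h := cyclotomic_prime_mul_X_sub_one (ZMod p) p
  have h2 : ((cyclotomic p (ZMod p)).comp (X + 1)) * X = X ^ (p - 1) * X := by
    have h3 := congrArg (fun f => f.comp (X + 1)) h
    simp only [mul_comp, sub_comp, X_comp, one_comp, pow_comp, add_sub_cancel_right] at h3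
    rw [h3, add_pow_char, one_pow, add_sub_cancel_right, ← pow_succ,
      Nat.sub_add_cancel hp.out.one_le]
  exact mul_right_cancel₀ X_ne_zero h2

/-- The element `(1 + y) + ε` of the dual numbers over `𝔽_p[y]/(y^n)`. -/
def klT (p n : ℕ) : DualNumber (KLRing p n) :=
  TrivSqZeroExt.inl (1 + klY p n) + TrivSqZeroExt.inr 1

theorem klT_sub_one_pow (p n : ℕ) : (klT p n - 1) ^ (n + 1) = 0 := by
  have h1 : klT p n - 1 = TrivSqZeroExt.inl (klY p n) + TrivSqZeroExt.inr 1 := by
    simp [klT, TrivSqZeroExt.inl_add]; abel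
  have h2 := aeval_add_of_sq_eq_zero (R := ℤ) (X ^ (n + 1) : ℤ[X])
    (TrivSqZeroExt.inl (klY p n) : DualNumber (KLRing p n)) (TrivSqZeroExt.inr 1)
    (by rw [sq, TrivSqZeroExt.inr_mul_inr])
  rw [h1]
  simp only [map_pow, aeval_X, derivative_X_pow, map_mul, map_natCast] at h2
  rw [h2, TrivSqZeroExt.inl_pow, TrivSqZeroExt.inl_pow, Nat.add_sub_cancel, pow_succ, klY_pow]
  simp

theorem aeval_klT_cyclotomic (p n : ℕ) [hp : Fact p.Prime] (h : n + 2 ≤ p) :
    aeval (klT p n) (cyclotomic p ℤ) = 0 := by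
  have h1 : aeval (klT p n) (cyclotomic p ℤ) = aeval (klT p n) (cyclotomic p (ZMod p)) := by
    rw [← map_cyclotomic_int p (ZMod p), ← algebraMap_int_eq, aeval_map_algebraMap]
  have h2 : klT p n = aeval (klT p n - 1) (X + 1 : (ZMod p)[X]) := by simp
  rw [h1, h2, ← aeval_comp, cyclotomic_comp_X_add_one_zmod, map_pow, aeval_X]
  have : p - 1 = (n + 1) + (p - 2 - n) := by omega
  rw [this, pow_add, klT_sub_one_pow, zero_mul]

theorem klY_pow_linearIndependent (p n : ℕ) [Fact p.Prime] :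
    LinearIndependent (ZMod p) (fun k : Fin n => klY p n ^ (k : ℕ)) := by
  rw [Fintype.linearIndependent_iff]
  intro c hc k
  have h1 : AdjoinRoot.mk ((X : (ZMod p)[X]) ^ n) (∑ i : Fin n, C (c i) * X ^ (i : ℕ)) = 0 := by
    rw [map_sum, ← hc]
    refine Finset.sum_congr rfl fun i _ => ?_
    rw [map_mul, map_pow, AdjoinRoot.mk_X, AdjoinRoot.mk_C, Algebra.smul_def]
    rfl
  rw [AdjoinRoot.mk_eq_zero] at h1
  have h2 := eq_zero_of_dvd_of_degree_lt h1 (by rw [degree_X_pow]; exact degree_sum_fin_lt c)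
  have h3 := congrArg (fun f => f.coeff k) h2
  simp only [finsetSum_coeff, coeff_C_mul_X_pow, coeff_zero, Fin.val_inj] at h3
  simpa using h3

/-- Independence criterion: the rows of a matrix `Q` having a right inverse give independent
elements `∑ₖ Q j k • y^k` of `𝔽_p[y]/(y^n)`. -/
theorem kl_linearIndependent (p n : ℕ) [Fact p.Prime] {J : Type*} [Fintype J] [DecidableEq J]
    (Q : Matrix J (Fin n) (ZMod p)) (N : Matrix (Fin n) J (ZMod p)) (hQN : Q * N = 1) :
    LinearIndependent (ZMod p) (fun j => ∑ k : Fin n, Q j k • klY p n ^ (k : ℕ)) := by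
  rw [Fintype.linearIndependent_iff]
  intro c hc
  have h1 : ∑ k : Fin n, (Matrix.vecMul c Q k) • klY p n ^ (k : ℕ) = 0 := by
    rw [← hc]
    simp only [Matrix.vecMul, dotProduct, Finset.sum_smul, Finset.smul_sum, smul_smul]
    exact Finset.sum_comm
  have h2 : Matrix.vecMul c Q = 0 := by
    funext k
    exact Fintype.linearIndependent_iff.mp (klY_pow_linearIndependent p n) _ h1 k
  have h3 : c = Matrix.vecMul (Matrix.vecMul c Q) N := by
    rw [Matrix.vecMul_vecMul, hQN, Matrix.vecMul_one]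
  intro j
  rw [h3, h2, Matrix.zero_vecMul]
  rfl

/-- The integer polynomial `∑ₖ vₖ (X - 1)^k`. -/
def klPoly {n : ℕ} (v : Fin n → ℤ) : ℤ[X] := ∑ k : Fin n, C (v k) * (X - 1) ^ (k : ℕ)

theorem aeval_klPoly (p n : ℕ) (v : Fin n → ℤ) :
    aeval (1 + klY p n) (klPoly v) = ∑ k : Fin n, ((v k : ℤ) : ZMod p) • klY p n ^ (k : ℕ) := by
  simp only [klPoly, map_sum, map_mul, map_pow, map_sub, aeval_X, aeval_C, map_one,
    add_sub_cancel_left]
  refine Finset.sum_congr rfl fun k _ => ?_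
  rw [Algebra.smul_def]
  congr 1

section field

variable (K : Type*) [Field K] [NumberField K] (p : ℕ) [hp : Fact p.Prime]
  [hK : IsCyclotomicExtension {p} ℚ K]

/-- The chosen primitive `p`-th root of unity in `𝓞 K`. -/
def klZeta : 𝓞 K :=
  haveI : NeZero p := ⟨hp.out.ne_zero⟩
  (IsCyclotomicExtension.zeta_spec p ℚ K).toInteger

theorem minpoly_klZeta : minpoly ℤ (klZeta K p) = cyclotomic p ℤ := by
  haveI : NeZero p := ⟨hp.out.ne_zero⟩
  rw [← RingOfIntegers.minpoly_coe]
  exact (cyclotomic_eq_minpoly (IsCyclotomicExtension.zeta_spec p ℚ K) hp.out.pos).symm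

theorem klPowerBasis_gen :
    haveI : NeZero p := ⟨hp.out.ne_zero⟩
    (IsCyclotomicExtension.zeta_spec p ℚ K).integralPowerBasis.gen = klZeta K p := by
  haveI : NeZero p := ⟨hp.out.ne_zero⟩
  exact IsPrimitiveRoot.integralPowerBasis_gen _

/-- The ring homomorphism `𝓞 K → (𝔽_p[y]/(y^n))[ε]`, `ζ ↦ 1 + y + ε`. -/
def klTheta (n : ℕ) (h : n + 2 ≤ p) : 𝓞 K →ₐ[ℤ] DualNumber (KLRing p n) :=
  haveI : NeZero p := ⟨hp.out.ne_zero⟩
  (IsCyclotomicExtension.zeta_spec p ℚ K).integralPowerBasis.lift (klT p n) (by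
    rw [klPowerBasis_gen, minpoly_klZeta]
    exact aeval_klT_cyclotomic p n h)

theorem klTheta_zeta (n : ℕ) (h : n + 2 ≤ p) : klTheta K p n h (klZeta K p) = klT p n := by
  haveI : NeZero p := ⟨hp.out.ne_zero⟩
  rw [← klPowerBasis_gen]
  exact PowerBasis.lift_gen _ _ _

theorem aeval_inl (p n : ℕ) (a : KLRing p n) (f : ℤ[X]) :
    aeval (TrivSqZeroExt.inl a : DualNumber (KLRing p n)) f = TrivSqZeroExt.inl (aeval a f) :=
  aeval_algHom_apply ((TrivSqZeroExt.inlHom (KLRing p n) (KLRing p n)).toIntAlgHom) a f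

theorem klTheta_aeval (n : ℕ) (h : n + 2 ≤ p) (f : ℤ[X]) :
    klTheta K p n h (aeval (klZeta K p) f) =
      TrivSqZeroExt.inl (aeval (1 + klY p n) f) +
        TrivSqZeroExt.inr (aeval (1 + klY p n) (derivative f)) := by
  rw [← aeval_algHom_apply, klTheta_zeta, klT,
    aeval_add_of_sq_eq_zero _ _ _ (by rw [sq, TrivSqZeroExt.inr_mul_inr]),
    aeval_inl, aeval_inl, TrivSqZeroExt.inl_mul_inr, smul_eq_mul, mul_one]

/-- The `fst` component of `klTheta`, as a monoid homomorphism. -/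
def klFst (n : ℕ) (h : n + 2 ≤ p) : 𝓞 K →* KLRing p n where
  toFun x := (klTheta K p n h x).fst
  map_one' := by simp
  map_mul' x y := by simp [TrivSqZeroExt.fst_mul]

theorem klFst_apply (n : ℕ) (h : n + 2 ≤ p) (x : 𝓞 K) :
    klFst K p n h x = (klTheta K p n h x).fst := rfl

/-- The logarithmic derivative `(𝓞 K)ˣ → 𝔽_p[y]/(y^n)`, `u ↦ u'/u`. -/
def klDlog (n : ℕ) (h : n + 2 ≤ p) : (𝓞 K)ˣ →* Multiplicative (KLRing p n) :=
  MonoidHom.mk' (fun u => Multiplicative.ofAdd
    ((klTheta K p n h (u : 𝓞 K)).snd * ((Units.map (klFst K p n h) u)⁻¹ : (KLRing p n)ˣ))) (by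
    intro u v
    rw [← ofAdd_add]
    congr 1
    have hU : ((Units.map (klFst K p n h) u : (KLRing p n)ˣ) : KLRing p n) *
        ((Units.map (klFst K p n h) u)⁻¹ : (KLRing p n)ˣ) = 1 := Units.mul_inv _
    have hV : ((Units.map (klFst K p n h) v : (KLRing p n)ˣ) : KLRing p n) *
        ((Units.map (klFst K p n h) v)⁻¹ : (KLRing p n)ˣ) = 1 := Units.mul_inv _
    rw [Units.coe_map, klFst_apply] at hU hV
    rw [map_mul, mul_inv, Units.val_mul, Units.val_mul, map_mul, TrivSqZeroExt.snd_mul]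
    simp only [MulOpposite.smul_eq_mul_unop, MulOpposite.unop_op, smul_eq_mul]
    linear_combination
      ((klTheta K p n h (v : 𝓞 K)).snd * ((Units.map (klFst K p n h) v)⁻¹ : (KLRing p n)ˣ)) * hU +
      ((klTheta K p n h (u : 𝓞 K)).snd * ((Units.map (klFst K p n h) u)⁻¹ : (KLRing p n)ˣ)) * hV)

theorem klDlog_apply (n : ℕ) (h : n + 2 ≤ p) (u : (𝓞 K)ˣ) :
    (klDlog K p n h u).toAdd =
      (klTheta K p n h (u : 𝓞 K)).snd * ((Units.map (klFst K p n h) u)⁻¹ : (KLRing p n)ˣ) := rfl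

theorem klDlog_eq_one_of_dvd (n : ℕ) (h : n + 2 ≤ p) (u : (𝓞 K)ˣ) (k : ℤ)
    (hk : (p : 𝓞 K) ∣ (u : 𝓞 K) - k) : klDlog K p n h u = 1 := by
  obtain ⟨c, hc⟩ := hk
  have hu : (u : 𝓞 K) = k + p * c := by rw [← hc]; ring
  have hp0 : ((p : ℕ) : DualNumber (KLRing p n)) = 0 := by
    rw [← map_natCast (algebraMap (ZMod p) (DualNumber (KLRing p n))), ZMod.natCast_self, map_zero]
  have hsnd : (klTheta K p n h (u : 𝓞 K)).snd = 0 := by
    rw [hu, map_add, map_mul, map_natCast, map_intCast, hp0, zero_mul, add_zero]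
    exact TrivSqZeroExt.snd_intCast _
  have h2 : (klDlog K p n h u).toAdd = 0 := by rw [klDlog_apply, hsnd, zero_mul]
  exact h2

theorem klDlog_eq_of_cert (n : ℕ) (h : n + 2 ≤ p) (u : (𝓞 K)ˣ) (f q S T : ℤ[X])
    (hu : (u : 𝓞 K) = aeval (klZeta K p) f)
    (hq : q * f = derivative f + C (p : ℤ) * S + (X - 1) ^ n * T) :
    (klDlog K p n h u).toAdd = aeval (1 + klY p n) q := by
  have hp0 : ((p : ℕ) : KLRing p n) = 0 := by
    rw [← map_natCast (algebraMap (ZMod p) (KLRing p n)), ZMod.natCast_self, map_zero]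
  have h1 := congrArg (aeval (1 + klY p n)) hq
  simp only [map_mul, map_add, map_pow, map_sub, aeval_X, map_one, add_sub_cancel_left,
    klY_pow, zero_mul, add_zero, map_natCast, hp0] at h1
  have h2 : (klTheta K p n h (u : 𝓞 K)).snd = aeval (1 + klY p n) (derivative f) := by
    rw [hu, klTheta_aeval]; simp
  have h3 : ((Units.map (klFst K p n h) u : (KLRing p n)ˣ) : KLRing p n) =
      aeval (1 + klY p n) f := by
    rw [Units.coe_map, klFst_apply, hu, klTheta_aeval]; simp
  rw [klDlog_apply, h2, ← h1, ← h3, Units.mul_inv_cancel_right]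

theorem klRank_add_one (hp2 : 2 < p) : Units.rank K + 1 = (p - 1) / 2 := by
  haveI : NeZero p := ⟨hp.out.ne_zero⟩
  have h1 := IsCyclotomicExtension.Rat.nrRealPlaces_eq_zero (n := p) K hp2
  have h2 := IsCyclotomicExtension.Rat.nrComplexPlaces_eq_totient_div_two p K
  have h3 := InfinitePlace.card_eq_nrRealPlaces_add_nrComplexPlaces K
  rw [Units.rank, h3, h1, h2, Nat.totient_prime hp.out, zero_add]
  omega

/-- The cyclotomic unit `1 + ζ + ⋯ + ζ^(a-1)`. -/
def klEta (a : ℕ) (ha : a.Coprime p) : (𝓞 K)ˣ :=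
  haveI : NeZero p := ⟨hp.out.ne_zero⟩
  ((IsCyclotomicExtension.zeta_spec p ℚ K).toInteger_isPrimitiveRoot.geom_sum_isUnit
    hp.out.two_le ha).unit

theorem klEta_val (a : ℕ) (ha : a.Coprime p) :
    ((klEta K p a ha : (𝓞 K)ˣ) : 𝓞 K) =
      aeval (klZeta K p) (∑ i ∈ Finset.range a, (X : ℤ[X]) ^ i) := by
  rw [klEta, IsUnit.unit_spec, map_sum]
  simp only [map_pow, aeval_X]
  rfl

/-- **Kummer's lemma from a certificate.**  Given `m ≥ (p-1)/2` cyclotomic units
`η_a = 1 + ζ + ⋯ + ζ^(a-1)` together with integer matrices certifying that their logarithmic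
derivatives modulo `(p, (ζ - 1)^n)` are the rows of a matrix `Q` with a right inverse modulo `p`,
every unit congruent to a rational integer modulo `p` is a `p`-th power. -/
theorem kummers_lemma_of_cert (hp2 : 2 < p) {m : ℕ} (hm : (p - 1) / 2 ≤ m) (n : ℕ)
    (hn : n + 2 ≤ p) (a : Fin m → ℕ) (ha : ∀ j, (a j).Coprime p)
    (Q S T : Matrix (Fin m) (Fin n) ℤ) (N : Matrix (Fin n) (Fin m) (ZMod p))
    (hcert : ∀ j, klPoly (Q j) * (∑ i ∈ Finset.range (a j), (X : ℤ[X]) ^ i) =
      derivative (∑ i ∈ Finset.range (a j), (X : ℤ[X]) ^ i) + C (p : ℤ) * klPoly (S j) +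
        (X - 1) ^ n * klPoly (T j))
    (hQN : Q.map (Int.cast : ℤ → ZMod p) * N = 1)
    (u : (𝓞 K)ˣ) (hcong : ∃ k : ℤ, (p : 𝓞 K) ∣ (u : 𝓞 K) - k) :
    ∃ v : (𝓞 K)ˣ, u = v ^ p := by
  obtain ⟨k, hk⟩ := hcong
  have hdl : (fun j => (klDlog K p n hn (klEta K p (a j) (ha j))).toAdd) =
      fun j => ∑ k : Fin n, (Q.map (Int.cast : ℤ → ZMod p)) j k • klY p n ^ (k : ℕ) := by
    funext j
    rw [klDlog_eq_of_cert K p n hn _ _ _ _ _ (klEta_val K p (a j) (ha j)) (hcert j), aeval_klPoly]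
    rfl
  have hw : LinearIndependent (ZMod p)
      (fun j => (klDlog K p n hn (klEta K p (a j) (ha j))).toAdd) := by
    rw [hdl]
    exact kl_linearIndependent p n _ N hQN
  refine units_exists_pow_eq_of_hom_eq_one (klDlog K p n hn)
    (fun j => klEta K p (a j) (ha j)) ?_ hw u (klDlog_eq_one_of_dvd K p n hn u k hk)
  rw [klRank_add_one K p hp2]
  simpa using hm

end field

end

end Fermat.Agent.Kummer
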